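import Mathlib

/-!
# S52, B-data (helper360): the icosahedral (Klein / Rubin–Silverberg) family and its Tate chart

All objects are explicit polynomial expressions over an arbitrary commutative ring `R`;
all identities are proved by `ring` (file `FamilyIdentities.lean`).

* `famF c4 c6 T`, `famC4 c4 c6 T`, `famC6 c4 c6 T` : the family (`T`-degrees 12, 20, 30), with
  `famC4 c4 c6 0 = c4`, `famC6 c4 c6 0 = c6`, `famF c4 c6 0 = 1` and the syzygy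
  `famC4 ^ 3 - famC6 ^ 2 = (c4 ^ 3 - c6 ^ 2) * famF ^ 5`.
* `tateN c s`, `tateD c s` (`s`-degree 5, `tateN c 0 = c`, `tateD c 0 = 1`): the Tate-normal-form
  chart.  With `H5 X Y`, `T5 X Y` the binary forms giving `c₄`, `c₆` of the Tate normal form
  `y² + u(1-c)xy - u³c y = x³ - u²c x²`  (`c₄ = u⁴ H5 c 1`, `c₆ = u⁶ T5 c 1`):
  `famC4 (u^4 * H5 c 1) (u^6 * T5 c 1) T = u^4 * H5 (tateN c (u^2*T)) (tateD c (u^2*T))`,
  same for `famC6`/`T5`.  Hence the Tate normal form with parameters `c_T = N/D`, `u_T = u·D`,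
  i.e. the curve `y² + u(D-N)xy - u³ N D² y = x³ - u² N D x²`, has invariants `famC4 …`,
  `famC6 …`, and `(0,0)` is a point of order 5 on it.
* `tateQ c s` (quadratic): `famF = tateN' * tateD * tateQ` (`tateN = c * tateN'`),
  `N² - 11 N D - D² = (c² - 11c - 1) * tateQ⁵`.
-/

set_option autoImplicit false
set_option linter.unusedVariables false

namespace Fermat.Agent.S52.B.H360

variable {R : Type*} [CommRing R]

/-- coefficient of `T ^ 0` in `famF` -/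
def famF_0 (c4 c6 : R) : R := 1

/-- coefficient of `T ^ 1` in `famF` -/
def famF_1 (c4 c6 : R) : R := 0

/-- coefficient of `T ^ 2` in `famF` -/
def famF_2 (c4 c6 : R) : R := -66 * c4

/-- coefficient of `T ^ 3` in `famF` -/
def famF_3 (c4 c6 : R) : R := -440 * c6

/-- coefficient of `T ^ 4` in `famF` -/
def famF_4 (c4 c6 : R) : R := -1485 * c4 ^ 2

/-- coefficient of `T ^ 5` in `famF` -/
def famF_5 (c4 c6 : R) : R := -3168 * c4 * c6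

/-- coefficient of `T ^ 6` in `famF` -/
def famF_6 (c4 c6 : R) : R := 5940 * c4 ^ 3 - 10560 * c6 ^ 2

/-- coefficient of `T ^ 7` in `famF` -/
def famF_7 (c4 c6 : R) : R := -4752 * c4 ^ 2 * c6

/-- coefficient of `T ^ 8` in `famF` -/
def famF_8 (c4 c6 : R) : R := -66825 * c4 ^ 4 + 63360 * c4 * c6 ^ 2

/-- coefficient of `T ^ 9` in `famF` -/
def famF_9 (c4 c6 : R) : R := -142560 * c4 ^ 3 * c6 + 140800 * c6 ^ 3

/-- coefficient of `T ^ 10` in `famF` -/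
def famF_10 (c4 c6 : R) : R := -133650 * c4 ^ 5 + 133056 * c4 ^ 2 * c6 ^ 2

/-- coefficient of `T ^ 11` in `famF` -/
def famF_11 (c4 c6 : R) : R := -61560 * c4 ^ 4 * c6 + 61440 * c4 * c6 ^ 3

/-- coefficient of `T ^ 12` in `famF` -/
def famF_12 (c4 c6 : R) : R := 91125 * c4 ^ 6 - 193536 * c4 ^ 3 * c6 ^ 2 + 102400 * c6 ^ 4

/-- The twisted Klein form `F` (degree 12 in `T`). -/
def famF (c4 c6 T : R) : R :=
  famF_0 c4 c6
    + famF_1 c4 c6 * T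
    + famF_2 c4 c6 * T ^ 2
    + famF_3 c4 c6 * T ^ 3
    + famF_4 c4 c6 * T ^ 4
    + famF_5 c4 c6 * T ^ 5
    + famF_6 c4 c6 * T ^ 6
    + famF_7 c4 c6 * T ^ 7
    + famF_8 c4 c6 * T ^ 8
    + famF_9 c4 c6 * T ^ 9
    + famF_10 c4 c6 * T ^ 10
    + famF_11 c4 c6 * T ^ 11
    + famF_12 c4 c6 * T ^ 12

/-- coefficient of `T ^ 0` in `famC4` -/
def famC4_0 (c4 c6 : R) : R := c4

/-- coefficient of `T ^ 1` in `famC4` -/
def famC4_1 (c4 c6 : R) : R := 20 * c6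

/-- coefficient of `T ^ 2` in `famC4` -/
def famC4_2 (c4 c6 : R) : R := 190 * c4 ^ 2

/-- coefficient of `T ^ 3` in `famC4` -/
def famC4_3 (c4 c6 : R) : R := 1140 * c4 * c6

/-- coefficient of `T ^ 4` in `famC4` -/
def famC4_4 (c4 c6 : R) : R := -855 * c4 ^ 3 + 5700 * c6 ^ 2

/-- coefficient of `T ^ 5` in `famC4` -/
def famC4_5 (c4 c6 : R) : R := 15504 * c4 ^ 2 * c6

/-- coefficient of `T ^ 6` in `famC4` -/
def famC4_6 (c4 c6 : R) : R := 102600 * c4 ^ 4 - 63840 * c4 * c6 ^ 2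

/-- coefficient of `T ^ 7` in `famC4` -/
def famC4_7 (c4 c6 : R) : R := 259920 * c4 ^ 3 * c6 - 182400 * c6 ^ 3

/-- coefficient of `T ^ 8` in `famC4` -/
def famC4_8 (c4 c6 : R) : R := -1000350 * c4 ^ 5 + 1126320 * c4 ^ 2 * c6 ^ 2

/-- coefficient of `T ^ 9` in `famC4` -/
def famC4_9 (c4 c6 : R) : R := -7736040 * c4 ^ 4 * c6 + 7904000 * c4 * c6 ^ 3

/-- coefficient of `T ^ 10` in `famC4` -/
def famC4_10 (c4 c6 : R) : R := -10003500 * c4 ^ 6 - 5619744 * c4 ^ 3 * c6 ^ 2 + 15808000 * c6 ^ 4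

/-- coefficient of `T ^ 11` in `famC4` -/
def famC4_11 (c4 c6 : R) : R := -54685800 * c4 ^ 5 * c6 + 54853760 * c4 ^ 2 * c6 ^ 3

/-- coefficient of `T ^ 12` in `famC4` -/
def famC4_12 (c4 c6 : R) : R := -45015750 * c4 ^ 7 + 7202520 * c4 ^ 4 * c6 ^ 2 + 37939200 * c4 * c6 ^ 4

/-- coefficient of `T ^ 13` in `famC4` -/
def famC4_13 (c4 c6 : R) : R := -35089200 * c4 ^ 6 * c6 - 23201280 * c4 ^ 3 * c6 ^ 3 + 58368000 * c6 ^ 5

/-- coefficient of `T ^ 14` in `famC4` -/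
def famC4_14 (c4 c6 : R) : R := 207765000 * c4 ^ 8 - 495188640 * c4 ^ 5 * c6 ^ 2 + 287462400 * c4 ^ 2 * c6 ^ 4

/-- coefficient of `T ^ 15` in `famC4` -/
def famC4_15 (c4 c6 : R) : R := 415530000 * c4 ^ 7 * c6 - 882458496 * c4 ^ 4 * c6 ^ 3 + 466944000 * c4 * c6 ^ 5

/-- coefficient of `T ^ 16` in `famC4` -/
def famC4_16 (c4 c6 : R) : R := -77911875 * c4 ^ 9 + 714711600 * c4 ^ 6 * c6 ^ 2 - 1220474880 * c4 ^ 3 * c6 ^ 4 + 583680000 * c6 ^ 6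

/-- coefficient of `T ^ 17` in `famC4` -/
def famC4_17 (c4 c6 : R) : R := 353200500 * c4 ^ 8 * c6 - 715080960 * c4 ^ 5 * c6 ^ 3 + 361881600 * c4 ^ 2 * c6 ^ 5

/-- coefficient of `T ^ 18` in `famC4` -/
def famC4_18 (c4 c6 : R) : R := 779118750 * c4 ^ 10 - 2182917600 * c4 ^ 7 * c6 ^ 2 + 2026391040 * c4 ^ 4 * c6 ^ 4 - 622592000 * c4 * c6 ^ 6

/-- coefficient of `T ^ 19` in `famC4` -/
def famC4_19 (c4 c6 : R) : R := 694372500 * c4 ^ 9 * c6 - 2044414080 * c4 ^ 6 * c6 ^ 3 + 2005401600 * c4 ^ 3 * c6 ^ 5 - 655360000 * c6 ^ 7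

/-- coefficient of `T ^ 20` in `famC4` -/
def famC4_20 (c4 c6 : R) : R := 184528125 * c4 ^ 11 - 549301500 * c4 ^ 8 * c6 ^ 2 + 544997376 * c4 ^ 5 * c6 ^ 4 - 180224000 * c4 ^ 2 * c6 ^ 6

/-- `c₄` of the family (degree 20 in `T`). -/
def famC4 (c4 c6 T : R) : R :=
  famC4_0 c4 c6
    + famC4_1 c4 c6 * T
    + famC4_2 c4 c6 * T ^ 2
    + famC4_3 c4 c6 * T ^ 3
    + famC4_4 c4 c6 * T ^ 4
    + famC4_5 c4 c6 * T ^ 5
    + famC4_6 c4 c6 * T ^ 6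
    + famC4_7 c4 c6 * T ^ 7
    + famC4_8 c4 c6 * T ^ 8
    + famC4_9 c4 c6 * T ^ 9
    + famC4_10 c4 c6 * T ^ 10
    + famC4_11 c4 c6 * T ^ 11
    + famC4_12 c4 c6 * T ^ 12
    + famC4_13 c4 c6 * T ^ 13
    + famC4_14 c4 c6 * T ^ 14
    + famC4_15 c4 c6 * T ^ 15
    + famC4_16 c4 c6 * T ^ 16
    + famC4_17 c4 c6 * T ^ 17
    + famC4_18 c4 c6 * T ^ 18
    + famC4_19 c4 c6 * T ^ 19
    + famC4_20 c4 c6 * T ^ 20

/-- coefficient of `T ^ 0` in `famC6` -/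
def famC6_0 (c4 c6 : R) : R := c6

/-- coefficient of `T ^ 1` in `famC6` -/
def famC6_1 (c4 c6 : R) : R := 30 * c4 ^ 2

/-- coefficient of `T ^ 2` in `famC6` -/
def famC6_2 (c4 c6 : R) : R := 435 * c4 * c6

/-- coefficient of `T ^ 3` in `famC6` -/
def famC6_3 (c4 c6 : R) : R := 1160 * c4 ^ 3 + 2900 * c6 ^ 2

/-- coefficient of `T ^ 4` in `famC6` -/
def famC6_4 (c4 c6 : R) : R := 27405 * c4 ^ 2 * c6

/-- coefficient of `T ^ 5` in `famC6` -/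
def famC6_5 (c4 c6 : R) : R := 95526 * c4 ^ 4 + 46980 * c4 * c6 ^ 2

/-- coefficient of `T ^ 6` in `famC6` -/
def famC6_6 (c4 c6 : R) : R := 437175 * c4 ^ 3 * c6 + 156600 * c6 ^ 3

/-- coefficient of `T ^ 7` in `famC6` -/
def famC6_7 (c4 c6 : R) : R := -1879200 * c4 ^ 5 + 3915000 * c4 ^ 2 * c6 ^ 2

/-- coefficient of `T ^ 8` in `famC6` -/
def famC6_8 (c4 c6 : R) : R := -8554275 * c4 ^ 4 * c6 + 14407200 * c4 * c6 ^ 3

/-- coefficient of `T ^ 9` in `famC6` -/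
def famC6_9 (c4 c6 : R) : R := 24312150 * c4 ^ 6 - 42021000 * c4 ^ 3 * c6 ^ 2 + 32016000 * c6 ^ 4

/-- coefficient of `T ^ 10` in `famC6` -/
def famC6_10 (c4 c6 : R) : R := 246633255 * c4 ^ 5 * c6 - 216588240 * c4 ^ 2 * c6 ^ 3

/-- coefficient of `T ^ 11` in `famC6` -/
def famC6_11 (c4 c6 : R) : R := 162081000 * c4 ^ 7 + 1352475900 * c4 ^ 4 * c6 ^ 2 - 1459929600 * c4 * c6 ^ 4

/-- coefficient of `T ^ 12` in `famC6` -/
def famC6_12 (c4 c6 : R) : R := 4131714825 * c4 ^ 6 * c6 - 1612005600 * c4 ^ 3 * c6 ^ 3 - 2433216000 * c6 ^ 5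

/-- coefficient of `T ^ 13` in `famC6` -/
def famC6_13 (c4 c6 : R) : R := 6928962750 * c4 ^ 8 + 5235216300 * c4 ^ 5 * c6 ^ 2 - 12044419200 * c4 ^ 2 * c6 ^ 4

/-- coefficient of `T ^ 14` in `famC6` -/
def famC6_14 (c4 c6 : R) : R := 43190534475 * c4 ^ 7 * c6 - 43045111800 * c4 ^ 4 * c6 ^ 3

/-- coefficient of `T ^ 15` in `famC6` -/
def famC6_15 (c4 c6 : R) : R := 79575287760 * c4 ^ 6 * c6 ^ 2 - 79420170240 * c4 ^ 3 * c6 ^ 4

/-- coefficient of `T ^ 16` in `famC6` -/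
def famC6_16 (c4 c6 : R) : R := -176688550125 * c4 ^ 8 * c6 + 474659611200 * c4 ^ 5 * c6 ^ 3 - 297825638400 * c4 ^ 2 * c6 ^ 5

/-- coefficient of `T ^ 17` in `famC6` -/
def famC6_17 (c4 c6 : R) : R := -311803323750 * c4 ^ 10 + 77604382800 * c4 ^ 7 * c6 ^ 2 + 935084908800 * c4 ^ 4 * c6 ^ 4 - 700766208000 * c4 * c6 ^ 6

/-- coefficient of `T ^ 18` in `famC6` -/
def famC6_18 (c4 c6 : R) : R := -1694131392375 * c4 ^ 9 * c6 + 2776512362400 * c4 ^ 6 * c6 ^ 3 - 303665356800 * c4 ^ 3 * c6 ^ 5 - 778629120000 * c6 ^ 7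

/-- coefficient of `T ^ 19` in `famC6` -/
def famC6_19 (c4 c6 : R) : R := -328214025000 * c4 ^ 11 - 3481840250100 * c4 ^ 8 * c6 ^ 2 + 8100765158400 * c4 ^ 5 * c6 ^ 4 - 4290656256000 * c4 ^ 2 * c6 ^ 6

/-- coefficient of `T ^ 20` in `famC6` -/
def famC6_20 (c4 c6 : R) : R := -2874607835625 * c4 ^ 10 * c6 + 2424887357760 * c4 ^ 7 * c6 ^ 3 + 3892110842880 * c4 ^ 4 * c6 ^ 5 - 3442360320000 * c4 * c6 ^ 7

/-- coefficient of `T ^ 21` in `famC6` -/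
def famC6_21 (c4 c6 : R) : R := -2215444668750 * c4 ^ 12 + 3077188825500 * c4 ^ 9 * c6 ^ 2 - 2709129888000 * c4 ^ 6 * c6 ^ 4 + 5125838438400 * c4 ^ 3 * c6 ^ 6 - 3278438400000 * c6 ^ 8

/-- coefficient of `T ^ 22` in `famC6` -/
def famC6_22 (c4 c6 : R) : R := -1403114956875 * c4 ^ 11 * c6 - 1724509423800 * c4 ^ 8 * c6 ^ 3 + 7701051801600 * c4 ^ 5 * c6 ^ 5 - 4573421568000 * c4 ^ 2 * c6 ^ 7

/-- coefficient of `T ^ 23` in `famC6` -/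
def famC6_23 (c4 c6 : R) : R := 7705894500000 * c4 ^ 13 - 33414470973000 * c4 ^ 10 * c6 ^ 2 + 49888700928000 * c4 ^ 7 * c6 ^ 4 - 30337884979200 * c4 ^ 4 * c6 ^ 6 + 6157762560000 * c4 * c6 ^ 8

/-- coefficient of `T ^ 24` in `famC6` -/
def famC6_24 (c4 c6 : R) : R := 5089101159375 * c4 ^ 12 * c6 - 22687218914400 * c4 ^ 9 * c6 ^ 3 + 35246094796800 * c4 ^ 6 * c6 ^ 5 - 22779445248000 * c4 ^ 3 * c6 ^ 7 + 5131468800000 * c6 ^ 9

/-- coefficient of `T ^ 25` in `famC6` -/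
def famC6_25 (c4 c6 : R) : R := -17627233668750 * c4 ^ 14 + 70097953635000 * c4 ^ 11 * c6 ^ 2 - 105528606261120 * c4 ^ 8 * c6 ^ 4 + 71274600677376 * c4 ^ 5 * c6 ^ 6 - 18216714240000 * c4 ^ 2 * c6 ^ 8

/-- coefficient of `T ^ 26` in `famC6` -/
def famC6_26 (c4 c6 : R) : R := -40985726371875 * c4 ^ 13 * c6 + 163672057566000 * c4 ^ 10 * c6 ^ 3 - 245438120632320 * c4 ^ 7 * c6 ^ 5 + 163803539865600 * c4 ^ 4 * c6 ^ 7 - 41051750400000 * c4 * c6 ^ 9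

/-- coefficient of `T ^ 27` in `famC6` -/
def famC6_27 (c4 c6 : R) : R := -9632368125000 * c4 ^ 15 + 8104032382500 * c4 ^ 12 * c6 ^ 2 + 63806176396800 * c4 ^ 9 * c6 ^ 4 - 143803576074240 * c4 ^ 6 * c6 ^ 6 + 111934439424000 * c4 ^ 3 * c6 ^ 8 - 30408704000000 * c6 ^ 10

/-- coefficient of `T ^ 28` in `famC6` -/
def famC6_28 (c4 c6 : R) : R := -21432019078125 * c4 ^ 14 * c6 + 85719228804000 * c4 ^ 11 * c6 ^ 3 - 128580522647040 * c4 ^ 8 * c6 ^ 5 + 85731449241600 * c4 ^ 5 * c6 ^ 7 - 21438136320000 * c4 ^ 2 * c6 ^ 9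

/-- coefficient of `T ^ 29` in `famC6` -/
def famC6_29 (c4 c6 : R) : R := -11210083593750 * c4 ^ 16 + 49873523512500 * c4 ^ 13 * c6 ^ 2 - 87394892457600 * c4 ^ 10 * c6 ^ 4 + 75042714746880 * c4 ^ 7 * c6 ^ 6 - 31344427008000 * c4 ^ 4 * c6 ^ 8 + 5033164800000 * c4 * c6 ^ 10

/-- coefficient of `T ^ 30` in `famC6` -/
def famC6_30 (c4 c6 : R) : R := -4110363984375 * c4 ^ 15 * c6 + 19796866155000 * c4 ^ 12 * c6 ^ 3 - 38083944628224 * c4 ^ 9 * c6 ^ 5 + 36574189977600 * c4 ^ 6 * c6 ^ 7 - 17532190720000 * c4 ^ 3 * c6 ^ 9 + 3355443200000 * c6 ^ 11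

/-- `c₆` of the family (degree 30 in `T`). -/
def famC6 (c4 c6 T : R) : R :=
  famC6_0 c4 c6
    + famC6_1 c4 c6 * T
    + famC6_2 c4 c6 * T ^ 2
    + famC6_3 c4 c6 * T ^ 3
    + famC6_4 c4 c6 * T ^ 4
    + famC6_5 c4 c6 * T ^ 5
    + famC6_6 c4 c6 * T ^ 6
    + famC6_7 c4 c6 * T ^ 7
    + famC6_8 c4 c6 * T ^ 8
    + famC6_9 c4 c6 * T ^ 9
    + famC6_10 c4 c6 * T ^ 10
    + famC6_11 c4 c6 * T ^ 11
    + famC6_12 c4 c6 * T ^ 12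
    + famC6_13 c4 c6 * T ^ 13
    + famC6_14 c4 c6 * T ^ 14
    + famC6_15 c4 c6 * T ^ 15
    + famC6_16 c4 c6 * T ^ 16
    + famC6_17 c4 c6 * T ^ 17
    + famC6_18 c4 c6 * T ^ 18
    + famC6_19 c4 c6 * T ^ 19
    + famC6_20 c4 c6 * T ^ 20
    + famC6_21 c4 c6 * T ^ 21
    + famC6_22 c4 c6 * T ^ 22
    + famC6_23 c4 c6 * T ^ 23
    + famC6_24 c4 c6 * T ^ 24
    + famC6_25 c4 c6 * T ^ 25
    + famC6_26 c4 c6 * T ^ 26
    + famC6_27 c4 c6 * T ^ 27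
    + famC6_28 c4 c6 * T ^ 28
    + famC6_29 c4 c6 * T ^ 29
    + famC6_30 c4 c6 * T ^ 30

/-- coefficient of `s ^ 0` in `tateN` -/
def tateN_0 (c : R) : R := c

/-- coefficient of `s ^ 1` in `tateN` -/
def tateN_1 (c : R) : R := -5 * c ^ 3 + 66 * c ^ 2 + 7 * c

/-- coefficient of `s ^ 2` in `tateN` -/
def tateN_2 (c : R) : R := 10 * c ^ 5 - 264 * c ^ 4 + 1772 * c ^ 3 - 264 * c ^ 2 - 38 * c

/-- coefficient of `s ^ 3` in `tateN` -/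
def tateN_3 (c : R) : R := -10 * c ^ 7 + 396 * c ^ 6 - 5358 * c ^ 5 + 24552 * c ^ 4 - 966 * c ^ 3 + 396 * c ^ 2 + 62 * c

/-- coefficient of `s ^ 4` in `tateN` -/
def tateN_4 (c : R) : R := 5 * c ^ 9 - 264 * c ^ 8 + 5372 * c ^ 7 - 48312 * c ^ 6 + 164046 * c ^ 5 - 48312 * c ^ 4 - 3364 * c ^ 3 - 264 * c ^ 2 - 43 * c

/-- coefficient of `s ^ 5` in `tateN` -/
def tateN_5 (c : R) : R := -c ^ 11 + 66 * c ^ 10 - 1793 * c ^ 9 + 24024 * c ^ 8 - 163042 * c ^ 7 + 475596 * c ^ 6 - 80938 * c ^ 5 + 24024 * c ^ 4 + 2563 * c ^ 3 + 66 * c ^ 2 + 11 * c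

/-- Numerator of the Tate parameter of the family (degree 5 in `s = u² T`). -/
def tateN (c s : R) : R :=
  tateN_0 c
    + tateN_1 c * s
    + tateN_2 c * s ^ 2
    + tateN_3 c * s ^ 3
    + tateN_4 c * s ^ 4
    + tateN_5 c * s ^ 5

/-- coefficient of `s ^ 0` in `tateN'` -/
def tateN'_0 (c : R) : R := 1

/-- coefficient of `s ^ 1` in `tateN'` -/
def tateN'_1 (c : R) : R := -5 * c ^ 2 + 66 * c + 7

/-- coefficient of `s ^ 2` in `tateN'` -/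
def tateN'_2 (c : R) : R := 10 * c ^ 4 - 264 * c ^ 3 + 1772 * c ^ 2 - 264 * c - 38

/-- coefficient of `s ^ 3` in `tateN'` -/
def tateN'_3 (c : R) : R := -10 * c ^ 6 + 396 * c ^ 5 - 5358 * c ^ 4 + 24552 * c ^ 3 - 966 * c ^ 2 + 396 * c + 62

/-- coefficient of `s ^ 4` in `tateN'` -/
def tateN'_4 (c : R) : R := 5 * c ^ 8 - 264 * c ^ 7 + 5372 * c ^ 6 - 48312 * c ^ 5 + 164046 * c ^ 4 - 48312 * c ^ 3 - 3364 * c ^ 2 - 264 * c - 43

/-- coefficient of `s ^ 5` in `tateN'` -/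
def tateN'_5 (c : R) : R := -c ^ 10 + 66 * c ^ 9 - 1793 * c ^ 8 + 24024 * c ^ 7 - 163042 * c ^ 6 + 475596 * c ^ 5 - 80938 * c ^ 4 + 24024 * c ^ 3 + 2563 * c ^ 2 + 66 * c + 11

/-- `tateN = c * tateN'`. -/
def tateN' (c s : R) : R :=
  tateN'_0 c
    + tateN'_1 c * s
    + tateN'_2 c * s ^ 2
    + tateN'_3 c * s ^ 3
    + tateN'_4 c * s ^ 4
    + tateN'_5 c * s ^ 5

/-- coefficient of `s ^ 0` in `tateD` -/
def tateD_0 (c : R) : R := 1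

/-- coefficient of `s ^ 1` in `tateD` -/
def tateD_1 (c : R) : R := 7 * c ^ 2 - 66 * c - 5

/-- coefficient of `s ^ 2` in `tateD` -/
def tateD_2 (c : R) : R := -38 * c ^ 4 + 264 * c ^ 3 + 1772 * c ^ 2 + 264 * c + 10

/-- coefficient of `s ^ 3` in `tateD` -/
def tateD_3 (c : R) : R := 62 * c ^ 6 - 396 * c ^ 5 - 966 * c ^ 4 - 24552 * c ^ 3 - 5358 * c ^ 2 - 396 * c - 10

/-- coefficient of `s ^ 4` in `tateD` -/
def tateD_4 (c : R) : R := -43 * c ^ 8 + 264 * c ^ 7 - 3364 * c ^ 6 + 48312 * c ^ 5 + 164046 * c ^ 4 + 48312 * c ^ 3 + 5372 * c ^ 2 + 264 * c + 5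

/-- coefficient of `s ^ 5` in `tateD` -/
def tateD_5 (c : R) : R := 11 * c ^ 10 - 66 * c ^ 9 + 2563 * c ^ 8 - 24024 * c ^ 7 - 80938 * c ^ 6 - 475596 * c ^ 5 - 163042 * c ^ 4 - 24024 * c ^ 3 - 1793 * c ^ 2 - 66 * c - 1

/-- Denominator of the Tate parameter of the family (degree 5 in `s = u² T`). -/
def tateD (c s : R) : R :=
  tateD_0 c
    + tateD_1 c * s
    + tateD_2 c * s ^ 2
    + tateD_3 c * s ^ 3
    + tateD_4 c * s ^ 4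
    + tateD_5 c * s ^ 5

/-- coefficient of `s ^ 0` in `tateQ` -/
def tateQ_0 (c : R) : R := 1

/-- coefficient of `s ^ 1` in `tateQ` -/
def tateQ_1 (c : R) : R := -2 * c ^ 2 - 2

/-- coefficient of `s ^ 2` in `tateQ` -/
def tateQ_2 (c : R) : R := c ^ 4 - 178 * c ^ 2 + 1

/-- The quadratic factor of `famF` in the Tate chart. -/
def tateQ (c s : R) : R :=
  tateQ_0 c
    + tateQ_1 c * s
    + tateQ_2 c * s ^ 2

/-- `c₄`-form of the Tate normal form with a point of order 5. -/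
def H5 (X Y : R) : R := X ^ 4 - 12 * X ^ 3 * Y + 14 * X ^ 2 * Y ^ 2 + 12 * X * Y ^ 3 + Y ^ 4

/-- `c₆`-form of the Tate normal form with a point of order 5. -/
def T5 (X Y : R) : R :=
  -((X ^ 2 + Y ^ 2) * (X ^ 4 - 18 * X ^ 3 * Y + 74 * X ^ 2 * Y ^ 2 + 18 * X * Y ^ 3 + Y ^ 4))

end Fermat.Agent.S52.B.H360
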