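import Fermat.Agent.S52.B.H360.FamilyData

/-!
# S52, B-data (helper360): identities of the icosahedral family and its Tate chart (all by `ring`)
-/

set_option autoImplicit false

namespace Fermat.Agent.S52.B.H360

variable {R : Type*} [CommRing R]

@[simp] theorem famF_zero (c4 c6 : R) : famF c4 c6 0 = 1 := by
  simp [famF, famF_0]

@[simp] theorem famC4_zero (c4 c6 : R) : famC4 c4 c6 0 = c4 := by
  simp [famC4, famC4_0]

@[simp] theorem famC6_zero (c4 c6 : R) : famC6 c4 c6 0 = c6 := by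
  simp [famC6, famC6_0]

@[simp] theorem tateN_zero (c : R) : tateN c 0 = c := by
  simp [tateN, tateN_0]

@[simp] theorem tateD_zero (c : R) : tateD c 0 = 1 := by
  simp [tateD, tateD_0]

@[simp] theorem tateQ_zero (c : R) : tateQ c 0 = 1 := by
  simp [tateQ, tateQ_0]

theorem tateN_eq (c s : R) : tateN c s = c * tateN' c s := by
  simp only [tateN, tateN_0, tateN_1, tateN_2, tateN_3, tateN_4, tateN_5, tateN', tateN'_0, tateN'_1, tateN'_2, tateN'_3, tateN'_4, tateN'_5]
  ring

set_option maxHeartbeats 4000000 in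
/-- `N² - 11 N D - D² = (c² - 11 c - 1) Q⁵`. -/
theorem tate_disc (c s : R) :
    tateN c s ^ 2 - 11 * tateN c s * tateD c s - tateD c s ^ 2
      = (c ^ 2 - 11 * c - 1) * tateQ c s ^ 5 := by
  simp only [tateN, tateN_0, tateN_1, tateN_2, tateN_3, tateN_4, tateN_5, tateD, tateD_0, tateD_1, tateD_2, tateD_3, tateD_4, tateD_5, tateQ, tateQ_0, tateQ_1, tateQ_2]
  ring

set_option maxHeartbeats 40000000 in
/-- `F = (N/c) D Q` on the Tate chart. -/
theorem famF_tate (c u T : R) :
    famF (u ^ 4 * H5 c 1) (u ^ 6 * T5 c 1) T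
      = tateN' c (u ^ 2 * T) * tateD c (u ^ 2 * T) * tateQ c (u ^ 2 * T) := by
  simp only [famF, famF_0, famF_1, famF_2, famF_3, famF_4, famF_5, famF_6, famF_7, famF_8, famF_9, famF_10, famF_11, famF_12, tateN', tateN'_0, tateN'_1, tateN'_2, tateN'_3, tateN'_4, tateN'_5, tateD, tateD_0, tateD_1, tateD_2, tateD_3, tateD_4, tateD_5, tateQ, tateQ_0, tateQ_1, tateQ_2, H5, T5]
  ring

end Fermat.Agent.S52.B.H360
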