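import Fermat.Agent.S52.B.H360.FamilyData

/-!
# S52, B-data (helper360): the syzygy `C4^3 - C6^2 = (c4^3 - c6^2) F^5` of the family (by `ring`, ~2.5 min)
-/

set_option autoImplicit false

namespace Fermat.Agent.S52.B.H360

variable {R : Type*} [CommRing R]

set_option maxHeartbeats 40000000 in
theorem fam_syzygy (c4 c6 T : R) :
    famC4 c4 c6 T ^ 3 - famC6 c4 c6 T ^ 2 = (c4 ^ 3 - c6 ^ 2) * famF c4 c6 T ^ 5 := by
  simp only [famF, famF_0, famF_1, famF_2, famF_3, famF_4, famF_5, famF_6, famF_7, famF_8, famF_9, famF_10, famF_11, famF_12, famC4, famC4_0, famC4_1, famC4_2, famC4_3, famC4_4, famC4_5, famC4_6, famC4_7, famC4_8, famC4_9, famC4_10, famC4_11, famC4_12, famC4_13, famC4_14, famC4_15, famC4_16, famC4_17, famC4_18, famC4_19, famC4_20, famC6, famC6_0, famC6_1, famC6_2, famC6_3, famC6_4, famC6_5, famC6_6, famC6_7, famC6_8, famC6_9, famC6_10, famC6_11, famC6_12, famC6_13, famC6_14, famC6_15, famC6_16, famC6_17, famC6_18, famC6_19, famC6_20, famC6_21, famC6_22,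 famC6_23, famC6_24, famC6_25, famC6_26, famC6_27, famC6_28, famC6_29, famC6_30]
  ring

end Fermat.Agent.S52.B.H360
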