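import Fermat.Agent.S52.B.H360.TateChartQuad

/-!
# S52, B-data (helper360): the Tate chart identity for `famC4` (staged `ring` proofs)

Generated (exact arithmetic); every proof is a small `ring` call (per-coefficient, univariate in `c`).
-/

set_option autoImplicit false
set_option linter.unusedVariables false
set_option linter.style.longLine false
set_option linter.unusedSimpArgs false
set_option linter.unnecessarySeqFocus false

namespace Fermat.Agent.S52.B.H360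

variable {R : Type*} [CommRing R]


/-- coefficient of `s ^ 0` in `H5 N D = (N² - 6ND - D²)² - 20 (N D)²` -/
def chP4_0 (c : R) : R := c ^ 4 - 12 * c ^ 3 + 14 * c ^ 2 + 12 * c + 1

/-- coefficient of `s ^ 1` in `H5 N D = (N² - 6ND - D²)² - 20 (N D)²` -/
def chP4_1 (c : R) : R := -20 * c ^ 6 + 360 * c ^ 5 - 1500 * c ^ 4 - 1500 * c ^ 2 - 360 * c - 20

/-- coefficient of `s ^ 2` in `H5 N D = (N² - 6ND - D²)² - 20 (N D)²` -/
def chP4_2 (c : R) : R := 190 * c ^ 8 - 4560 * c ^ 7 + 32680 * c ^ 6 - 59280 * c ^ 5 - 17100 * c ^ 4 + 59280 * c ^ 3 + 32680 * c ^ 2 + 4560 * c + 190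

/-- coefficient of `s ^ 3` in `H5 N D = (N² - 6ND - D²)² - 20 (N D)²` -/
def chP4_3 (c : R) : R := -1140 * c ^ 10 + 34200 * c ^ 9 - 347700 * c ^ 8 + 1299600 * c ^ 7 - 1037400 * c ^ 6 - 1037400 * c ^ 4 - 1299600 * c ^ 3 - 347700 * c ^ 2 - 34200 * c - 1140

/-- coefficient of `s ^ 4` in `H5 N D = (N² - 6ND - D²)² - 20 (N D)²` -/
def chP4_4 (c : R) : R := 4845 * c ^ 12 - 174420 * c ^ 11 + 2296530 * c ^ 10 - 13081500 * c ^ 9 + 27979875 * c ^ 8 - 14384520 * c ^ 7 + 67628220 * c ^ 6 + 14384520 * c ^ 5 + 27979875 * c ^ 4 + 13081500 * c ^ 3 + 2296530 * c ^ 2 + 174420 * c + 4845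

/-- coefficient of `s ^ 5` in `H5 N D = (N² - 6ND - D²)² - 20 (N D)²` -/
def chP4_5 (c : R) : R := -15504 * c ^ 14 + 651168 * c ^ 13 - 10527216 * c ^ 12 + 80744832 * c ^ 11 - 286839504 * c ^ 10 + 360468000 * c ^ 9 - 4263600 * c ^ 8 - 4263600 * c ^ 6 - 360468000 * c ^ 5 - 286839504 * c ^ 4 - 80744832 * c ^ 3 - 10527216 * c ^ 2 - 651168 * c - 15504

/-- coefficient of `s ^ 6` in `H5 N D = (N² - 6ND - D²)² - 20 (N D)²` -/
def chP4_6 (c : R) : R := 38760 * c ^ 16 - 1860480 * c ^ 15 + 35659200 * c ^ 14 - 344188800 * c ^ 13 + 1720168800 * c ^ 12 - 3858088320 * c ^ 11 - 531349440 * c ^ 10 + 22014403200 * c ^ 9 - 19324390800 * c ^ 8 - 22014403200 * c ^ 7 - 531349440 * c ^ 6 + 3858088320 * c ^ 5 + 1720168800 * c ^ 4 + 344188800 * c ^ 3 + 35659200 * c ^ 2 + 1860480 * c + 38760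

/-- coefficient of `s ^ 7` in `H5 N D = (N² - 6ND - D²)² - 20 (N D)²` -/
def chP4_7 (c : R) : R := -77520 * c ^ 18 + 4186080 * c ^ 17 - 92791440 * c ^ 16 + 1080008640 * c ^ 15 - 6976800000 * c ^ 14 + 23721284160 * c ^ 13 - 27795680640 * c ^ 12 - 77048988480 * c ^ 11 + 274230182880 * c ^ 10 + 274230182880 * c ^ 8 + 77048988480 * c ^ 7 - 27795680640 * c ^ 6 - 23721284160 * c ^ 5 - 6976800000 * c ^ 4 - 1080008640 * c ^ 3 - 92791440 * c ^ 2 - 4186080 * c - 77520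

/-- coefficient of `s ^ 8` in `H5 N D = (N² - 6ND - D²)² - 20 (N D)²` -/
def chP4_8 (c : R) : R := 125970 * c ^ 20 - 7558200 * c ^ 19 + 190214700 * c ^ 18 - 2592462600 * c ^ 17 + 20563972650 * c ^ 16 - 96206104800 * c ^ 15 + 294366992400 * c ^ 14 - 1019896394400 * c ^ 13 + 3934060661700 * c ^ 12 - 5655737926800 * c ^ 11 - 2885547632760 * c ^ 10 + 5655737926800 * c ^ 9 + 3934060661700 * c ^ 8 + 1019896394400 * c ^ 7 + 294366992400 * c ^ 6 + 96206104800 * c ^ 5 + 20563972650 * c ^ 4 + 2592462600 * c ^ 3 + 190214700 * c ^ 2 + 7558200 * c + 125970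

/-- coefficient of `s ^ 9` in `H5 N D = (N² - 6ND - D²)² - 20 (N D)²` -/
def chP4_9 (c : R) : R := -167960 * c ^ 22 + 11085360 * c ^ 21 - 312237640 * c ^ 20 + 4877558400 * c ^ 19 - 45902628200 * c ^ 18 + 277490687760 * c ^ 17 - 1448709507960 * c ^ 16 + 10188442218240 * c ^ 15 - 61676703145200 * c ^ 14 + 178374247365600 * c ^ 13 - 120355842843600 * c ^ 12 - 120355842843600 * c ^ 10 - 178374247365600 * c ^ 9 - 61676703145200 * c ^ 8 - 10188442218240 * c ^ 7 - 1448709507960 * c ^ 6 - 277490687760 * c ^ 5 - 45902628200 * c ^ 4 - 4877558400 * c ^ 3 - 312237640 * c ^ 2 - 11085360 * c - 167960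

/-- coefficient of `s ^ 10` in `H5 N D = (N² - 6ND - D²)² - 20 (N D)²` -/
def chP4_10 (c : R) : R := 184756 * c ^ 24 - 13302432 * c ^ 23 + 414592464 * c ^ 22 - 7303035168 * c ^ 21 + 79560737256 * c ^ 20 - 594990396000 * c ^ 19 + 4479012538000 * c ^ 18 - 44850225420000 * c ^ 17 + 359505108319500 * c ^ 16 - 1565823206376000 * c ^ 15 + 2803871284804512 * c ^ 14 - 864414280851264 * c ^ 13 + 1402708044938928 * c ^ 12 + 864414280851264 * c ^ 11 + 2803871284804512 * c ^ 10 + 1565823206376000 * c ^ 9 + 359505108319500 * c ^ 8 + 44850225420000 * c ^ 7 + 4479012538000 * c ^ 6 + 594990396000 * c ^ 5 + 79560737256 * c ^ 4 + 7303035168 * c ^ 3 + 414592464 * c ^ 2 + 13302432 * c + 184756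

/-- coefficient of `s ^ 11` in `H5 N D = (N² - 6ND - D²)² - 20 (N D)²` -/
def chP4_11 (c : R) : R := -167960 * c ^ 26 + 13100880 * c ^ 25 - 447613400 * c ^ 24 + 8777589600 * c ^ 23 - 108671799600 * c ^ 22 + 974001462720 * c ^ 21 - 9662862912560 * c ^ 20 + 123399143181600 * c ^ 19 - 1226003213263400 * c ^ 18 + 7137638959136400 * c ^ 17 - 20977922444492520 * c ^ 16 + 22481706186164160 * c ^ 15 + 1914314394876000 * c ^ 14 + 1914314394876000 * c ^ 12 - 22481706186164160 * c ^ 11 - 20977922444492520 * c ^ 10 - 7137638959136400 * c ^ 9 - 1226003213263400 * c ^ 8 - 123399143181600 * c ^ 7 - 9662862912560 * c ^ 6 - 974001462720 * c ^ 5 - 108671799600 * c ^ 4 - 8777589600 * c ^ 3 - 447613400 * c ^ 2 - 13100880 * c - 167960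

/-- coefficient of `s ^ 12` in `H5 N D = (N² - 6ND - D²)² - 20 (N D)²` -/
def chP4_12 (c : R) : R := 125970 * c ^ 28 - 10581480 * c ^ 27 + 393278340 * c ^ 26 - 8496928440 * c ^ 25 + 117846824550 * c ^ 24 - 1235890010160 * c ^ 23 + 15285144699240 * c ^ 22 - 235677335184720 * c ^ 21 + 2790367716163170 * c ^ 20 - 20340605549979000 * c ^ 19 + 83564632012222140 * c ^ 18 - 166346533850126760 * c ^ 17 + 89616183279361830 * c ^ 16 + 77966025593994720 * c ^ 15 - 29123373033752400 * c ^ 14 - 77966025593994720 * c ^ 13 + 89616183279361830 * c ^ 12 + 166346533850126760 * c ^ 11 + 83564632012222140 * c ^ 10 + 20340605549979000 * c ^ 9 + 2790367716163170 * c ^ 8 + 235677335184720 * c ^ 7 + 15285144699240 * c ^ 6 + 1235890010160 * c ^ 5 + 117846824550 * c ^ 4 + 8496928440 * c ^ 3 + 393278340 * c ^ 2 + 10581480 * c + 125970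

/-- coefficient of `s ^ 13` in `H5 N D = (N² - 6ND - D²)² - 20 (N D)²` -/
def chP4_13 (c : R) : R := -77520 * c ^ 30 + 6976800 * c ^ 29 - 280234800 * c ^ 28 + 6614006400 * c ^ 27 - 101590347600 * c ^ 26 + 1223537421600 * c ^ 25 - 18170232615600 * c ^ 24 + 327171792729600 * c ^ 23 - 4494446638390800 * c ^ 22 + 39362193499543200 * c ^ 21 - 208240556249522160 * c ^ 20 + 620536277937513600 * c ^ 19 - 917526236292915600 * c ^ 18 + 737665920233776800 * c ^ 17 - 1026008233812313200 * c ^ 16 - 1026008233812313200 * c ^ 14 - 737665920233776800 * c ^ 13 - 917526236292915600 * c ^ 12 - 620536277937513600 * c ^ 11 - 208240556249522160 * c ^ 10 - 39362193499543200 * c ^ 9 - 4494446638390800 * c ^ 8 - 327171792729600 * c ^ 7 - 18170232615600 * c ^ 6 - 1223537421600 * c ^ 5 - 101590347600 * c ^ 4 - 6614006400 * c ^ 3 - 280234800 * c ^ 2 - 6976800 * c - 77520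

/-- coefficient of `s ^ 14` in `H5 N D = (N² - 6ND - D²)² - 20 (N D)²` -/
def chP4_14 (c : R) : R := 38760 * c ^ 32 - 3720960 * c ^ 31 + 160621440 * c ^ 30 - 4111660800 * c ^ 29 + 69288926400 * c ^ 28 - 944164488960 * c ^ 27 + 16389155717760 * c ^ 26 - 336886270007040 * c ^ 25 + 5265846112706400 * c ^ 24 - 53852389702675200 * c ^ 23 + 349009792243032960 * c ^ 22 - 1398356619434760960 * c ^ 21 + 3510071335334840640 * c ^ 20 - 7446730963848825600 * c ^ 19 + 18465358380034012800 * c ^ 18 - 21110195495569201920 * c ^ 17 - 16481527883881134480 * c ^ 16 + 21110195495569201920 * c ^ 15 + 18465358380034012800 * c ^ 14 + 7446730963848825600 * c ^ 13 + 3510071335334840640 * c ^ 12 + 1398356619434760960 * c ^ 11 + 349009792243032960 * c ^ 10 + 53852389702675200 * c ^ 9 + 5265846112706400 * c ^ 8 + 336886270007040 * c ^ 7 + 16389155717760 * c ^ 6 + 944164488960 * c ^ 5 + 69288926400 * c ^ 4 + 4111660800 * c ^ 3 + 160621440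 * c ^ 2 + 3720960 * c + 38760

/-- coefficient of `s ^ 15` in `H5 N D = (N² - 6ND - D²)² - 20 (N D)²` -/
def chP4_15 (c : R) : R := -15504 * c ^ 34 + 1581408 * c ^ 33 - 73008336 * c ^ 32 + 2014713792 * c ^ 31 - 36959613504 * c ^ 30 + 562916952000 * c ^ 29 - 11193104683200 * c ^ 28 + 258337531800000 * c ^ 27 - 4526665069027200 * c ^ 26 + 52942665227400000 * c ^ 25 - 406445066677408512 * c ^ 24 + 2054835206181561024 * c ^ 23 - 7353048370376275008 * c ^ 22 + 24687102612666154176 * c ^ 21 - 88534577251786936512 * c ^ 20 + 200203365050316792000 * c ^ 19 - 113720593897710650400 * c ^ 18 - 113720593897710650400 * c ^ 16 - 200203365050316792000 * c ^ 15 - 88534577251786936512 * c ^ 14 - 24687102612666154176 * c ^ 13 - 7353048370376275008 * c ^ 12 - 2054835206181561024 * c ^ 11 - 406445066677408512 * c ^ 10 - 52942665227400000 * c ^ 9 - 4526665069027200 * c ^ 8 - 258337531800000 * c ^ 7 - 11193104683200 * c ^ 6 - 562916952000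 * c ^ 5 - 36959613504 * c ^ 4 - 2014713792 * c ^ 3 - 73008336 * c ^ 2 - 1581408 * c - 15504

/-- coefficient of `s ^ 16` in `H5 N D = (N² - 6ND - D²)² - 20 (N D)²` -/
def chP4_16 (c : R) : R := 4845 * c ^ 36 - 523260 * c ^ 35 + 25726950 * c ^ 34 - 761343300 * c ^ 33 + 15104117925 * c ^ 32 - 254543459040 * c ^ 31 + 5707668629520 * c ^ 30 - 146044302544800 * c ^ 29 + 2835034859081700 * c ^ 28 - 37322906721973200 * c ^ 27 + 331329554691969960 * c ^ 26 - 2027365510516098480 * c ^ 25 + 9456473193858299700 * c ^ 24 - 43133629334349520800 * c ^ 23 + 202831630823769778800 * c ^ 22 - 676399083586094596320 * c ^ 21 + 1070442248739937671510 * c ^ 20 - 779576572736739426600 * c ^ 19 + 2235484967808369660900 * c ^ 18 + 779576572736739426600 * c ^ 17 + 1070442248739937671510 * c ^ 16 + 676399083586094596320 * c ^ 15 + 202831630823769778800 * c ^ 14 + 43133629334349520800 * c ^ 13 + 9456473193858299700 * c ^ 12 + 2027365510516098480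 * c ^ 11 + 331329554691969960 * c ^ 10 + 37322906721973200 * c ^ 9 + 2835034859081700 * c ^ 8 + 146044302544800 * c ^ 7 + 5707668629520 * c ^ 6 + 254543459040 * c ^ 5 + 15104117925 * c ^ 4 + 761343300 * c ^ 3 + 25726950 * c ^ 2 + 523260 * c + 4845

/-- coefficient of `s ^ 17` in `H5 N D = (N² - 6ND - D²)² - 20 (N D)²` -/
def chP4_17 (c : R) : R := -1140 * c ^ 38 + 129960 * c ^ 37 - 6779580 * c ^ 36 + 214174080 * c ^ 35 - 4569068700 * c ^ 34 + 84480381720 * c ^ 33 - 2109670293780 * c ^ 32 + 59244173648640 * c ^ 31 - 1261960419036240 * c ^ 30 + 18467700661764000 * c ^ 29 - 186166962290801520 * c ^ 28 + 1338877264744961280 * c ^ 27 - 7712050597387723440 * c ^ 26 + 44339190165472393440 * c ^ 25 - 258233874390242499600 * c ^ 24 + 1131834915956559087360 * c ^ 23 - 2782321476973376687640 * c ^ 22 + 2532295834394868742320 * c ^ 21 + 491444526205791125880 * c ^ 20 + 491444526205791125880 * c ^ 18 - 2532295834394868742320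 * c ^ 17 - 2782321476973376687640 * c ^ 16 - 1131834915956559087360 * c ^ 15 - 258233874390242499600 * c ^ 14 - 44339190165472393440 * c ^ 13 - 7712050597387723440 * c ^ 12 - 1338877264744961280 * c ^ 11 - 186166962290801520 * c ^ 10 - 18467700661764000 * c ^ 9 - 1261960419036240 * c ^ 8 - 59244173648640 * c ^ 7 - 2109670293780 * c ^ 6 - 84480381720 * c ^ 5 - 4569068700 * c ^ 4 - 214174080 * c ^ 3 - 6779580 * c ^ 2 - 129960 * c - 1140

/-- coefficient of `s ^ 18` in `H5 N D = (N² - 6ND - D²)² - 20 (N D)²` -/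
def chP4_18 (c : R) : R := 190 * c ^ 40 - 22800 * c ^ 39 + 1257800 * c ^ 38 - 42248400 * c ^ 37 + 964476100 * c ^ 36 - 19424026800 * c ^ 35 + 534729870600 * c ^ 34 - 16345446015600 * c ^ 33 + 379036631000550 * c ^ 32 - 6103800027547200 * c ^ 31 + 68889032673862560 * c ^ 30 - 569822801533358400 * c ^ 29 + 3909848888830052400 * c ^ 28 - 27089042753978251200 * c ^ 27 + 188247146205838432800 * c ^ 26 - 1019568482228902276800 * c ^ 25 + 3328515821301226302300 * c ^ 24 - 3224992765987005112800 * c ^ 23 - 19208011176088342723600 * c ^ 22 + 72927496341276749738400 * c ^ 21 - 33271130257138571062760 * c ^ 20 - 72927496341276749738400 * c ^ 19 - 19208011176088342723600 * c ^ 18 + 3224992765987005112800 * c ^ 17 + 3328515821301226302300 * c ^ 16 + 1019568482228902276800 * c ^ 15 + 188247146205838432800 * c ^ 14 + 27089042753978251200 * c ^ 13 + 3909848888830052400 * c ^ 12 + 569822801533358400 * c ^ 11 + 68889032673862560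 * c ^ 10 + 6103800027547200 * c ^ 9 + 379036631000550 * c ^ 8 + 16345446015600 * c ^ 7 + 534729870600 * c ^ 6 + 19424026800 * c ^ 5 + 964476100 * c ^ 4 + 42248400 * c ^ 3 + 1257800 * c ^ 2 + 22800 * c + 190

/-- coefficient of `s ^ 19` in `H5 N D = (N² - 6ND - D²)² - 20 (N D)²` -/
def chP4_19 (c : R) : R := -20 * c ^ 42 + 2520 * c ^ 41 - 146580 * c ^ 40 + 5216400 * c ^ 39 - 126886200 * c ^ 38 + 2766150720 * c ^ 37 - 83240350520 * c ^ 36 + 2750759639280 * c ^ 35 - 68980018781700 * c ^ 34 + 1212173905350600 * c ^ 33 - 15144402957835140 * c ^ 32 + 141697725671615040 * c ^ 31 - 1128849600282905760 * c ^ 30 + 9145821461034787200 * c ^ 29 - 73868004477213501600 * c ^ 28 + 475683414915105812160 * c ^ 27 - 1917693719738621971560 * c ^ 26 + 1848639829203502377840 * c ^ 25 + 28463324877873576565400 * c ^ 24 - 167626547031822696295200 * c ^ 23 + 311159684702169525793200 * c ^ 22 + 311159684702169525793200 * c ^ 20 + 167626547031822696295200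 * c ^ 19 + 28463324877873576565400 * c ^ 18 - 1848639829203502377840 * c ^ 17 - 1917693719738621971560 * c ^ 16 - 475683414915105812160 * c ^ 15 - 73868004477213501600 * c ^ 14 - 9145821461034787200 * c ^ 13 - 1128849600282905760 * c ^ 12 - 141697725671615040 * c ^ 11 - 15144402957835140 * c ^ 10 - 1212173905350600 * c ^ 9 - 68980018781700 * c ^ 8 - 2750759639280 * c ^ 7 - 83240350520 * c ^ 6 - 2766150720 * c ^ 5 - 126886200 * c ^ 4 - 5216400 * c ^ 3 - 146580 * c ^ 2 - 2520 * c - 20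

/-- coefficient of `s ^ 20` in `H5 N D = (N² - 6ND - D²)² - 20 (N D)²` -/
def chP4_20 (c : R) : R := c ^ 44 - 132 * c ^ 43 + 8074 * c ^ 42 - 303468 * c ^ 41 + 7835751 * c ^ 40 - 183909000 * c ^ 39 + 6006586300 * c ^ 38 - 213346155000 * c ^ 37 + 5752644550675 * c ^ 36 - 109543192258500 * c ^ 35 + 1500995690354754 * c ^ 34 - 15678037671052428 * c ^ 33 + 142264628465666421 * c ^ 32 - 1319030169376642272 * c ^ 31 + 12142795520044407504 * c ^ 30 - 90545042609527572000 * c ^ 29 + 432216260348533882650 * c ^ 28 - 396898107920176005000 * c ^ 27 - 11886152777107524081100 * c ^ 26 + 94112831070377085417000 * c ^ 25 - 300970822536035232585994 * c ^ 24 + 275537436321769142749008 * c ^ 23 + 309609424529337594547944 * c ^ 22 - 275537436321769142749008 * c ^ 21 - 300970822536035232585994 * c ^ 20 - 94112831070377085417000 * c ^ 19 - 11886152777107524081100 * c ^ 18 + 396898107920176005000 * c ^ 17 + 432216260348533882650 * c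 ^ 16 + 90545042609527572000 * c ^ 15 + 12142795520044407504 * c ^ 14 + 1319030169376642272 * c ^ 13 + 142264628465666421 * c ^ 12 + 15678037671052428 * c ^ 11 + 1500995690354754 * c ^ 10 + 109543192258500 * c ^ 9 + 5752644550675 * c ^ 8 + 213346155000 * c ^ 7 + 6006586300 * c ^ 6 + 183909000 * c ^ 5 + 7835751 * c ^ 4 + 303468 * c ^ 3 + 8074 * c ^ 2 + 132 * c + 1

/-- `H5 N D = (N² - 6ND - D²)² - 20 (N D)²` as a polynomial in `s` -/
def chP4 (c s : R) : R :=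
  chP4_0 c
    + chP4_1 c * s
    + chP4_2 c * s ^ 2
    + chP4_3 c * s ^ 3
    + chP4_4 c * s ^ 4
    + chP4_5 c * s ^ 5
    + chP4_6 c * s ^ 6
    + chP4_7 c * s ^ 7
    + chP4_8 c * s ^ 8
    + chP4_9 c * s ^ 9
    + chP4_10 c * s ^ 10
    + chP4_11 c * s ^ 11
    + chP4_12 c * s ^ 12
    + chP4_13 c * s ^ 13
    + chP4_14 c * s ^ 14
    + chP4_15 c * s ^ 15
    + chP4_16 c * s ^ 16
    + chP4_17 c * s ^ 17
    + chP4_18 c * s ^ 18
    + chP4_19 c * s ^ 19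
    + chP4_20 c * s ^ 20

theorem chP4_0_eq (c : R) : chP4_0 c = (chG6_0 c * chG6_0 c) - 20 * (chB_0 c * chB_0 c) := by
  simp only [chP4_0, chG6_0, chG6_1, chG6_2, chG6_3, chG6_4, chG6_5, chG6_6, chG6_7, chG6_8, chG6_9, chG6_10, chB_0, chB_1, chB_2, chB_3, chB_4, chB_5, chB_6, chB_7, chB_8, chB_9, chB_10]
  <;> ring

theorem chP4_1_eq (c : R) : chP4_1 c = (chG6_0 c * chG6_1 c + chG6_1 c * chG6_0 c) - 20 * (chB_0 c * chB_1 c + chB_1 c * chB_0 c) := by
  simp only [chP4_1, chG6_0, chG6_1, chG6_2, chG6_3, chG6_4, chG6_5, chG6_6, chG6_7, chG6_8, chG6_9, chG6_10, chB_0, chB_1, chB_2, chB_3, chB_4, chB_5, chB_6, chB_7, chB_8, chB_9, chB_10]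
  <;> ring

theorem chP4_2_eq (c : R) : chP4_2 c = (chG6_0 c * chG6_2 c + chG6_1 c * chG6_1 c + chG6_2 c * chG6_0 c) - 20 * (chB_0 c * chB_2 c + chB_1 c * chB_1 c + chB_2 c * chB_0 c) := by
  simp only [chP4_2, chG6_0, chG6_1, chG6_2, chG6_3, chG6_4, chG6_5, chG6_6, chG6_7, chG6_8, chG6_9, chG6_10, chB_0, chB_1, chB_2, chB_3, chB_4, chB_5, chB_6, chB_7, chB_8, chB_9, chB_10]
  <;> ring

theorem chP4_3_eq (c : R) : chP4_3 c = (chG6_0 c * chG6_3 c + chG6_1 c * chG6_2 c + chG6_2 c * chG6_1 c + chG6_3 c * chG6_0 c) - 20 * (chB_0 c * chB_3 c + chB_1 c * chB_2 c + chB_2 c * chB_1 c + chB_3 c * chB_0 c) := by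
  simp only [chP4_3, chG6_0, chG6_1, chG6_2, chG6_3, chG6_4, chG6_5, chG6_6, chG6_7, chG6_8, chG6_9, chG6_10, chB_0, chB_1, chB_2, chB_3, chB_4, chB_5, chB_6, chB_7, chB_8, chB_9, chB_10]
  <;> ring

theorem chP4_4_eq (c : R) : chP4_4 c = (chG6_0 c * chG6_4 c + chG6_1 c * chG6_3 c + chG6_2 c * chG6_2 c + chG6_3 c * chG6_1 c + chG6_4 c * chG6_0 c) - 20 * (chB_0 c * chB_4 c + chB_1 c * chB_3 c + chB_2 c * chB_2 c + chB_3 c * chB_1 c + chB_4 c * chB_0 c) := by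
  simp only [chP4_4, chG6_0, chG6_1, chG6_2, chG6_3, chG6_4, chG6_5, chG6_6, chG6_7, chG6_8, chG6_9, chG6_10, chB_0, chB_1, chB_2, chB_3, chB_4, chB_5, chB_6, chB_7, chB_8, chB_9, chB_10]
  <;> ring

theorem chP4_5_eq (c : R) : chP4_5 c = (chG6_0 c * chG6_5 c + chG6_1 c * chG6_4 c + chG6_2 c * chG6_3 c + chG6_3 c * chG6_2 c + chG6_4 c * chG6_1 c + chG6_5 c * chG6_0 c) - 20 * (chB_0 c * chB_5 c + chB_1 c * chB_4 c + chB_2 c * chB_3 c + chB_3 c * chB_2 c + chB_4 c * chB_1 c + chB_5 c * chB_0 c) := by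
  simp only [chP4_5, chG6_0, chG6_1, chG6_2, chG6_3, chG6_4, chG6_5, chG6_6, chG6_7, chG6_8, chG6_9, chG6_10, chB_0, chB_1, chB_2, chB_3, chB_4, chB_5, chB_6, chB_7, chB_8, chB_9, chB_10]
  <;> ring

theorem chP4_6_eq (c : R) : chP4_6 c = (chG6_0 c * chG6_6 c + chG6_1 c * chG6_5 c + chG6_2 c * chG6_4 c + chG6_3 c * chG6_3 c + chG6_4 c * chG6_2 c + chG6_5 c * chG6_1 c + chG6_6 c * chG6_0 c) - 20 * (chB_0 c * chB_6 c + chB_1 c * chB_5 c + chB_2 c * chB_4 c + chB_3 c * chB_3 c + chB_4 c * chB_2 c + chB_5 c * chB_1 c + chB_6 c * chB_0 c) := by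
  simp only [chP4_6, chG6_0, chG6_1, chG6_2, chG6_3, chG6_4, chG6_5, chG6_6, chG6_7, chG6_8, chG6_9, chG6_10, chB_0, chB_1, chB_2, chB_3, chB_4, chB_5, chB_6, chB_7, chB_8, chB_9, chB_10]
  <;> ring

theorem chP4_7_eq (c : R) : chP4_7 c = (chG6_0 c * chG6_7 c + chG6_1 c * chG6_6 c + chG6_2 c * chG6_5 c + chG6_3 c * chG6_4 c + chG6_4 c * chG6_3 c + chG6_5 c * chG6_2 c + chG6_6 c * chG6_1 c + chG6_7 c * chG6_0 c) - 20 * (chB_0 c * chB_7 c + chB_1 c * chB_6 c + chB_2 c * chB_5 c + chB_3 c * chB_4 c + chB_4 c * chB_3 c + chB_5 c * chB_2 c + chB_6 c * chB_1 c + chB_7 c * chB_0 c) := by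
  simp only [chP4_7, chG6_0, chG6_1, chG6_2, chG6_3, chG6_4, chG6_5, chG6_6, chG6_7, chG6_8, chG6_9, chG6_10, chB_0, chB_1, chB_2, chB_3, chB_4, chB_5, chB_6, chB_7, chB_8, chB_9, chB_10]
  <;> ring

theorem chP4_8_eq (c : R) : chP4_8 c = (chG6_0 c * chG6_8 c + chG6_1 c * chG6_7 c + chG6_2 c * chG6_6 c + chG6_3 c * chG6_5 c + chG6_4 c * chG6_4 c + chG6_5 c * chG6_3 c + chG6_6 c * chG6_2 c + chG6_7 c * chG6_1 c + chG6_8 c * chG6_0 c) - 20 * (chB_0 c * chB_8 c + chB_1 c * chB_7 c + chB_2 c * chB_6 c + chB_3 c * chB_5 c + chB_4 c * chB_4 c + chB_5 c * chB_3 c + chB_6 c * chB_2 c + chB_7 c * chB_1 c + chB_8 c * chB_0 c) := by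
  simp only [chP4_8, chG6_0, chG6_1, chG6_2, chG6_3, chG6_4, chG6_5, chG6_6, chG6_7, chG6_8, chG6_9, chG6_10, chB_0, chB_1, chB_2, chB_3, chB_4, chB_5, chB_6, chB_7, chB_8, chB_9, chB_10]
  <;> ring

theorem chP4_9_eq (c : R) : chP4_9 c = (chG6_0 c * chG6_9 c + chG6_1 c * chG6_8 c + chG6_2 c * chG6_7 c + chG6_3 c * chG6_6 c + chG6_4 c * chG6_5 c + chG6_5 c * chG6_4 c + chG6_6 c * chG6_3 c + chG6_7 c * chG6_2 c + chG6_8 c * chG6_1 c + chG6_9 c * chG6_0 c) - 20 * (chB_0 c * chB_9 c + chB_1 c * chB_8 c + chB_2 c * chB_7 c + chB_3 c * chB_6 c + chB_4 c * chB_5 c + chB_5 c * chB_4 c + chB_6 c * chB_3 c + chB_7 c * chB_2 c + chB_8 c * chB_1 c + chB_9 c * chB_0 c) := by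
  simp only [chP4_9, chG6_0, chG6_1, chG6_2, chG6_3, chG6_4, chG6_5, chG6_6, chG6_7, chG6_8, chG6_9, chG6_10, chB_0, chB_1, chB_2, chB_3, chB_4, chB_5, chB_6, chB_7, chB_8, chB_9, chB_10]
  <;> ring

theorem chP4_10_eq (c : R) : chP4_10 c = (chG6_0 c * chG6_10 c + chG6_1 c * chG6_9 c + chG6_2 c * chG6_8 c + chG6_3 c * chG6_7 c + chG6_4 c * chG6_6 c + chG6_5 c * chG6_5 c + chG6_6 c * chG6_4 c + chG6_7 c * chG6_3 c + chG6_8 c * chG6_2 c + chG6_9 c * chG6_1 c + chG6_10 c * chG6_0 c) - 20 * (chB_0 c * chB_10 c + chB_1 c * chB_9 c + chB_2 c * chB_8 c + chB_3 c * chB_7 c + chB_4 c * chB_6 c + chB_5 c * chB_5 c + chB_6 c * chB_4 c + chB_7 c * chB_3 c + chB_8 c * chB_2 c + chB_9 c * chB_1 c + chB_10 c * chB_0 c) := by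
  simp only [chP4_10, chG6_0, chG6_1, chG6_2, chG6_3, chG6_4, chG6_5, chG6_6, chG6_7, chG6_8, chG6_9, chG6_10, chB_0, chB_1, chB_2, chB_3, chB_4, chB_5, chB_6, chB_7, chB_8, chB_9, chB_10]
  <;> ring

theorem chP4_11_eq (c : R) : chP4_11 c = (chG6_1 c * chG6_10 c + chG6_2 c * chG6_9 c + chG6_3 c * chG6_8 c + chG6_4 c * chG6_7 c + chG6_5 c * chG6_6 c + chG6_6 c * chG6_5 c + chG6_7 c * chG6_4 c + chG6_8 c * chG6_3 c + chG6_9 c * chG6_2 c + chG6_10 c * chG6_1 c) - 20 * (chB_1 c * chB_10 c + chB_2 c * chB_9 c + chB_3 c * chB_8 c + chB_4 c * chB_7 c + chB_5 c * chB_6 c + chB_6 c * chB_5 c + chB_7 c * chB_4 c + chB_8 c * chB_3 c + chB_9 c * chB_2 c + chB_10 c * chB_1 c) := by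
  simp only [chP4_11, chG6_0, chG6_1, chG6_2, chG6_3, chG6_4, chG6_5, chG6_6, chG6_7, chG6_8, chG6_9, chG6_10, chB_0, chB_1, chB_2, chB_3, chB_4, chB_5, chB_6, chB_7, chB_8, chB_9, chB_10]
  <;> ring

theorem chP4_12_eq (c : R) : chP4_12 c = (chG6_2 c * chG6_10 c + chG6_3 c * chG6_9 c + chG6_4 c * chG6_8 c + chG6_5 c * chG6_7 c + chG6_6 c * chG6_6 c + chG6_7 c * chG6_5 c + chG6_8 c * chG6_4 c + chG6_9 c * chG6_3 c + chG6_10 c * chG6_2 c) - 20 * (chB_2 c * chB_10 c + chB_3 c * chB_9 c + chB_4 c * chB_8 c + chB_5 c * chB_7 c + chB_6 c * chB_6 c + chB_7 c * chB_5 c + chB_8 c * chB_4 c + chB_9 c * chB_3 c + chB_10 c * chB_2 c) := by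
  simp only [chP4_12, chG6_0, chG6_1, chG6_2, chG6_3, chG6_4, chG6_5, chG6_6, chG6_7, chG6_8, chG6_9, chG6_10, chB_0, chB_1, chB_2, chB_3, chB_4, chB_5, chB_6, chB_7, chB_8, chB_9, chB_10]
  <;> ring

theorem chP4_13_eq (c : R) : chP4_13 c = (chG6_3 c * chG6_10 c + chG6_4 c * chG6_9 c + chG6_5 c * chG6_8 c + chG6_6 c * chG6_7 c + chG6_7 c * chG6_6 c + chG6_8 c * chG6_5 c + chG6_9 c * chG6_4 c + chG6_10 c * chG6_3 c) - 20 * (chB_3 c * chB_10 c + chB_4 c * chB_9 c + chB_5 c * chB_8 c + chB_6 c * chB_7 c + chB_7 c * chB_6 c + chB_8 c * chB_5 c + chB_9 c * chB_4 c + chB_10 c * chB_3 c) := by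
  simp only [chP4_13, chG6_0, chG6_1, chG6_2, chG6_3, chG6_4, chG6_5, chG6_6, chG6_7, chG6_8, chG6_9, chG6_10, chB_0, chB_1, chB_2, chB_3, chB_4, chB_5, chB_6, chB_7, chB_8, chB_9, chB_10]
  <;> ring

theorem chP4_14_eq (c : R) : chP4_14 c = (chG6_4 c * chG6_10 c + chG6_5 c * chG6_9 c + chG6_6 c * chG6_8 c + chG6_7 c * chG6_7 c + chG6_8 c * chG6_6 c + chG6_9 c * chG6_5 c + chG6_10 c * chG6_4 c) - 20 * (chB_4 c * chB_10 c + chB_5 c * chB_9 c + chB_6 c * chB_8 c + chB_7 c * chB_7 c + chB_8 c * chB_6 c + chB_9 c * chB_5 c + chB_10 c * chB_4 c) := by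
  simp only [chP4_14, chG6_0, chG6_1, chG6_2, chG6_3, chG6_4, chG6_5, chG6_6, chG6_7, chG6_8, chG6_9, chG6_10, chB_0, chB_1, chB_2, chB_3, chB_4, chB_5, chB_6, chB_7, chB_8, chB_9, chB_10]
  <;> ring

theorem chP4_15_eq (c : R) : chP4_15 c = (chG6_5 c * chG6_10 c + chG6_6 c * chG6_9 c + chG6_7 c * chG6_8 c + chG6_8 c * chG6_7 c + chG6_9 c * chG6_6 c + chG6_10 c * chG6_5 c) - 20 * (chB_5 c * chB_10 c + chB_6 c * chB_9 c + chB_7 c * chB_8 c + chB_8 c * chB_7 c + chB_9 c * chB_6 c + chB_10 c * chB_5 c) := by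
  simp only [chP4_15, chG6_0, chG6_1, chG6_2, chG6_3, chG6_4, chG6_5, chG6_6, chG6_7, chG6_8, chG6_9, chG6_10, chB_0, chB_1, chB_2, chB_3, chB_4, chB_5, chB_6, chB_7, chB_8, chB_9, chB_10]
  <;> ring

theorem chP4_16_eq (c : R) : chP4_16 c = (chG6_6 c * chG6_10 c + chG6_7 c * chG6_9 c + chG6_8 c * chG6_8 c + chG6_9 c * chG6_7 c + chG6_10 c * chG6_6 c) - 20 * (chB_6 c * chB_10 c + chB_7 c * chB_9 c + chB_8 c * chB_8 c + chB_9 c * chB_7 c + chB_10 c * chB_6 c) := by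
  simp only [chP4_16, chG6_0, chG6_1, chG6_2, chG6_3, chG6_4, chG6_5, chG6_6, chG6_7, chG6_8, chG6_9, chG6_10, chB_0, chB_1, chB_2, chB_3, chB_4, chB_5, chB_6, chB_7, chB_8, chB_9, chB_10]
  <;> ring

theorem chP4_17_eq (c : R) : chP4_17 c = (chG6_7 c * chG6_10 c + chG6_8 c * chG6_9 c + chG6_9 c * chG6_8 c + chG6_10 c * chG6_7 c) - 20 * (chB_7 c * chB_10 c + chB_8 c * chB_9 c + chB_9 c * chB_8 c + chB_10 c * chB_7 c) := by
  simp only [chP4_17, chG6_0, chG6_1, chG6_2, chG6_3, chG6_4, chG6_5, chG6_6, chG6_7, chG6_8, chG6_9, chG6_10, chB_0, chB_1, chB_2, chB_3, chB_4, chB_5, chB_6, chB_7, chB_8, chB_9, chB_10]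
  <;> ring

theorem chP4_18_eq (c : R) : chP4_18 c = (chG6_8 c * chG6_10 c + chG6_9 c * chG6_9 c + chG6_10 c * chG6_8 c) - 20 * (chB_8 c * chB_10 c + chB_9 c * chB_9 c + chB_10 c * chB_8 c) := by
  simp only [chP4_18, chG6_0, chG6_1, chG6_2, chG6_3, chG6_4, chG6_5, chG6_6, chG6_7, chG6_8, chG6_9, chG6_10, chB_0, chB_1, chB_2, chB_3, chB_4, chB_5, chB_6, chB_7, chB_8, chB_9, chB_10]
  <;> ring

theorem chP4_19_eq (c : R) : chP4_19 c = (chG6_9 c * chG6_10 c + chG6_10 c * chG6_9 c) - 20 * (chB_9 c * chB_10 c + chB_10 c * chB_9 c) := by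
  simp only [chP4_19, chG6_0, chG6_1, chG6_2, chG6_3, chG6_4, chG6_5, chG6_6, chG6_7, chG6_8, chG6_9, chG6_10, chB_0, chB_1, chB_2, chB_3, chB_4, chB_5, chB_6, chB_7, chB_8, chB_9, chB_10]
  <;> ring

theorem chP4_20_eq (c : R) : chP4_20 c = (chG6_10 c * chG6_10 c) - 20 * (chB_10 c * chB_10 c) := by
  simp only [chP4_20, chG6_0, chG6_1, chG6_2, chG6_3, chG6_4, chG6_5, chG6_6, chG6_7, chG6_8, chG6_9, chG6_10, chB_0, chB_1, chB_2, chB_3, chB_4, chB_5, chB_6, chB_7, chB_8, chB_9, chB_10]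
  <;> ring

theorem chP4_eq (c s : R) : chG6 c s ^ 2 - 20 * chB c s ^ 2 = chP4 c s := by
  unfold chP4 chG6 chB
  rw [chP4_0_eq, chP4_1_eq, chP4_2_eq, chP4_3_eq, chP4_4_eq, chP4_5_eq, chP4_6_eq, chP4_7_eq, chP4_8_eq, chP4_9_eq, chP4_10_eq, chP4_11_eq, chP4_12_eq, chP4_13_eq, chP4_14_eq, chP4_15_eq, chP4_16_eq, chP4_17_eq, chP4_18_eq, chP4_19_eq, chP4_20_eq]
  <;> ring

set_option maxHeartbeats 4000000 in
theorem famC4_0_chart (c : R) : famC4_0 (H5 c 1) (T5 c 1) = chP4_0 c := by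
  simp only [famC4_0, chP4_0, H5, T5]
  <;> ring

set_option maxHeartbeats 4000000 in
theorem famC4_1_chart (c : R) : famC4_1 (H5 c 1) (T5 c 1) = chP4_1 c := by
  simp only [famC4_1, chP4_1, H5, T5]
  <;> ring

set_option maxHeartbeats 4000000 in
theorem famC4_2_chart (c : R) : famC4_2 (H5 c 1) (T5 c 1) = chP4_2 c := by
  simp only [famC4_2, chP4_2, H5, T5]
  <;> ring

set_option maxHeartbeats 4000000 in
theorem famC4_3_chart (c : R) : famC4_3 (H5 c 1) (T5 c 1) = chP4_3 c := by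
  simp only [famC4_3, chP4_3, H5, T5]
  <;> ring

set_option maxHeartbeats 4000000 in
theorem famC4_4_chart (c : R) : famC4_4 (H5 c 1) (T5 c 1) = chP4_4 c := by
  simp only [famC4_4, chP4_4, H5, T5]
  <;> ring

set_option maxHeartbeats 4000000 in
theorem famC4_5_chart (c : R) : famC4_5 (H5 c 1) (T5 c 1) = chP4_5 c := by
  simp only [famC4_5, chP4_5, H5, T5]
  <;> ring

set_option maxHeartbeats 4000000 in
theorem famC4_6_chart (c : R) : famC4_6 (H5 c 1) (T5 c 1) = chP4_6 c := by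
  simp only [famC4_6, chP4_6, H5, T5]
  <;> ring

set_option maxHeartbeats 4000000 in
theorem famC4_7_chart (c : R) : famC4_7 (H5 c 1) (T5 c 1) = chP4_7 c := by
  simp only [famC4_7, chP4_7, H5, T5]
  <;> ring

set_option maxHeartbeats 4000000 in
theorem famC4_8_chart (c : R) : famC4_8 (H5 c 1) (T5 c 1) = chP4_8 c := by
  simp only [famC4_8, chP4_8, H5, T5]
  <;> ring

set_option maxHeartbeats 4000000 in
theorem famC4_9_chart (c : R) : famC4_9 (H5 c 1) (T5 c 1) = chP4_9 c := by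
  simp only [famC4_9, chP4_9, H5, T5]
  <;> ring

set_option maxHeartbeats 4000000 in
theorem famC4_10_chart (c : R) : famC4_10 (H5 c 1) (T5 c 1) = chP4_10 c := by
  simp only [famC4_10, chP4_10, H5, T5]
  <;> ring

set_option maxHeartbeats 4000000 in
theorem famC4_11_chart (c : R) : famC4_11 (H5 c 1) (T5 c 1) = chP4_11 c := by
  simp only [famC4_11, chP4_11, H5, T5]
  <;> ring

set_option maxHeartbeats 4000000 in
theorem famC4_12_chart (c : R) : famC4_12 (H5 c 1) (T5 c 1) = chP4_12 c := by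
  simp only [famC4_12, chP4_12, H5, T5]
  <;> ring

set_option maxHeartbeats 4000000 in
theorem famC4_13_chart (c : R) : famC4_13 (H5 c 1) (T5 c 1) = chP4_13 c := by
  simp only [famC4_13, chP4_13, H5, T5]
  <;> ring

set_option maxHeartbeats 4000000 in
theorem famC4_14_chart (c : R) : famC4_14 (H5 c 1) (T5 c 1) = chP4_14 c := by
  simp only [famC4_14, chP4_14, H5, T5]
  <;> ring

set_option maxHeartbeats 4000000 in
theorem famC4_15_chart (c : R) : famC4_15 (H5 c 1) (T5 c 1) = chP4_15 c := by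
  simp only [famC4_15, chP4_15, H5, T5]
  <;> ring

set_option maxHeartbeats 4000000 in
theorem famC4_16_chart (c : R) : famC4_16 (H5 c 1) (T5 c 1) = chP4_16 c := by
  simp only [famC4_16, chP4_16, H5, T5]
  <;> ring

set_option maxHeartbeats 4000000 in
theorem famC4_17_chart (c : R) : famC4_17 (H5 c 1) (T5 c 1) = chP4_17 c := by
  simp only [famC4_17, chP4_17, H5, T5]
  <;> ring

set_option maxHeartbeats 4000000 in
theorem famC4_18_chart (c : R) : famC4_18 (H5 c 1) (T5 c 1) = chP4_18 c := by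
  simp only [famC4_18, chP4_18, H5, T5]
  <;> ring

set_option maxHeartbeats 4000000 in
theorem famC4_19_chart (c : R) : famC4_19 (H5 c 1) (T5 c 1) = chP4_19 c := by
  simp only [famC4_19, chP4_19, H5, T5]
  <;> ring

set_option maxHeartbeats 4000000 in
theorem famC4_20_chart (c : R) : famC4_20 (H5 c 1) (T5 c 1) = chP4_20 c := by
  simp only [famC4_20, chP4_20, H5, T5]
  <;> ring

theorem famC4_chart_poly (c s : R) : famC4 (H5 c 1) (T5 c 1) s = chP4 c s := by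
  unfold famC4 chP4
  rw [famC4_0_chart, famC4_1_chart, famC4_2_chart, famC4_3_chart, famC4_4_chart, famC4_5_chart, famC4_6_chart, famC4_7_chart, famC4_8_chart, famC4_9_chart, famC4_10_chart, famC4_11_chart, famC4_12_chart, famC4_13_chart, famC4_14_chart, famC4_15_chart, famC4_16_chart, famC4_17_chart, famC4_18_chart, famC4_19_chart, famC4_20_chart]

/-- Tate chart identity for `c₄` (at `u = 1`). -/
theorem famC4_chart (c s : R) : famC4 (H5 c 1) (T5 c 1) s = H5 (tateN c s) (tateD c s) := by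
  have h1 : ∀ X Y : R, H5 X Y = (X ^ 2 - 6 * (X * Y) - Y ^ 2) ^ 2 - 20 * (X * Y) ^ 2 := by
    intro X Y
    unfold H5
    ring
  rw [h1 (tateN c s) (tateD c s), chG6_eq, chB_eq, chP4_eq, famC4_chart_poly]

theorem famC4_0_hom (u a b : R) : famC4_0 (u ^ 4 * a) (u ^ 6 * b) = u ^ 4 * famC4_0 a b := by
  simp only [famC4_0]
  <;> ring

theorem famC4_1_hom (u a b : R) : famC4_1 (u ^ 4 * a) (u ^ 6 * b) = u ^ 6 * famC4_1 a b := by
  simp only [famC4_1]
  <;> ring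

theorem famC4_2_hom (u a b : R) : famC4_2 (u ^ 4 * a) (u ^ 6 * b) = u ^ 8 * famC4_2 a b := by
  simp only [famC4_2]
  <;> ring

theorem famC4_3_hom (u a b : R) : famC4_3 (u ^ 4 * a) (u ^ 6 * b) = u ^ 10 * famC4_3 a b := by
  simp only [famC4_3]
  <;> ring

theorem famC4_4_hom (u a b : R) : famC4_4 (u ^ 4 * a) (u ^ 6 * b) = u ^ 12 * famC4_4 a b := by
  simp only [famC4_4]
  <;> ring

theorem famC4_5_hom (u a b : R) : famC4_5 (u ^ 4 * a) (u ^ 6 * b) = u ^ 14 * famC4_5 a b := by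
  simp only [famC4_5]
  <;> ring

theorem famC4_6_hom (u a b : R) : famC4_6 (u ^ 4 * a) (u ^ 6 * b) = u ^ 16 * famC4_6 a b := by
  simp only [famC4_6]
  <;> ring

theorem famC4_7_hom (u a b : R) : famC4_7 (u ^ 4 * a) (u ^ 6 * b) = u ^ 18 * famC4_7 a b := by
  simp only [famC4_7]
  <;> ring

theorem famC4_8_hom (u a b : R) : famC4_8 (u ^ 4 * a) (u ^ 6 * b) = u ^ 20 * famC4_8 a b := by
  simp only [famC4_8]
  <;> ring

theorem famC4_9_hom (u a b : R) : famC4_9 (u ^ 4 * a) (u ^ 6 * b) = u ^ 22 * famC4_9 a b := by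
  simp only [famC4_9]
  <;> ring

theorem famC4_10_hom (u a b : R) : famC4_10 (u ^ 4 * a) (u ^ 6 * b) = u ^ 24 * famC4_10 a b := by
  simp only [famC4_10]
  <;> ring

theorem famC4_11_hom (u a b : R) : famC4_11 (u ^ 4 * a) (u ^ 6 * b) = u ^ 26 * famC4_11 a b := by
  simp only [famC4_11]
  <;> ring

theorem famC4_12_hom (u a b : R) : famC4_12 (u ^ 4 * a) (u ^ 6 * b) = u ^ 28 * famC4_12 a b := by
  simp only [famC4_12]
  <;> ring

theorem famC4_13_hom (u a b : R) : famC4_13 (u ^ 4 * a) (u ^ 6 * b) = u ^ 30 * famC4_13 a b := by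
  simp only [famC4_13]
  <;> ring

theorem famC4_14_hom (u a b : R) : famC4_14 (u ^ 4 * a) (u ^ 6 * b) = u ^ 32 * famC4_14 a b := by
  simp only [famC4_14]
  <;> ring

theorem famC4_15_hom (u a b : R) : famC4_15 (u ^ 4 * a) (u ^ 6 * b) = u ^ 34 * famC4_15 a b := by
  simp only [famC4_15]
  <;> ring

theorem famC4_16_hom (u a b : R) : famC4_16 (u ^ 4 * a) (u ^ 6 * b) = u ^ 36 * famC4_16 a b := by
  simp only [famC4_16]
  <;> ring

theorem famC4_17_hom (u a b : R) : famC4_17 (u ^ 4 * a) (u ^ 6 * b) = u ^ 38 * famC4_17 a b := by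
  simp only [famC4_17]
  <;> ring

theorem famC4_18_hom (u a b : R) : famC4_18 (u ^ 4 * a) (u ^ 6 * b) = u ^ 40 * famC4_18 a b := by
  simp only [famC4_18]
  <;> ring

theorem famC4_19_hom (u a b : R) : famC4_19 (u ^ 4 * a) (u ^ 6 * b) = u ^ 42 * famC4_19 a b := by
  simp only [famC4_19]
  <;> ring

theorem famC4_20_hom (u a b : R) : famC4_20 (u ^ 4 * a) (u ^ 6 * b) = u ^ 44 * famC4_20 a b := by
  simp only [famC4_20]
  <;> ring

/-- weighted homogeneity of `famC4`. -/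
theorem famC4_hom (u a b T : R) : famC4 (u ^ 4 * a) (u ^ 6 * b) T = u ^ 4 * famC4 a b (u ^ 2 * T) := by
  unfold famC4
  rw [famC4_0_hom, famC4_1_hom, famC4_2_hom, famC4_3_hom, famC4_4_hom, famC4_5_hom, famC4_6_hom, famC4_7_hom, famC4_8_hom, famC4_9_hom, famC4_10_hom, famC4_11_hom, famC4_12_hom, famC4_13_hom, famC4_14_hom, famC4_15_hom, famC4_16_hom, famC4_17_hom, famC4_18_hom, famC4_19_hom, famC4_20_hom]
  <;> ring

/-- **Tate chart identity for `c₄`**: the member of the family at parameter `T` over the Tate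
normal form `T(c,u)` has `c₄ = u⁴ H5(N, D)` with `N = tateN c (u²T)`, `D = tateD c (u²T)`. -/
theorem famC4_tate (c u T : R) :
    famC4 (u ^ 4 * H5 c 1) (u ^ 6 * T5 c 1) T
      = u ^ 4 * H5 (tateN c (u ^ 2 * T)) (tateD c (u ^ 2 * T)) := by
  rw [famC4_hom, famC4_chart]


end Fermat.Agent.S52.B.H360
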