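import Fermat.Agent.S52.B.H360.TateChartQuad

/-!
# S52, B-data (helper360): the Tate chart identity for `famC6` (staged `ring` proofs)

Generated (exact arithmetic); every proof is a small `ring` call (per-coefficient, univariate in `c`).
-/

set_option autoImplicit false
set_option linter.unusedVariables false
set_option linter.style.longLine false
set_option linter.unusedSimpArgs false
set_option linter.unnecessarySeqFocus false

namespace Fermat.Agent.S52.B.H360

variable {R : Type*} [CommRing R]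


/-- coefficient of `s ^ 0` in the quartic factor `(N² - 9ND - D²)² - 5 (N D)²` of `-T5 N D` -/
def chE6_0 (c : R) : R := c ^ 4 - 18 * c ^ 3 + 74 * c ^ 2 + 18 * c + 1

/-- coefficient of `s ^ 1` in the quartic factor `(N² - 9ND - D²)² - 5 (N D)²` of `-T5 N D` -/
def chE6_1 (c : R) : R := -20 * c ^ 6 + 408 * c ^ 5 - 2052 * c ^ 4 - 2052 * c ^ 2 - 408 * c - 20

/-- coefficient of `s ^ 2` in the quartic factor `(N² - 9ND - D²)² - 5 (N D)²` of `-T5 N D` -/
def chE6_2 (c : R) : R := 190 * c ^ 8 - 4332 * c ^ 7 + 26152 * c ^ 6 - 7212 * c ^ 5 - 103596 * c ^ 4 + 7212 * c ^ 3 + 26152 * c ^ 2 + 4332 * c + 190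

/-- coefficient of `s ^ 3` in the quartic factor `(N² - 9ND - D²)² - 5 (N D)²` of `-T5 N D` -/
def chE6_3 (c : R) : R := -1140 * c ^ 10 + 28728 * c ^ 9 - 204204 * c ^ 8 + 150768 * c ^ 7 + 1490016 * c ^ 6 + 1490016 * c ^ 4 - 150768 * c ^ 3 - 204204 * c ^ 2 - 28728 * c - 1140

/-- coefficient of `s ^ 4` in the quartic factor `(N² - 9ND - D²)² - 5 (N D)²` of `-T5 N D` -/
def chE6_4 (c : R) : R := 4845 * c ^ 12 - 133722 * c ^ 11 + 1100070 * c ^ 10 - 1546830 * c ^ 9 - 7858125 * c ^ 8 - 21762900 * c ^ 7 + 94161012 * c ^ 6 + 21762900 * c ^ 5 - 7858125 * c ^ 4 + 1546830 * c ^ 3 + 1100070 * c ^ 2 + 133722 * c + 4845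

/-- coefficient of `s ^ 5` in the quartic factor `(N² - 9ND - D²)² - 5 (N D)²` of `-T5 N D` -/
def chE6_5 (c : R) : R := -15504 * c ^ 14 + 465120 * c ^ 13 - 4363152 * c ^ 12 + 9850752 * c ^ 11 + 15560208 * c ^ 10 + 250590816 * c ^ 9 - 1301059056 * c ^ 8 - 1301059056 * c ^ 6 - 250590816 * c ^ 5 + 15560208 * c ^ 4 - 9850752 * c ^ 3 - 4363152 * c ^ 2 - 465120 * c - 15504

/-- coefficient of `s ^ 6` in the quartic factor `(N² - 9ND - D²)² - 5 (N D)²` of `-T5 N D` -/
def chE6_6 (c : R) : R := 38760 * c ^ 16 - 1255824 * c ^ 15 + 13264896 * c ^ 14 - 43292880 * c ^ 13 + 37186656 * c ^ 12 - 1164638736 * c ^ 11 + 4038666240 * c ^ 10 + 17218805040 * c ^ 9 - 34162542480 * c ^ 8 - 17218805040 * c ^ 7 + 4038666240 * c ^ 6 + 1164638736 * c ^ 5 + 37186656 * c ^ 4 + 43292880 * c ^ 3 + 13264896 * c ^ 2 + 1255824 * c + 38760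

/-- coefficient of `s ^ 7` in the quartic factor `(N² - 9ND - D²)² - 5 (N D)²` of `-T5 N D` -/
def chE6_7 (c : R) : R := -77520 * c ^ 18 + 2697696 * c ^ 17 - 31743216 * c ^ 16 + 139565376 * c ^ 15 - 356915232 * c ^ 14 + 2129408064 * c ^ 13 + 23569941024 * c ^ 12 - 301839201216 * c ^ 11 + 658458878400 * c ^ 10 + 658458878400 * c ^ 8 + 301839201216 * c ^ 7 + 23569941024 * c ^ 6 - 2129408064 * c ^ 5 - 356915232 * c ^ 4 - 139565376 * c ^ 3 - 31743216 * c ^ 2 - 2697696 * c - 77520

/-- coefficient of `s ^ 8` in the quartic factor `(N² - 9ND - D²)² - 5 (N D)²` of `-T5 N D` -/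
def chE6_8 (c : R) : R := 125970 * c ^ 20 - 4686084 * c ^ 19 + 60866052 * c ^ 18 - 342895644 * c ^ 17 + 1284012522 * c ^ 16 + 3776151600 * c ^ 15 - 263023729488 * c ^ 14 + 2318242412304 * c ^ 13 - 5492684319228 * c ^ 12 - 3831150192696 * c ^ 11 + 6034670207640 * c ^ 10 + 3831150192696 * c ^ 9 - 5492684319228 * c ^ 8 - 2318242412304 * c ^ 7 - 263023729488 * c ^ 6 - 3776151600 * c ^ 5 + 1284012522 * c ^ 4 + 342895644 * c ^ 3 + 60866052 * c ^ 2 + 4686084 * c + 125970

/-- coefficient of `s ^ 9` in the quartic factor `(N² - 9ND - D²)² - 5 (N D)²` of `-T5 N D` -/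
def chE6_9 (c : R) : R := -167960 * c ^ 22 + 6651216 * c ^ 21 - 94614520 * c ^ 20 + 658120320 * c ^ 19 - 3008771480 * c ^ 18 - 34673942160 * c ^ 17 + 1193133966024 * c ^ 16 - 10636428591360 * c ^ 15 + 28800375861840 * c ^ 14 + 38061189476640 * c ^ 13 - 169389473086320 * c ^ 12 - 169389473086320 * c ^ 10 - 38061189476640 * c ^ 9 + 28800375861840 * c ^ 8 + 10636428591360 * c ^ 7 + 1193133966024 * c ^ 6 + 34673942160 * c ^ 5 - 3008771480 * c ^ 4 - 658120320 * c ^ 3 - 94614520 * c ^ 2 - 6651216 * c - 167960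

/-- coefficient of `s ^ 10` in the quartic factor `(N² - 9ND - D²)² - 5 (N D)²` of `-T5 N D` -/
def chE6_10 (c : R) : R := 184756 * c ^ 24 - 7759752 * c ^ 23 + 120071952 * c ^ 22 - 1002408264 * c ^ 21 + 5150831400 * c ^ 20 + 110455216872 * c ^ 19 - 3425696900912 * c ^ 18 + 32915168268840 * c ^ 17 - 104435532355572 * c ^ 16 - 147840451772112 * c ^ 15 + 967266649145376 * c ^ 14 + 391897957133232 * c ^ 13 - 908340224285136 * c ^ 12 - 391897957133232 * c ^ 11 + 967266649145376 * c ^ 10 + 147840451772112 * c ^ 9 - 104435532355572 * c ^ 8 - 32915168268840 * c ^ 7 - 3425696900912 * c ^ 6 - 110455216872 * c ^ 5 + 5150831400 * c ^ 4 + 1002408264 * c ^ 3 + 120071952 * c ^ 2 + 7759752 * c + 184756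

/-- coefficient of `s ^ 11` in the quartic factor `(N² - 9ND - D²)² - 5 (N D)²` of `-T5 N D` -/
def chE6_11 (c : R) : R := -167960 * c ^ 26 + 7457424 * c ^ 25 - 124780136 * c ^ 24 + 1222784160 * c ^ 23 - 6739882656 * c ^ 22 - 224711133504 * c ^ 21 + 6959010366880 * c ^ 20 - 73063972718880 * c ^ 19 + 272927165860360 * c ^ 18 + 263601396265680 * c ^ 17 - 2162846861183880 * c ^ 16 - 9069960366631872 * c ^ 15 + 29550124106366208 * c ^ 14 + 29550124106366208 * c ^ 12 + 9069960366631872 * c ^ 11 - 2162846861183880 * c ^ 10 - 263601396265680 * c ^ 9 + 272927165860360 * c ^ 8 + 73063972718880 * c ^ 7 + 6959010366880 * c ^ 6 + 224711133504 * c ^ 5 - 6739882656 * c ^ 4 - 1222784160 * c ^ 3 - 124780136 * c ^ 2 - 7457424 * c - 167960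

/-- coefficient of `s ^ 12` in the quartic factor `(N² - 9ND - D²)² - 5 (N D)²` of `-T5 N D` -/
def chE6_12 (c : R) : R := 125970 * c ^ 28 - 5895396 * c ^ 27 + 106114476 * c ^ 26 - 1199056716 * c ^ 25 + 6880965702 * c ^ 24 + 328034679336 * c ^ 23 - 10484622210504 * c ^ 22 + 120356273373336 * c ^ 21 - 526296872382270 * c ^ 20 - 49967740795500 * c ^ 19 + 41044894228500 * c ^ 18 + 61705913089804668 * c ^ 17 - 231716242616119578 * c ^ 16 + 35597138481240048 * c ^ 15 + 199770342319935504 * c ^ 14 - 35597138481240048 * c ^ 13 - 231716242616119578 * c ^ 12 - 61705913089804668 * c ^ 11 + 41044894228500 * c ^ 10 + 49967740795500 * c ^ 9 - 526296872382270 * c ^ 8 - 120356273373336 * c ^ 7 - 10484622210504 * c ^ 6 - 328034679336 * c ^ 5 + 6880965702 * c ^ 4 + 1199056716 * c ^ 3 + 106114476 * c ^ 2 + 5895396 * c + 125970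

/-- coefficient of `s ^ 13` in the quartic factor `(N² - 9ND - D²)² - 5 (N D)²` of `-T5 N D` -/
def chE6_13 (c : R) : R := -77520 * c ^ 30 + 3813984 * c ^ 29 - 73510992 * c ^ 28 + 943968384 * c ^ 27 - 5523774192 * c ^ 26 - 358431184800 * c ^ 25 + 11975400182928 * c ^ 24 - 149778959675904 * c ^ 23 + 759139424920368 * c ^ 22 - 814285347457824 * c ^ 21 + 11437308434942640 * c ^ 20 - 217712648577912192 * c ^ 19 + 959134486491359376 * c ^ 18 - 494959796756711712 * c ^ 17 - 2665350176514945264 * c ^ 16 - 2665350176514945264 * c ^ 14 + 494959796756711712 * c ^ 13 + 959134486491359376 * c ^ 12 + 217712648577912192 * c ^ 11 + 11437308434942640 * c ^ 10 + 814285347457824 * c ^ 9 + 759139424920368 * c ^ 8 + 149778959675904 * c ^ 7 + 11975400182928 * c ^ 6 + 358431184800 * c ^ 5 - 5523774192 * c ^ 4 - 943968384 * c ^ 3 - 73510992 * c ^ 2 - 3813984 * c - 77520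

/-- coefficient of `s ^ 14` in the quartic factor `(N² - 9ND - D²)² - 5 (N D)²` of `-T5 N D` -/
def chE6_14 (c : R) : R := 38760 * c ^ 32 - 2000016 * c ^ 31 + 41110080 * c ^ 30 - 592722000 * c ^ 29 + 3482170560 * c ^ 28 + 297677484720 * c ^ 27 - 10448166974784 * c ^ 26 + 141714961380720 * c ^ 25 - 823365090667680 * c ^ 24 + 2011735247240880 * c ^ 23 - 31117504994205120 * c ^ 22 + 471739685304659184 * c ^ 21 - 2434052949037752000 * c ^ 20 + 2570027122731060720 * c ^ 19 + 8926952102068390080 * c ^ 18 + 2210181042371252400 * c ^ 17 - 36028969595525562768 * c ^ 16 - 2210181042371252400 * c ^ 15 + 8926952102068390080 * c ^ 14 - 2570027122731060720 * c ^ 13 - 2434052949037752000 * c ^ 12 - 471739685304659184 * c ^ 11 - 31117504994205120 * c ^ 10 - 2011735247240880 * c ^ 9 - 823365090667680 * c ^ 8 - 141714961380720 * c ^ 7 - 10448166974784 * c ^ 6 - 297677484720 * c ^ 5 + 3482170560 * c ^ 4 + 592722000 * c ^ 3 + 41110080 * c ^ 2 + 2000016 * c + 38760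

/-- coefficient of `s ^ 15` in the quartic factor `(N² - 9ND - D²)² - 5 (N D)²` of `-T5 N D` -/
def chE6_15 (c : R) : R := -15504 * c ^ 34 + 837216 * c ^ 33 - 18285744 * c ^ 32 + 293025600 * c ^ 31 - 1707196128 * c ^ 30 - 187877040192 * c ^ 29 + 6938073127392 * c ^ 28 - 101561906738880 * c ^ 27 + 669150562108512 * c ^ 26 - 2644988377652928 * c ^ 25 + 45613451928933024 * c ^ 24 - 673371944336438208 * c ^ 23 + 4026766910194681248 * c ^ 22 - 6901265501445946176 * c ^ 21 - 12756661934513930400 * c ^ 20 - 14867498242293257664 * c ^ 19 + 206713009258009725504 * c ^ 18 + 206713009258009725504 * c ^ 16 + 14867498242293257664 * c ^ 15 - 12756661934513930400 * c ^ 14 + 6901265501445946176 * c ^ 13 + 4026766910194681248 * c ^ 12 + 673371944336438208 * c ^ 11 + 45613451928933024 * c ^ 10 + 2644988377652928 * c ^ 9 + 669150562108512 * c ^ 8 + 101561906738880 * c ^ 7 + 6938073127392 * c ^ 6 + 187877040192 * c ^ 5 - 1707196128 * c ^ 4 - 293025600 * c ^ 3 - 18285744 *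 c ^ 2 - 837216 * c - 15504

/-- coefficient of `s ^ 16` in the quartic factor `(N² - 9ND - D²)² - 5 (N D)²` of `-T5 N D` -/
def chE6_16 (c : R) : R := 4845 * c ^ 36 - 273258 * c ^ 35 + 6321042 * c ^ 34 - 111615030 * c ^ 33 + 638296677 * c ^ 32 + 88908129648 * c ^ 31 - 3453998763600 * c ^ 30 + 54315974805840 * c ^ 29 - 401792316316380 * c ^ 28 + 2233163290572360 * c ^ 27 - 42654414038292360 * c ^ 26 + 649696274275814136 * c ^ 25 - 4446574028706884364 * c ^ 24 + 10883721632406768720 * c ^ 23 + 5246545038097810896 * c ^ 22 + 42499205714808603504 * c ^ 21 - 391577626107510189930 * c ^ 20 - 702952799059057525020 * c ^ 19 + 2976817519338338965740 * c ^ 18 + 702952799059057525020 * c ^ 17 - 391577626107510189930 * c ^ 16 - 42499205714808603504 * c ^ 15 + 5246545038097810896 * c ^ 14 - 10883721632406768720 * c ^ 13 - 4446574028706884364 * c ^ 12 - 649696274275814136 * c ^ 11 - 42654414038292360 * c ^ 10 - 2233163290572360 * c ^ 9 - 401792316316380 * c ^ 8 - 54315974805840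 * c ^ 7 - 3453998763600 * c ^ 6 - 88908129648 * c ^ 5 + 638296677 * c ^ 4 + 111615030 * c ^ 3 + 6321042 * c ^ 2 + 273258 * c + 4845

/-- coefficient of `s ^ 17` in the quartic factor `(N² - 9ND - D²)² - 5 (N D)²` of `-T5 N D` -/
def chE6_17 (c : R) : R := -1140 * c ^ 38 + 67032 * c ^ 37 - 1637412 * c ^ 36 + 31623552 * c ^ 35 - 175925124 * c ^ 34 - 30625385112 * c ^ 33 + 1250453574828 * c ^ 32 - 21034598429952 * c ^ 31 + 173133369517680 * c ^ 30 - 1251819162756000 * c ^ 29 + 26267904494823600 * c ^ 28 - 421528475268336384 * c ^ 27 + 3262029855973256304 * c ^ 26 - 10538802380339292384 * c ^ 25 + 7538537637114420528 * c ^ 24 - 64313393194292818176 * c ^ 23 + 326217183784679957544 * c ^ 22 + 2322947563404535120464 * c ^ 21 - 9949591984565424073080 * c ^ 20 - 9949591984565424073080 * c ^ 18 - 2322947563404535120464 * c ^ 17 + 326217183784679957544 * c ^ 16 + 64313393194292818176 * c ^ 15 + 7538537637114420528 * c ^ 14 + 10538802380339292384 * c ^ 13 + 3262029855973256304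 * c ^ 12 + 421528475268336384 * c ^ 11 + 26267904494823600 * c ^ 10 + 1251819162756000 * c ^ 9 + 173133369517680 * c ^ 8 + 21034598429952 * c ^ 7 + 1250453574828 * c ^ 6 + 30625385112 * c ^ 5 - 175925124 * c ^ 4 - 31623552 * c ^ 3 - 1637412 * c ^ 2 - 67032 * c - 1140

/-- coefficient of `s ^ 18` in the quartic factor `(N² - 9ND - D²)² - 5 (N D)²` of `-T5 N D` -/
def chE6_18 (c : R) : R := 190 * c ^ 40 - 11628 * c ^ 39 + 299144 * c ^ 38 - 6278508 * c ^ 37 + 33698404 * c ^ 36 + 7263002700 * c ^ 35 - 311260182456 * c ^ 34 + 5579065697868 * c ^ 33 - 50686909884186 * c ^ 32 + 453675448903248 * c ^ 31 - 10380016302860640 * c ^ 30 + 176838658359740496 * c ^ 29 - 1530541746059565648 * c ^ 28 + 6193643314181477616 * c ^ 27 - 11162659305474087648 * c ^ 26 + 54130175821762153200 * c ^ 25 - 93338438474809241508 * c ^ 24 - 2726628601485717689256 * c ^ 23 + 5283954281623572540272 * c ^ 22 + 56078237765232382209624 * c ^ 21 - 113994544636951864837160 * c ^ 20 - 56078237765232382209624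 * c ^ 19 + 5283954281623572540272 * c ^ 18 + 2726628601485717689256 * c ^ 17 - 93338438474809241508 * c ^ 16 - 54130175821762153200 * c ^ 15 - 11162659305474087648 * c ^ 14 - 6193643314181477616 * c ^ 13 - 1530541746059565648 * c ^ 12 - 176838658359740496 * c ^ 11 - 10380016302860640 * c ^ 10 - 453675448903248 * c ^ 9 - 50686909884186 * c ^ 8 - 5579065697868 * c ^ 7 - 311260182456 * c ^ 6 - 7263002700 * c ^ 5 + 33698404 * c ^ 4 + 6278508 * c ^ 3 + 299144 * c ^ 2 + 11628 * c + 190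

/-- coefficient of `s ^ 19` in the quartic factor `(N² - 9ND - D²)² - 5 (N D)²` of `-T5 N D` -/
def chE6_19 (c : R) : R := -20 * c ^ 42 + 1272 * c ^ 41 - 34380 * c ^ 40 + 779760 * c ^ 39 - 4006080 * c ^ 38 - 1061780160 * c ^ 37 + 47687093248 * c ^ 36 - 907561211760 * c ^ 35 + 9036577982340 * c ^ 34 - 96739341168600 * c ^ 33 + 2397434059486620 * c ^ 32 - 43453392979438656 * c ^ 31 + 416622892606305600 * c ^ 30 - 2035294278034020480 * c ^ 29 + 5728473677574060480 * c ^ 28 - 24039037856212896960 * c ^ 27 - 22523720677137754056 * c ^ 26 + 1306518425154465125040 * c ^ 25 + 6279753862373562331400 * c ^ 24 - 125387844680100497403360 * c ^ 23 + 377637594933858056349120 * c ^ 22 + 377637594933858056349120 * c ^ 20 + 125387844680100497403360 * c ^ 19 + 6279753862373562331400 * c ^ 18 - 1306518425154465125040 * c ^ 17 - 22523720677137754056 * c ^ 16 + 24039037856212896960 * c ^ 15 + 5728473677574060480 * c ^ 14 + 2035294278034020480 * c ^ 13 + 416622892606305600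 * c ^ 12 + 43453392979438656 * c ^ 11 + 2397434059486620 * c ^ 10 + 96739341168600 * c ^ 9 + 9036577982340 * c ^ 8 + 907561211760 * c ^ 7 + 47687093248 * c ^ 6 + 1061780160 * c ^ 5 - 4006080 * c ^ 4 - 779760 * c ^ 3 - 34380 * c ^ 2 - 1272 * c - 20

/-- coefficient of `s ^ 20` in the quartic factor `(N² - 9ND - D²)² - 5 (N D)²` of `-T5 N D` -/
def chE6_20 (c : R) : R := c ^ 44 - 66 * c ^ 43 + 1870 * c ^ 42 - 45606 * c ^ 41 + 222519 * c ^ 40 + 72197004 * c ^ 39 - 3392774924 * c ^ 38 + 68340207540 * c ^ 37 - 741057540509 * c ^ 36 + 9252467214606 * c ^ 35 - 246935976342858 * c ^ 34 + 4759858397289978 * c ^ 33 - 50136104172725835 * c ^ 32 + 287765028251026128 * c ^ 31 - 1086153308435632272 * c ^ 30 + 4406735419005669552 * c ^ 29 + 13437894319431395418 * c ^ 28 - 198107364373970291460 * c ^ 27 - 4807533085160034444292 * c ^ 26 + 68594138809120312696308 * c ^ 25 - 243824105826637345076650 * c ^ 24 - 294767455187253019048440 * c ^ 23 + 2302668823630185472854840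 * c ^ 22 + 294767455187253019048440 * c ^ 21 - 243824105826637345076650 * c ^ 20 - 68594138809120312696308 * c ^ 19 - 4807533085160034444292 * c ^ 18 + 198107364373970291460 * c ^ 17 + 13437894319431395418 * c ^ 16 - 4406735419005669552 * c ^ 15 - 1086153308435632272 * c ^ 14 - 287765028251026128 * c ^ 13 - 50136104172725835 * c ^ 12 - 4759858397289978 * c ^ 11 - 246935976342858 * c ^ 10 - 9252467214606 * c ^ 9 - 741057540509 * c ^ 8 - 68340207540 * c ^ 7 - 3392774924 * c ^ 6 - 72197004 * c ^ 5 + 222519 * c ^ 4 + 45606 * c ^ 3 + 1870 * c ^ 2 + 66 * c + 1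

/-- the quartic factor `(N² - 9ND - D²)² - 5 (N D)²` of `-T5 N D` as a polynomial in `s` -/
def chE6 (c s : R) : R :=
  chE6_0 c
    + chE6_1 c * s
    + chE6_2 c * s ^ 2
    + chE6_3 c * s ^ 3
    + chE6_4 c * s ^ 4
    + chE6_5 c * s ^ 5
    + chE6_6 c * s ^ 6
    + chE6_7 c * s ^ 7
    + chE6_8 c * s ^ 8
    + chE6_9 c * s ^ 9
    + chE6_10 c * s ^ 10
    + chE6_11 c * s ^ 11
    + chE6_12 c * s ^ 12
    + chE6_13 c * s ^ 13
    + chE6_14 c * s ^ 14
    + chE6_15 c * s ^ 15
    + chE6_16 c * s ^ 16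
    + chE6_17 c * s ^ 17
    + chE6_18 c * s ^ 18
    + chE6_19 c * s ^ 19
    + chE6_20 c * s ^ 20

theorem chE6_0_eq (c : R) : chE6_0 c = (chG9_0 c * chG9_0 c) - 5 * (chB_0 c * chB_0 c) := by
  simp only [chE6_0, chG9_0, chG9_1, chG9_2, chG9_3, chG9_4, chG9_5, chG9_6, chG9_7, chG9_8, chG9_9, chG9_10, chB_0, chB_1, chB_2, chB_3, chB_4, chB_5, chB_6, chB_7, chB_8, chB_9, chB_10]
  <;> ring

theorem chE6_1_eq (c : R) : chE6_1 c = (chG9_0 c * chG9_1 c + chG9_1 c * chG9_0 c) - 5 * (chB_0 c * chB_1 c + chB_1 c * chB_0 c) := by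
  simp only [chE6_1, chG9_0, chG9_1, chG9_2, chG9_3, chG9_4, chG9_5, chG9_6, chG9_7, chG9_8, chG9_9, chG9_10, chB_0, chB_1, chB_2, chB_3, chB_4, chB_5, chB_6, chB_7, chB_8, chB_9, chB_10]
  <;> ring

theorem chE6_2_eq (c : R) : chE6_2 c = (chG9_0 c * chG9_2 c + chG9_1 c * chG9_1 c + chG9_2 c * chG9_0 c) - 5 * (chB_0 c * chB_2 c + chB_1 c * chB_1 c + chB_2 c * chB_0 c) := by
  simp only [chE6_2, chG9_0, chG9_1, chG9_2, chG9_3, chG9_4, chG9_5, chG9_6, chG9_7, chG9_8, chG9_9, chG9_10, chB_0, chB_1, chB_2, chB_3, chB_4, chB_5, chB_6, chB_7, chB_8, chB_9, chB_10]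
  <;> ring

theorem chE6_3_eq (c : R) : chE6_3 c = (chG9_0 c * chG9_3 c + chG9_1 c * chG9_2 c + chG9_2 c * chG9_1 c + chG9_3 c * chG9_0 c) - 5 * (chB_0 c * chB_3 c + chB_1 c * chB_2 c + chB_2 c * chB_1 c + chB_3 c * chB_0 c) := by
  simp only [chE6_3, chG9_0, chG9_1, chG9_2, chG9_3, chG9_4, chG9_5, chG9_6, chG9_7, chG9_8, chG9_9, chG9_10, chB_0, chB_1, chB_2, chB_3, chB_4, chB_5, chB_6, chB_7, chB_8, chB_9, chB_10]
  <;> ring

theorem chE6_4_eq (c : R) : chE6_4 c = (chG9_0 c * chG9_4 c + chG9_1 c * chG9_3 c + chG9_2 c * chG9_2 c + chG9_3 c * chG9_1 c + chG9_4 c * chG9_0 c) - 5 * (chB_0 c * chB_4 c + chB_1 c * chB_3 c + chB_2 c * chB_2 c + chB_3 c * chB_1 c + chB_4 c * chB_0 c) := by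
  simp only [chE6_4, chG9_0, chG9_1, chG9_2, chG9_3, chG9_4, chG9_5, chG9_6, chG9_7, chG9_8, chG9_9, chG9_10, chB_0, chB_1, chB_2, chB_3, chB_4, chB_5, chB_6, chB_7, chB_8, chB_9, chB_10]
  <;> ring

theorem chE6_5_eq (c : R) : chE6_5 c = (chG9_0 c * chG9_5 c + chG9_1 c * chG9_4 c + chG9_2 c * chG9_3 c + chG9_3 c * chG9_2 c + chG9_4 c * chG9_1 c + chG9_5 c * chG9_0 c) - 5 * (chB_0 c * chB_5 c + chB_1 c * chB_4 c + chB_2 c * chB_3 c + chB_3 c * chB_2 c + chB_4 c * chB_1 c + chB_5 c * chB_0 c) := by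
  simp only [chE6_5, chG9_0, chG9_1, chG9_2, chG9_3, chG9_4, chG9_5, chG9_6, chG9_7, chG9_8, chG9_9, chG9_10, chB_0, chB_1, chB_2, chB_3, chB_4, chB_5, chB_6, chB_7, chB_8, chB_9, chB_10]
  <;> ring

theorem chE6_6_eq (c : R) : chE6_6 c = (chG9_0 c * chG9_6 c + chG9_1 c * chG9_5 c + chG9_2 c * chG9_4 c + chG9_3 c * chG9_3 c + chG9_4 c * chG9_2 c + chG9_5 c * chG9_1 c + chG9_6 c * chG9_0 c) - 5 * (chB_0 c * chB_6 c + chB_1 c * chB_5 c + chB_2 c * chB_4 c + chB_3 c * chB_3 c + chB_4 c * chB_2 c + chB_5 c * chB_1 c + chB_6 c * chB_0 c) := by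
  simp only [chE6_6, chG9_0, chG9_1, chG9_2, chG9_3, chG9_4, chG9_5, chG9_6, chG9_7, chG9_8, chG9_9, chG9_10, chB_0, chB_1, chB_2, chB_3, chB_4, chB_5, chB_6, chB_7, chB_8, chB_9, chB_10]
  <;> ring

theorem chE6_7_eq (c : R) : chE6_7 c = (chG9_0 c * chG9_7 c + chG9_1 c * chG9_6 c + chG9_2 c * chG9_5 c + chG9_3 c * chG9_4 c + chG9_4 c * chG9_3 c + chG9_5 c * chG9_2 c + chG9_6 c * chG9_1 c + chG9_7 c * chG9_0 c) - 5 * (chB_0 c * chB_7 c + chB_1 c * chB_6 c + chB_2 c * chB_5 c + chB_3 c * chB_4 c + chB_4 c * chB_3 c + chB_5 c * chB_2 c + chB_6 c * chB_1 c + chB_7 c * chB_0 c) := by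
  simp only [chE6_7, chG9_0, chG9_1, chG9_2, chG9_3, chG9_4, chG9_5, chG9_6, chG9_7, chG9_8, chG9_9, chG9_10, chB_0, chB_1, chB_2, chB_3, chB_4, chB_5, chB_6, chB_7, chB_8, chB_9, chB_10]
  <;> ring

theorem chE6_8_eq (c : R) : chE6_8 c = (chG9_0 c * chG9_8 c + chG9_1 c * chG9_7 c + chG9_2 c * chG9_6 c + chG9_3 c * chG9_5 c + chG9_4 c * chG9_4 c + chG9_5 c * chG9_3 c + chG9_6 c * chG9_2 c + chG9_7 c * chG9_1 c + chG9_8 c * chG9_0 c) - 5 * (chB_0 c * chB_8 c + chB_1 c * chB_7 c + chB_2 c * chB_6 c + chB_3 c * chB_5 c + chB_4 c * chB_4 c + chB_5 c * chB_3 c + chB_6 c * chB_2 c + chB_7 c * chB_1 c + chB_8 c * chB_0 c) := by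
  simp only [chE6_8, chG9_0, chG9_1, chG9_2, chG9_3, chG9_4, chG9_5, chG9_6, chG9_7, chG9_8, chG9_9, chG9_10, chB_0, chB_1, chB_2, chB_3, chB_4, chB_5, chB_6, chB_7, chB_8, chB_9, chB_10]
  <;> ring

theorem chE6_9_eq (c : R) : chE6_9 c = (chG9_0 c * chG9_9 c + chG9_1 c * chG9_8 c + chG9_2 c * chG9_7 c + chG9_3 c * chG9_6 c + chG9_4 c * chG9_5 c + chG9_5 c * chG9_4 c + chG9_6 c * chG9_3 c + chG9_7 c * chG9_2 c + chG9_8 c * chG9_1 c + chG9_9 c * chG9_0 c) - 5 * (chB_0 c * chB_9 c + chB_1 c * chB_8 c + chB_2 c * chB_7 c + chB_3 c * chB_6 c + chB_4 c * chB_5 c + chB_5 c * chB_4 c + chB_6 c * chB_3 c + chB_7 c * chB_2 c + chB_8 c * chB_1 c + chB_9 c * chB_0 c) := by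
  simp only [chE6_9, chG9_0, chG9_1, chG9_2, chG9_3, chG9_4, chG9_5, chG9_6, chG9_7, chG9_8, chG9_9, chG9_10, chB_0, chB_1, chB_2, chB_3, chB_4, chB_5, chB_6, chB_7, chB_8, chB_9, chB_10]
  <;> ring

theorem chE6_10_eq (c : R) : chE6_10 c = (chG9_0 c * chG9_10 c + chG9_1 c * chG9_9 c + chG9_2 c * chG9_8 c + chG9_3 c * chG9_7 c + chG9_4 c * chG9_6 c + chG9_5 c * chG9_5 c + chG9_6 c * chG9_4 c + chG9_7 c * chG9_3 c + chG9_8 c * chG9_2 c + chG9_9 c * chG9_1 c + chG9_10 c * chG9_0 c) - 5 * (chB_0 c * chB_10 c + chB_1 c * chB_9 c + chB_2 c * chB_8 c + chB_3 c * chB_7 c + chB_4 c * chB_6 c + chB_5 c * chB_5 c + chB_6 c * chB_4 c + chB_7 c * chB_3 c + chB_8 c * chB_2 c + chB_9 c * chB_1 c + chB_10 c * chB_0 c) := by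
  simp only [chE6_10, chG9_0, chG9_1, chG9_2, chG9_3, chG9_4, chG9_5, chG9_6, chG9_7, chG9_8, chG9_9, chG9_10, chB_0, chB_1, chB_2, chB_3, chB_4, chB_5, chB_6, chB_7, chB_8, chB_9, chB_10]
  <;> ring

theorem chE6_11_eq (c : R) : chE6_11 c = (chG9_1 c * chG9_10 c + chG9_2 c * chG9_9 c + chG9_3 c * chG9_8 c + chG9_4 c * chG9_7 c + chG9_5 c * chG9_6 c + chG9_6 c * chG9_5 c + chG9_7 c * chG9_4 c + chG9_8 c * chG9_3 c + chG9_9 c * chG9_2 c + chG9_10 c * chG9_1 c) - 5 * (chB_1 c * chB_10 c + chB_2 c * chB_9 c + chB_3 c * chB_8 c + chB_4 c * chB_7 c + chB_5 c * chB_6 c + chB_6 c * chB_5 c + chB_7 c * chB_4 c + chB_8 c * chB_3 c + chB_9 c * chB_2 c + chB_10 c * chB_1 c) := by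
  simp only [chE6_11, chG9_0, chG9_1, chG9_2, chG9_3, chG9_4, chG9_5, chG9_6, chG9_7, chG9_8, chG9_9, chG9_10, chB_0, chB_1, chB_2, chB_3, chB_4, chB_5, chB_6, chB_7, chB_8, chB_9, chB_10]
  <;> ring

theorem chE6_12_eq (c : R) : chE6_12 c = (chG9_2 c * chG9_10 c + chG9_3 c * chG9_9 c + chG9_4 c * chG9_8 c + chG9_5 c * chG9_7 c + chG9_6 c * chG9_6 c + chG9_7 c * chG9_5 c + chG9_8 c * chG9_4 c + chG9_9 c * chG9_3 c + chG9_10 c * chG9_2 c) - 5 * (chB_2 c * chB_10 c + chB_3 c * chB_9 c + chB_4 c * chB_8 c + chB_5 c * chB_7 c + chB_6 c * chB_6 c + chB_7 c * chB_5 c + chB_8 c * chB_4 c + chB_9 c * chB_3 c + chB_10 c * chB_2 c) := by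
  simp only [chE6_12, chG9_0, chG9_1, chG9_2, chG9_3, chG9_4, chG9_5, chG9_6, chG9_7, chG9_8, chG9_9, chG9_10, chB_0, chB_1, chB_2, chB_3, chB_4, chB_5, chB_6, chB_7, chB_8, chB_9, chB_10]
  <;> ring

theorem chE6_13_eq (c : R) : chE6_13 c = (chG9_3 c * chG9_10 c + chG9_4 c * chG9_9 c + chG9_5 c * chG9_8 c + chG9_6 c * chG9_7 c + chG9_7 c * chG9_6 c + chG9_8 c * chG9_5 c + chG9_9 c * chG9_4 c + chG9_10 c * chG9_3 c) - 5 * (chB_3 c * chB_10 c + chB_4 c * chB_9 c + chB_5 c * chB_8 c + chB_6 c * chB_7 c + chB_7 c * chB_6 c + chB_8 c * chB_5 c + chB_9 c * chB_4 c + chB_10 c * chB_3 c) := by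
  simp only [chE6_13, chG9_0, chG9_1, chG9_2, chG9_3, chG9_4, chG9_5, chG9_6, chG9_7, chG9_8, chG9_9, chG9_10, chB_0, chB_1, chB_2, chB_3, chB_4, chB_5, chB_6, chB_7, chB_8, chB_9, chB_10]
  <;> ring

theorem chE6_14_eq (c : R) : chE6_14 c = (chG9_4 c * chG9_10 c + chG9_5 c * chG9_9 c + chG9_6 c * chG9_8 c + chG9_7 c * chG9_7 c + chG9_8 c * chG9_6 c + chG9_9 c * chG9_5 c + chG9_10 c * chG9_4 c) - 5 * (chB_4 c * chB_10 c + chB_5 c * chB_9 c + chB_6 c * chB_8 c + chB_7 c * chB_7 c + chB_8 c * chB_6 c + chB_9 c * chB_5 c + chB_10 c * chB_4 c) := by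
  simp only [chE6_14, chG9_0, chG9_1, chG9_2, chG9_3, chG9_4, chG9_5, chG9_6, chG9_7, chG9_8, chG9_9, chG9_10, chB_0, chB_1, chB_2, chB_3, chB_4, chB_5, chB_6, chB_7, chB_8, chB_9, chB_10]
  <;> ring

theorem chE6_15_eq (c : R) : chE6_15 c = (chG9_5 c * chG9_10 c + chG9_6 c * chG9_9 c + chG9_7 c * chG9_8 c + chG9_8 c * chG9_7 c + chG9_9 c * chG9_6 c + chG9_10 c * chG9_5 c) - 5 * (chB_5 c * chB_10 c + chB_6 c * chB_9 c + chB_7 c * chB_8 c + chB_8 c * chB_7 c + chB_9 c * chB_6 c + chB_10 c * chB_5 c) := by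
  simp only [chE6_15, chG9_0, chG9_1, chG9_2, chG9_3, chG9_4, chG9_5, chG9_6, chG9_7, chG9_8, chG9_9, chG9_10, chB_0, chB_1, chB_2, chB_3, chB_4, chB_5, chB_6, chB_7, chB_8, chB_9, chB_10]
  <;> ring

theorem chE6_16_eq (c : R) : chE6_16 c = (chG9_6 c * chG9_10 c + chG9_7 c * chG9_9 c + chG9_8 c * chG9_8 c + chG9_9 c * chG9_7 c + chG9_10 c * chG9_6 c) - 5 * (chB_6 c * chB_10 c + chB_7 c * chB_9 c + chB_8 c * chB_8 c + chB_9 c * chB_7 c + chB_10 c * chB_6 c) := by
  simp only [chE6_16, chG9_0, chG9_1, chG9_2, chG9_3, chG9_4, chG9_5, chG9_6, chG9_7, chG9_8, chG9_9, chG9_10, chB_0, chB_1, chB_2, chB_3, chB_4, chB_5, chB_6, chB_7, chB_8, chB_9, chB_10]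
  <;> ring

theorem chE6_17_eq (c : R) : chE6_17 c = (chG9_7 c * chG9_10 c + chG9_8 c * chG9_9 c + chG9_9 c * chG9_8 c + chG9_10 c * chG9_7 c) - 5 * (chB_7 c * chB_10 c + chB_8 c * chB_9 c + chB_9 c * chB_8 c + chB_10 c * chB_7 c) := by
  simp only [chE6_17, chG9_0, chG9_1, chG9_2, chG9_3, chG9_4, chG9_5, chG9_6, chG9_7, chG9_8, chG9_9, chG9_10, chB_0, chB_1, chB_2, chB_3, chB_4, chB_5, chB_6, chB_7, chB_8, chB_9, chB_10]
  <;> ring

theorem chE6_18_eq (c : R) : chE6_18 c = (chG9_8 c * chG9_10 c + chG9_9 c * chG9_9 c + chG9_10 c * chG9_8 c) - 5 * (chB_8 c * chB_10 c + chB_9 c * chB_9 c + chB_10 c * chB_8 c) := by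
  simp only [chE6_18, chG9_0, chG9_1, chG9_2, chG9_3, chG9_4, chG9_5, chG9_6, chG9_7, chG9_8, chG9_9, chG9_10, chB_0, chB_1, chB_2, chB_3, chB_4, chB_5, chB_6, chB_7, chB_8, chB_9, chB_10]
  <;> ring

theorem chE6_19_eq (c : R) : chE6_19 c = (chG9_9 c * chG9_10 c + chG9_10 c * chG9_9 c) - 5 * (chB_9 c * chB_10 c + chB_10 c * chB_9 c) := by
  simp only [chE6_19, chG9_0, chG9_1, chG9_2, chG9_3, chG9_4, chG9_5, chG9_6, chG9_7, chG9_8, chG9_9, chG9_10, chB_0, chB_1, chB_2, chB_3, chB_4, chB_5, chB_6, chB_7, chB_8, chB_9, chB_10]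
  <;> ring

theorem chE6_20_eq (c : R) : chE6_20 c = (chG9_10 c * chG9_10 c) - 5 * (chB_10 c * chB_10 c) := by
  simp only [chE6_20, chG9_0, chG9_1, chG9_2, chG9_3, chG9_4, chG9_5, chG9_6, chG9_7, chG9_8, chG9_9, chG9_10, chB_0, chB_1, chB_2, chB_3, chB_4, chB_5, chB_6, chB_7, chB_8, chB_9, chB_10]
  <;> ring

theorem chE6_eq (c s : R) : chG9 c s ^ 2 - 5 * chB c s ^ 2 = chE6 c s := by
  unfold chE6 chG9 chB
  rw [chE6_0_eq, chE6_1_eq, chE6_2_eq, chE6_3_eq, chE6_4_eq, chE6_5_eq, chE6_6_eq, chE6_7_eq, chE6_8_eq, chE6_9_eq, chE6_10_eq, chE6_11_eq, chE6_12_eq, chE6_13_eq, chE6_14_eq, chE6_15_eq, chE6_16_eq, chE6_17_eq, chE6_18_eq, chE6_19_eq, chE6_20_eq]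
  <;> ring

/-- coefficient of `s ^ 0` in `T5 N D` -/
def chP6_0 (c : R) : R := -c ^ 6 + 18 * c ^ 5 - 75 * c ^ 4 - 75 * c ^ 2 - 18 * c - 1

/-- coefficient of `s ^ 1` in `T5 N D` -/
def chP6_1 (c : R) : R := 30 * c ^ 8 - 720 * c ^ 7 + 5160 * c ^ 6 - 9360 * c ^ 5 - 2700 * c ^ 4 + 9360 * c ^ 3 + 5160 * c ^ 2 + 720 * c + 30

/-- coefficient of `s ^ 2` in `T5 N D` -/
def chP6_2 (c : R) : R := -435 * c ^ 10 + 13050 * c ^ 9 - 132675 * c ^ 8 + 495900 * c ^ 7 - 395850 * c ^ 6 - 395850 * c ^ 4 - 495900 * c ^ 3 - 132675 * c ^ 2 - 13050 * c - 435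

/-- coefficient of `s ^ 3` in `T5 N D` -/
def chP6_3 (c : R) : R := 4060 * c ^ 12 - 146160 * c ^ 11 + 1924440 * c ^ 10 - 10962000 * c ^ 9 + 23446500 * c ^ 8 - 8811360 * c ^ 7 + 21002960 * c ^ 6 + 8811360 * c ^ 5 + 23446500 * c ^ 4 + 10962000 * c ^ 3 + 1924440 * c ^ 2 + 146160 * c + 4060

/-- coefficient of `s ^ 4` in `T5 N D` -/
def chP6_4 (c : R) : R := -27405 * c ^ 14 + 1151010 * c ^ 13 - 18607995 * c ^ 12 + 142725240 * c ^ 11 - 507019905 * c ^ 10 + 637166250 * c ^ 9 - 7536375 * c ^ 8 - 7536375 * c ^ 6 - 637166250 * c ^ 5 - 507019905 * c ^ 4 - 142725240 * c ^ 3 - 18607995 * c ^ 2 - 1151010 * c - 27405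

/-- coefficient of `s ^ 5` in `T5 N D` -/
def chP6_5 (c : R) : R := 142506 * c ^ 16 - 6840288 * c ^ 15 + 131105520 * c ^ 14 - 1265453280 * c ^ 13 + 6324416280 * c ^ 12 - 14671515744 * c ^ 11 + 9242143632 * c ^ 10 + 10357022880 * c ^ 9 - 7768409220 * c ^ 8 - 10357022880 * c ^ 7 + 9242143632 * c ^ 6 + 14671515744 * c ^ 5 + 6324416280 * c ^ 4 + 1265453280 * c ^ 3 + 131105520 * c ^ 2 + 6840288 * c + 142506

/-- coefficient of `s ^ 6` in `T5 N D` -/
def chP6_6 (c : R) : R := -593775 * c ^ 18 + 32063850 * c ^ 17 - 710748675 * c ^ 16 + 8272473300 * c ^ 15 - 53439750000 * c ^ 14 + 184381231500 * c ^ 13 - 290764701000 * c ^ 12 + 140104930500 * c ^ 11 - 66149601750 * c ^ 10 - 66149601750 * c ^ 8 - 140104930500 * c ^ 7 - 290764701000 * c ^ 6 - 184381231500 * c ^ 5 - 53439750000 * c ^ 4 - 8272473300 * c ^ 3 - 710748675 * c ^ 2 - 32063850 * c - 593775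

/-- coefficient of `s ^ 7` in `T5 N D` -/
def chP6_7 (c : R) : R := 2035800 * c ^ 20 - 122148000 * c ^ 19 + 3074058000 * c ^ 18 - 41896764000 * c ^ 17 + 332334171000 * c ^ 16 - 1530097257600 * c ^ 15 + 3893157432000 * c ^ 14 - 5742947952000 * c ^ 13 + 9756933246000 * c ^ 12 - 13139122104000 * c ^ 11 - 6785732944800 * c ^ 10 + 13139122104000 * c ^ 9 + 9756933246000 * c ^ 8 + 5742947952000 * c ^ 7 + 3893157432000 * c ^ 6 + 1530097257600 * c ^ 5 + 332334171000 * c ^ 4 + 41896764000 * c ^ 3 + 3074058000 * c ^ 2 + 122148000 * c + 2035800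

/-- coefficient of `s ^ 8` in `T5 N D` -/
def chP6_8 (c : R) : R := -5852925 * c ^ 22 + 386293050 * c ^ 21 - 10880587575 * c ^ 20 + 169968942000 * c ^ 19 - 1599575137875 * c ^ 18 + 9218705349150 * c ^ 17 - 31990309211025 * c ^ 16 + 69072049965600 * c ^ 15 - 135316226801250 * c ^ 14 + 286773560122500 * c ^ 13 - 193238978703750 * c ^ 12 - 193238978703750 * c ^ 10 - 286773560122500 * c ^ 9 - 135316226801250 * c ^ 8 - 69072049965600 * c ^ 7 - 31990309211025 * c ^ 6 - 9218705349150 * c ^ 5 - 1599575137875 * c ^ 4 - 169968942000 * c ^ 3 - 10880587575 * c ^ 2 - 386293050 * c - 5852925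

/-- coefficient of `s ^ 9` in `T5 N D` -/
def chP6_9 (c : R) : R := 14307150 * c ^ 24 - 1030114800 * c ^ 23 + 32105244600 * c ^ 22 - 565533025200 * c ^ 21 + 6161030775900 * c ^ 20 - 42634312102800 * c ^ 19 + 185137835856600 * c ^ 18 - 483232161733200 * c ^ 17 + 734322356989650 * c ^ 16 - 829830213352800 * c ^ 15 + 1071718694751600 * c ^ 14 - 1985773060735200 * c ^ 13 + 9526506303515400 * c ^ 12 + 1985773060735200 * c ^ 11 + 1071718694751600 * c ^ 10 + 829830213352800 * c ^ 9 + 734322356989650 * c ^ 8 + 483232161733200 * c ^ 7 + 185137835856600 * c ^ 6 + 42634312102800 * c ^ 5 + 6161030775900 * c ^ 4 + 565533025200 * c ^ 3 + 32105244600 * c ^ 2 + 1030114800 * c + 14307150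

/-- coefficient of `s ^ 10` in `T5 N D` -/
def chP6_10 (c : R) : R := -30045015 * c ^ 26 + 2343511170 * c ^ 25 - 80069964975 * c ^ 24 + 1570152483900 * c ^ 23 - 19439425155150 * c ^ 22 + 156901293921240 * c ^ 21 - 810021778625070 * c ^ 20 + 2317678406673300 * c ^ 19 - 345282662703825 * c ^ 18 - 24861603274442550 * c ^ 17 + 86942049478919415 * c ^ 16 - 94719728342713320 * c ^ 15 - 8062979439982500 * c ^ 14 - 8062979439982500 * c ^ 12 + 94719728342713320 * c ^ 11 + 86942049478919415 * c ^ 10 + 24861603274442550 * c ^ 9 - 345282662703825 * c ^ 8 - 2317678406673300 * c ^ 7 - 810021778625070 * c ^ 6 - 156901293921240 * c ^ 5 - 19439425155150 * c ^ 4 - 1570152483900 * c ^ 3 - 80069964975 * c ^ 2 - 2343511170 * c - 30045015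

/-- coefficient of `s ^ 11` in `T5 N D` -/
def chP6_11 (c : R) : R := 54627300 * c ^ 28 - 4588693200 * c ^ 27 + 170546430600 * c ^ 26 - 3684720639600 * c ^ 25 + 51104658559500 * c ^ 24 - 470982360693600 * c ^ 23 + 2795496458504400 * c ^ 22 - 8197366889527200 * c ^ 21 - 21171468176466300 * c ^ 20 + 348441164319402000 * c ^ 19 - 1604722135713813000 * c ^ 18 + 3326284296300654000 * c ^ 17 - 2615358743571856500 * c ^ 16 + 2162848984450200000 * c ^ 15 - 1900683273751524000 * c ^ 14 - 2162848984450200000 * c ^ 13 - 2615358743571856500 * c ^ 12 - 3326284296300654000 * c ^ 11 - 1604722135713813000 * c ^ 10 - 348441164319402000 * c ^ 9 - 21171468176466300 * c ^ 8 + 8197366889527200 * c ^ 7 + 2795496458504400 * c ^ 6 + 470982360693600 * c ^ 5 + 51104658559500 * c ^ 4 + 3684720639600 * c ^ 3 + 170546430600 * c ^ 2 + 4588693200 * c + 54627300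

/-- coefficient of `s ^ 12` in `T5 N D` -/
def chP6_12 (c : R) : R := -86493225 * c ^ 30 + 7784390250 * c ^ 29 - 312673008375 * c ^ 28 + 7379601957000 * c ^ 27 - 113349803828625 * c ^ 26 + 1173634605340650 * c ^ 25 - 7823938721103375 * c ^ 24 + 22201260290604000 * c ^ 23 + 165281389154629875 * c ^ 22 - 2442710744701350750 * c ^ 21 + 14192465434696010925 * c ^ 20 - 42991666136841159000 * c ^ 19 + 61202593261150510875 * c ^ 18 - 33047824159874310750 * c ^ 17 + 29484911975665861125 * c ^ 16 + 29484911975665861125 * c ^ 14 + 33047824159874310750 * c ^ 13 + 61202593261150510875 * c ^ 12 + 42991666136841159000 * c ^ 11 + 14192465434696010925 * c ^ 10 + 2442710744701350750 * c ^ 9 + 165281389154629875 * c ^ 8 - 22201260290604000 * c ^ 7 - 7823938721103375 * c ^ 6 - 1173634605340650 * c ^ 5 - 113349803828625 * c ^ 4 - 7379601957000 * c ^ 3 - 312673008375 * c ^ 2 - 7784390250 * c - 86493225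

/-- coefficient of `s ^ 13` in `T5 N D` -/
def chP6_13 (c : R) : R := 119759850 * c ^ 32 - 11496945600 * c ^ 31 + 496284818400 * c ^ 30 - 12704124888000 * c ^ 29 + 214087498254000 * c ^ 28 - 2458958512824000 * c ^ 27 + 18099470372580000 * c ^ 26 - 46848336990264000 * c ^ 25 - 746431288587729000 * c ^ 24 + 11481676449063912000 * c ^ 23 - 80796844209232922400 * c ^ 22 + 323627430167216078400 * c ^ 21 - 698047002487184439600 * c ^ 20 + 607103532554324040000 * c ^ 19 + 100980588056897700000 * c ^ 18 - 205524781093381176000 * c ^ 17 - 132115283556636586500 * c ^ 16 + 205524781093381176000 * c ^ 15 + 100980588056897700000 * c ^ 14 - 607103532554324040000 * c ^ 13 - 698047002487184439600 * c ^ 12 - 323627430167216078400 * c ^ 11 - 80796844209232922400 * c ^ 10 - 11481676449063912000 * c ^ 9 - 746431288587729000 * c ^ 8 + 46848336990264000 * c ^ 7 + 18099470372580000 * c ^ 6 + 2458958512824000 * c ^ 5 + 214087498254000 * c ^ 4 + 12704124888000 * c ^ 3 + 496284818400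 * c ^ 2 + 11496945600 * c + 119759850

/-- coefficient of `s ^ 14` in `T5 N D` -/
def chP6_14 (c : R) : R := -145422675 * c ^ 34 + 14833112850 * c ^ 33 - 684795376575 * c ^ 32 + 18897385770900 * c ^ 31 - 346669624788300 * c ^ 30 + 4372028601239700 * c ^ 29 - 35075173816296900 * c ^ 28 + 76965729627597300 * c ^ 27 + 2415230185245629400 * c ^ 26 - 39904047855171735300 * c ^ 25 + 330146403683185148400 * c ^ 24 - 1650932619159116814300 * c ^ 23 + 4894522341066813878100 * c ^ 22 - 7380529979284373960700 * c ^ 21 + 2192995906221793635900 * c ^ 20 + 6327937683628715362500 * c ^ 19 - 3347765648323318653750 * c ^ 18 - 3347765648323318653750 * c ^ 16 - 6327937683628715362500 * c ^ 15 + 2192995906221793635900 * c ^ 14 + 7380529979284373960700 * c ^ 13 + 4894522341066813878100 * c ^ 12 + 1650932619159116814300 * c ^ 11 + 330146403683185148400 * c ^ 10 + 39904047855171735300 * c ^ 9 + 2415230185245629400 * c ^ 8 - 76965729627597300 * c ^ 7 - 35075173816296900 * c ^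 6 - 4372028601239700 * c ^ 5 - 346669624788300 * c ^ 4 - 18897385770900 * c ^ 3 - 684795376575 * c ^ 2 - 14833112850 * c - 145422675

/-- coefficient of `s ^ 15` in `T5 N D` -/
def chP6_15 (c : R) : R := 155117520 * c ^ 36 - 16752692160 * c ^ 35 + 823674031200 * c ^ 34 - 24375167092800 * c ^ 33 + 483573439486800 * c ^ 32 - 6640365107612160 * c ^ 31 + 57481561850676480 * c ^ 30 - 95641119541440000 * c ^ 29 - 6027087439220760000 * c ^ 28 + 107708360123708640000 * c ^ 27 - 1024882668888040068480 * c ^ 26 + 6160097731353855171840 * c ^ 25 - 23545557200517812164800 * c ^ 24 + 54044793716405571187200 * c ^ 23 - 65425843643047114579200 * c ^ 22 + 33869197798379441763840 * c ^ 21 - 12148690014521383439520 * c ^ 20 - 14123295571908831120000 * c ^ 19 + 61500790021289616360000 * c ^ 18 + 14123295571908831120000 * c ^ 17 - 12148690014521383439520 * c ^ 16 - 33869197798379441763840 * c ^ 15 - 65425843643047114579200 * c ^ 14 - 54044793716405571187200 * c ^ 13 - 23545557200517812164800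 * c ^ 12 - 6160097731353855171840 * c ^ 11 - 1024882668888040068480 * c ^ 10 - 107708360123708640000 * c ^ 9 - 6027087439220760000 * c ^ 8 + 95641119541440000 * c ^ 7 + 57481561850676480 * c ^ 6 + 6640365107612160 * c ^ 5 + 483573439486800 * c ^ 4 + 24375167092800 * c ^ 3 + 823674031200 * c ^ 2 + 16752692160 * c + 155117520

/-- coefficient of `s ^ 16` in `T5 N D` -/
def chP6_16 (c : R) : R := -145422675 * c ^ 38 + 16578184950 * c ^ 37 - 864828648225 * c ^ 36 + 27320848797600 * c ^ 35 - 582847537379625 * c ^ 34 + 8653733143119450 * c ^ 33 - 80179251542325675 * c ^ 32 + 80551104157166400 * c ^ 31 + 12029671659703094100 * c ^ 30 - 232442546921786961000 * c ^ 29 + 2501227789658718169500 * c ^ 28 - 17588023640409987144000 * c ^ 27 + 82903234805419965115500 * c ^ 26 - 262005517631408160771000 * c ^ 25 + 581666754960741868114500 * c ^ 24 - 1106231006221036020043200 * c ^ 23 + 1940447487199195917800550 * c ^ 22 - 1693924037211407459985900 * c ^ 21 - 330727395708883987804350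 * c ^ 20 - 330727395708883987804350 * c ^ 18 + 1693924037211407459985900 * c ^ 17 + 1940447487199195917800550 * c ^ 16 + 1106231006221036020043200 * c ^ 15 + 581666754960741868114500 * c ^ 14 + 262005517631408160771000 * c ^ 13 + 82903234805419965115500 * c ^ 12 + 17588023640409987144000 * c ^ 11 + 2501227789658718169500 * c ^ 10 + 232442546921786961000 * c ^ 9 + 12029671659703094100 * c ^ 8 - 80551104157166400 * c ^ 7 - 80179251542325675 * c ^ 6 - 8653733143119450 * c ^ 5 - 582847537379625 * c ^ 4 - 27320848797600 * c ^ 3 - 864828648225 * c ^ 2 - 16578184950 * c - 145422675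

/-- coefficient of `s ^ 17` in `T5 N D` -/
def chP6_17 (c : R) : R := 119759850 * c ^ 40 - 14371182000 * c ^ 39 + 792810207000 * c ^ 38 - 26629800246000 * c ^ 37 + 607923752971500 * c ^ 36 - 9701497579827600 * c ^ 35 + 95581260488871000 * c ^ 34 - 21369210597666000 * c ^ 33 - 19609719154498950750 * c ^ 32 + 408513706016596488000 * c ^ 31 - 4905553686803715924000 * c ^ 30 + 39546903223623714408000 * c ^ 29 - 222594187079536402518000 * c ^ 28 + 905768071598782446264000 * c ^ 27 - 2942619935404853197476000 * c ^ 26 + 8927675705490247838462400 * c ^ 25 - 23890009684466315175151500 * c ^ 24 + 39425310114782073903324000 * c ^ 23 - 22265633714796379562382000 * c ^ 22 + 1285453840896333267948000 * c ^ 21 - 6776602726500963811870200 * c ^ 20 - 1285453840896333267948000 * c ^ 19 - 22265633714796379562382000 * c ^ 18 - 39425310114782073903324000 * c ^ 17 - 23890009684466315175151500 * c ^ 16 - 8927675705490247838462400 * c ^ 15 - 2942619935404853197476000 * c ^ 14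 - 905768071598782446264000 * c ^ 13 - 222594187079536402518000 * c ^ 12 - 39546903223623714408000 * c ^ 11 - 4905553686803715924000 * c ^ 10 - 408513706016596488000 * c ^ 9 - 19609719154498950750 * c ^ 8 + 21369210597666000 * c ^ 7 + 95581260488871000 * c ^ 6 + 9701497579827600 * c ^ 5 + 607923752971500 * c ^ 4 + 26629800246000 * c ^ 3 + 792810207000 * c ^ 2 + 14371182000 * c + 119759850

/-- coefficient of `s ^ 18` in `T5 N D` -/
def chP6_18 (c : R) : R := -86493225 * c ^ 42 + 10898146350 * c ^ 41 - 633908846025 * c ^ 40 + 22559162944500 * c ^ 39 - 548739832299750 * c ^ 38 + 9364539075973200 * c ^ 37 - 97575617128750950 * c ^ 36 - 65667353523527700 * c ^ 35 + 26437514430537448875 * c ^ 34 - 591616033614473379750 * c ^ 33 + 7843478805722103849675 * c ^ 32 - 71362691076322924426800 * c ^ 31 + 468188622860542082998200 * c ^ 30 - 2342943401551501687380000 * c ^ 29 + 10024219676000087332515000 * c ^ 28 - 40951458345177006075680400 * c ^ 27 + 146000798474235996617229150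 * c ^ 26 - 353676794908613943577274100 * c ^ 25 + 435863647154859140219166750 * c ^ 24 - 178915689381444827280849000 * c ^ 23 + 114952124000935331857921500 * c ^ 22 + 114952124000935331857921500 * c ^ 20 + 178915689381444827280849000 * c ^ 19 + 435863647154859140219166750 * c ^ 18 + 353676794908613943577274100 * c ^ 17 + 146000798474235996617229150 * c ^ 16 + 40951458345177006075680400 * c ^ 15 + 10024219676000087332515000 * c ^ 14 + 2342943401551501687380000 * c ^ 13 + 468188622860542082998200 * c ^ 12 + 71362691076322924426800 * c ^ 11 + 7843478805722103849675 * c ^ 10 + 591616033614473379750 * c ^ 9 + 26437514430537448875 * c ^ 8 + 65667353523527700 * c ^ 7 - 97575617128750950 * c ^ 6 - 9364539075973200 * c ^ 5 - 548739832299750 * c ^ 4 - 22559162944500 * c ^ 3 - 633908846025 * c ^ 2 - 10898146350 * c - 86493225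

/-- coefficient of `s ^ 19` in `T5 N D` -/
def chP6_19 (c : R) : R := 54627300 * c ^ 44 - 7210803600 * c ^ 43 + 441060820200 * c ^ 42 - 16577637476400 * c ^ 41 + 428045920602300 * c ^ 40 - 7777211271904800 * c ^ 39 + 85314821499903600 * c ^ 38 + 143258733859744800 * c ^ 37 - 29692856549262446100 * c ^ 36 + 711064897290349945200 * c ^ 35 - 10316468735432380467000 * c ^ 34 + 104613271289317508274000 * c ^ 33 - 785172009575723111095500 * c ^ 32 + 4676653938606870653136000 * c ^ 31 - 24809049084010365108792000 * c ^ 30 + 126545886581694417632995200 * c ^ 29 - 562826144140584118799261400 * c ^ 28 + 1801465776771781860627544800 * c ^ 27 - 3445661267253780153679623600 * c ^ 26 + 3155162690089977588032695200 * c ^ 25 - 1382878046989032613714938600 * c ^ 24 + 1153523368853837816805115200 * c ^ 23 + 1470414826896394430066493600 * c ^ 22 - 1153523368853837816805115200 * c ^ 21 - 1382878046989032613714938600 * c ^ 20 - 3155162690089977588032695200 * c ^ 19 - 3445661267253780153679623600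 * c ^ 18 - 1801465776771781860627544800 * c ^ 17 - 562826144140584118799261400 * c ^ 16 - 126545886581694417632995200 * c ^ 15 - 24809049084010365108792000 * c ^ 14 - 4676653938606870653136000 * c ^ 13 - 785172009575723111095500 * c ^ 12 - 104613271289317508274000 * c ^ 11 - 10316468735432380467000 * c ^ 10 - 711064897290349945200 * c ^ 9 - 29692856549262446100 * c ^ 8 - 143258733859744800 * c ^ 7 + 85314821499903600 * c ^ 6 + 7777211271904800 * c ^ 5 + 428045920602300 * c ^ 4 + 16577637476400 * c ^ 3 + 441060820200 * c ^ 2 + 7210803600 * c + 54627300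

/-- coefficient of `s ^ 20` in `T5 N D` -/
def chP6_20 (c : R) : R := -30045015 * c ^ 46 + 4146212070 * c ^ 45 - 266048607825 * c ^ 44 + 10531378657800 * c ^ 43 - 287688379653675 * c ^ 42 + 5543604050316750 * c ^ 41 - 63776560374665325 * c ^ 40 - 177908109347073600 * c ^ 39 + 27874527721402895775 * c ^ 38 - 711728061020220702150 * c ^ 37 + 11217036125310021494505 * c ^ 36 - 125482882261804114208040 * c ^ 35 + 1061576342373083532878475 * c ^ 34 - 7345469267537970122913150 * c ^ 33 + 46476923249487547793220525 * c ^ 32 - 283390746314441184970024320 * c ^ 31 + 1509985621844642132702522010 * c ^ 30 - 6016204190499981004612671300 * c ^ 29 + 15671930894976887103009892950 * c ^ 28 - 23247773700193553886699073200 * c ^ 27 + 17084290659731813608896023730 * c ^ 26 - 10337818158277591195868391540 * c ^ 25 + 6059543745540448591691766750 * c ^ 24 + 6059543745540448591691766750 * c ^ 22 + 10337818158277591195868391540 * c ^ 21 + 17084290659731813608896023730 * c ^ 20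 + 23247773700193553886699073200 * c ^ 19 + 15671930894976887103009892950 * c ^ 18 + 6016204190499981004612671300 * c ^ 17 + 1509985621844642132702522010 * c ^ 16 + 283390746314441184970024320 * c ^ 15 + 46476923249487547793220525 * c ^ 14 + 7345469267537970122913150 * c ^ 13 + 1061576342373083532878475 * c ^ 12 + 125482882261804114208040 * c ^ 11 + 11217036125310021494505 * c ^ 10 + 711728061020220702150 * c ^ 9 + 27874527721402895775 * c ^ 8 + 177908109347073600 * c ^ 7 - 63776560374665325 * c ^ 6 - 5543604050316750 * c ^ 5 - 287688379653675 * c ^ 4 - 10531378657800 * c ^ 3 - 266048607825 * c ^ 2 - 4146212070 * c - 30045015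

/-- coefficient of `s ^ 21` in `T5 N D` -/
def chP6_21 (c : R) : R := 14307150 * c ^ 48 - 2060229600 * c ^ 47 + 138378754800 * c ^ 46 - 5754221272800 * c ^ 45 + 165802986063000 * c ^ 44 - 3376902844418400 * c ^ 43 + 40608407151747600 * c ^ 42 + 162395232284023200 * c ^ 41 - 21871811813713913700 * c ^ 40 + 593407121321251116000 * c ^ 39 - 10095594057716298318000 * c ^ 38 + 123537189293719863948000 * c ^ 37 - 1163957235053306323245000 * c ^ 36 + 9184073095503562660668000 * c ^ 35 - 67466686696539811611282000 * c ^ 34 + 477863927210085331775349600 * c ^ 33 - 2966905302737104401461103150 * c ^ 32 + 14156845216824081817023739200 * c ^ 31 - 46790692550420418123648247200 * c ^ 30 + 97400546724623971903844616000 * c ^ 29 - 114514696202129565809967752400 * c ^ 28 + 78353253625942310971237761600 * c ^ 27 - 68906082661481435014019656800 * c ^ 26 + 96329848166932082094131572800 * c ^ 25 - 228721477050476155018068315000 * c ^ 24 - 96329848166932082094131572800 * c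 ^ 23 - 68906082661481435014019656800 * c ^ 22 - 78353253625942310971237761600 * c ^ 21 - 114514696202129565809967752400 * c ^ 20 - 97400546724623971903844616000 * c ^ 19 - 46790692550420418123648247200 * c ^ 18 - 14156845216824081817023739200 * c ^ 17 - 2966905302737104401461103150 * c ^ 16 - 477863927210085331775349600 * c ^ 15 - 67466686696539811611282000 * c ^ 14 - 9184073095503562660668000 * c ^ 13 - 1163957235053306323245000 * c ^ 12 - 123537189293719863948000 * c ^ 11 - 10095594057716298318000 * c ^ 10 - 593407121321251116000 * c ^ 9 - 21871811813713913700 * c ^ 8 - 162395232284023200 * c ^ 7 + 40608407151747600 * c ^ 6 + 3376902844418400 * c ^ 5 + 165802986063000 * c ^ 4 + 5754221272800 * c ^ 3 + 138378754800 * c ^ 2 + 2060229600 * c + 14307150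

/-- coefficient of `s ^ 22` in `T5 N D` -/
def chP6_22 (c : R) : R := -5852925 * c ^ 50 + 877938750 * c ^ 49 - 61602035625 * c ^ 48 + 2684736697500 * c ^ 47 - 81377898615000 * c ^ 46 + 1746519413094900 * c ^ 45 - 21890297158740000 * c ^ 44 - 116083351054192500 * c ^ 43 + 14298620889458441250 * c ^ 42 - 410912086832442855000 * c ^ 41 + 7505828155043948552850 * c ^ 40 - 99749377147346462317500 * c ^ 39 + 1036383638162420802960000 * c ^ 38 - 9189590058394969025722500 * c ^ 37 + 76840489111604657886225000 * c ^ 36 - 619439232445915197376802700 * c ^ 35 + 4391362608420407094677840625 * c ^ 34 - 24423089127591150792899786250 * c ^ 33 + 97952307908674361009480623125 * c ^ 32 - 264144599499421202324344065000 * c ^ 31 + 442893727734910854869751418800 * c ^ 30 - 433610575400618415229714515000 * c ^ 29 + 305527413885378784286191740000 * c ^ 28 - 191674038182100464557449045000 * c ^ 27 - 66178548900013782735228532500 * c ^ 26 - 66178548900013782735228532500 * c ^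 24 + 191674038182100464557449045000 * c ^ 23 + 305527413885378784286191740000 * c ^ 22 + 433610575400618415229714515000 * c ^ 21 + 442893727734910854869751418800 * c ^ 20 + 264144599499421202324344065000 * c ^ 19 + 97952307908674361009480623125 * c ^ 18 + 24423089127591150792899786250 * c ^ 17 + 4391362608420407094677840625 * c ^ 16 + 619439232445915197376802700 * c ^ 15 + 76840489111604657886225000 * c ^ 14 + 9189590058394969025722500 * c ^ 13 + 1036383638162420802960000 * c ^ 12 + 99749377147346462317500 * c ^ 11 + 7505828155043948552850 * c ^ 10 + 410912086832442855000 * c ^ 9 + 14298620889458441250 * c ^ 8 + 116083351054192500 * c ^ 7 - 21890297158740000 * c ^ 6 - 1746519413094900 * c ^ 5 - 81377898615000 * c ^ 4 - 2684736697500 * c ^ 3 - 61602035625 * c ^ 2 - 877938750 * c - 5852925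

/-- coefficient of `s ^ 23` in `T5 N D` -/
def chP6_23 (c : R) : R := 2035800 * c ^ 52 - 317584800 * c ^ 51 + 23236621200 * c ^ 50 - 1059145308000 * c ^ 49 + 33690057219000 * c ^ 48 - 759857669539200 * c ^ 47 + 9901500388891200 * c ^ 46 + 66308886680803200 * c ^ 45 - 7736528800398582000 * c ^ 44 + 234814683609342936000 * c ^ 43 - 4583620895252359845600 * c ^ 42 + 65751452603072284737600 * c ^ 41 - 747110259713110179020400 * c ^ 40 + 7357315944956498660880000 * c ^ 39 - 68972734741627092540600000 * c ^ 38 + 623166482773172644957411200 * c ^ 37 - 4966717300517769157446622200 * c ^ 36 + 31556818716757522879375216800 * c ^ 35 - 148939435190048949138023802000 * c ^ 34 + 494753622116371401802290876000 * c ^ 33 - 1092598043739024657428542661400 * c ^ 32 + 1504574962231190230604018822400 * c ^ 31 - 1235109760234564249578366921600 * c ^ 30 - 3582226822405702609678752000 * c ^ 29 + 5391262290929765758561387836000 * c ^ 28 - 14978853152791863456713524963200 * c ^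 27 + 4068065750030475603173635723200 * c ^ 26 + 14978853152791863456713524963200 * c ^ 25 + 5391262290929765758561387836000 * c ^ 24 + 3582226822405702609678752000 * c ^ 23 - 1235109760234564249578366921600 * c ^ 22 - 1504574962231190230604018822400 * c ^ 21 - 1092598043739024657428542661400 * c ^ 20 - 494753622116371401802290876000 * c ^ 19 - 148939435190048949138023802000 * c ^ 18 - 31556818716757522879375216800 * c ^ 17 - 4966717300517769157446622200 * c ^ 16 - 623166482773172644957411200 * c ^ 15 - 68972734741627092540600000 * c ^ 14 - 7357315944956498660880000 * c ^ 13 - 747110259713110179020400 * c ^ 12 - 65751452603072284737600 * c ^ 11 - 4583620895252359845600 * c ^ 10 - 234814683609342936000 * c ^ 9 - 7736528800398582000 * c ^ 8 - 66308886680803200 * c ^ 7 + 9901500388891200 * c ^ 6 + 759857669539200 * c ^ 5 + 33690057219000 * c ^ 4 + 1059145308000 * c ^ 3 + 23236621200 * c ^ 2 + 317584800 * c + 2035800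

/-- coefficient of `s ^ 24` in `T5 N D` -/
def chP6_24 (c : R) : R := -593775 * c ^ 54 + 96191550 * c ^ 53 - 7326589725 * c ^ 52 + 348598177200 * c ^ 51 - 11610528500025 * c ^ 50 + 274527916695450 * c ^ 49 - 3710954778142275 * c ^ 48 - 30342990848911200 * c ^ 47 + 3427236460134399150 * c ^ 46 - 109569725040975198300 * c ^ 45 + 2276260571929682335050 * c ^ 44 - 35059434234006335025600 * c ^ 43 + 432610206438086523819450 * c ^ 42 - 4685833158569640518256900 * c ^ 41 + 48665064346904764948247550 * c ^ 40 - 486902833488044433415821600 * c ^ 39 + 4309734881859319001237226075 * c ^ 38 - 30802543019791244955532416150 * c ^ 37 + 167299263597023305810263871425 * c ^ 36 - 661426209294566334747112371600 * c ^ 35 + 1824042710659496904487709961525 * c ^ 34 - 3337354555543976637212436352050 * c ^ 33 + 3853729998710713786065648081975 * c ^ 32 - 2267559653278549228296476299200 * c ^ 31 - 5335413335024928776252688329100 * c ^ 30 + 29400105487818315094266081375000 * c ^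 29 - 45544008608744837354354490862500 * c ^ 28 - 45544008608744837354354490862500 * c ^ 26 - 29400105487818315094266081375000 * c ^ 25 - 5335413335024928776252688329100 * c ^ 24 + 2267559653278549228296476299200 * c ^ 23 + 3853729998710713786065648081975 * c ^ 22 + 3337354555543976637212436352050 * c ^ 21 + 1824042710659496904487709961525 * c ^ 20 + 661426209294566334747112371600 * c ^ 19 + 167299263597023305810263871425 * c ^ 18 + 30802543019791244955532416150 * c ^ 17 + 4309734881859319001237226075 * c ^ 16 + 486902833488044433415821600 * c ^ 15 + 48665064346904764948247550 * c ^ 14 + 4685833158569640518256900 * c ^ 13 + 432610206438086523819450 * c ^ 12 + 35059434234006335025600 * c ^ 11 + 2276260571929682335050 * c ^ 10 + 109569725040975198300 * c ^ 9 + 3427236460134399150 * c ^ 8 + 30342990848911200 * c ^ 7 - 3710954778142275 * c ^ 6 - 274527916695450 * c ^ 5 - 11610528500025 * c ^ 4 - 348598177200 * c ^ 3 - 7326589725 * c ^ 2 - 96191550 * c - 593775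

/-- coefficient of `s ^ 25` in `T5 N D` -/
def chP6_25 (c : R) : R := 142506 * c ^ 56 - 23941008 * c ^ 55 + 1895329800 * c ^ 54 - 93968456400 * c ^ 53 + 3270491324100 * c ^ 52 - 80889622903152 * c ^ 51 + 1132064180583336 * c ^ 50 + 11024404975659600 * c ^ 49 - 1222894648393837650 * c ^ 48 + 41081158107883706400 * c ^ 47 - 904989959823211010640 * c ^ 46 + 14897299287547754025120 * c ^ 45 - 198421336502780276770200 * c ^ 44 + 2344899173467356546760800 * c ^ 43 - 26719259491798006160494800 * c ^ 42 + 293188193066950399095602400 * c ^ 41 - 2853548307465096177763878150 * c ^ 40 + 22662605000423770707969032400 * c ^ 39 - 139257720318771975309757770600 * c ^ 38 + 639149153178649781650065699600 * c ^ 37 - 2120873342238736917745372543620 * c ^ 36 + 4908272367251514655314826864560 * c ^ 35 - 7884875857905072469896472297800 * c ^ 34 + 12716677378644869462775234217200 * c ^ 33 - 49882791411794031397312403610450 * c ^ 32 + 228081489431753269979619053757120 * c ^ 31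 - 579939056374713728024294030676960 * c ^ 30 + 402114933012581860090834494129600 * c ^ 29 + 658139288746760340407686732071600 * c ^ 28 - 402114933012581860090834494129600 * c ^ 27 - 579939056374713728024294030676960 * c ^ 26 - 228081489431753269979619053757120 * c ^ 25 - 49882791411794031397312403610450 * c ^ 24 - 12716677378644869462775234217200 * c ^ 23 - 7884875857905072469896472297800 * c ^ 22 - 4908272367251514655314826864560 * c ^ 21 - 2120873342238736917745372543620 * c ^ 20 - 639149153178649781650065699600 * c ^ 19 - 139257720318771975309757770600 * c ^ 18 - 22662605000423770707969032400 * c ^ 17 - 2853548307465096177763878150 * c ^ 16 - 293188193066950399095602400 * c ^ 15 - 26719259491798006160494800 * c ^ 14 - 2344899173467356546760800 * c ^ 13 - 198421336502780276770200 * c ^ 12 - 14897299287547754025120 * c ^ 11 - 904989959823211010640 * c ^ 10 - 41081158107883706400 * c ^ 9 - 1222894648393837650 * c ^ 8 - 11024404975659600 * c ^ 7 + 1132064180583336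 * c ^ 6 + 80889622903152 * c ^ 5 + 3270491324100 * c ^ 4 + 93968456400 * c ^ 3 + 1895329800 * c ^ 2 + 23941008 * c + 142506

/-- coefficient of `s ^ 26` in `T5 N D` -/
def chP6_26 (c : R) : R := -27405 * c ^ 58 + 4768470 * c ^ 57 - 391809285 * c ^ 56 + 20208775860 * c ^ 55 - 733621162050 * c ^ 54 + 18941973220440 * c ^ 53 - 273982621808610 * c ^ 52 - 3117476992843620 * c ^ 51 + 342982065901340745 * c ^ 50 - 12079789983316838250 * c ^ 49 + 281271207428986172625 * c ^ 48 - 4928396172416184465000 * c ^ 47 + 70485646710757437499500 * c ^ 46 - 902632306284411142428000 * c ^ 45 + 11194609022229887583691500 * c ^ 44 - 133650007383120191328720600 * c ^ 43 + 1418639924608791866617045275 * c ^ 42 - 12395384008432789993035660450 * c ^ 41 + 85028521133966260908431427075 * c ^ 40 - 444609813570790394000368426500 * c ^ 39 + 1727886316564639739295766498050 * c ^ 38 - 4871400715345498754437027312200 * c ^ 37 + 10341934109822074698806006426850 * c ^ 36 - 27845740352736962004236007797100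 * c ^ 35 + 173187005145886530429987577181625 * c ^ 34 - 1046310287041874387733936914254050 * c ^ 33 + 3820641569451187663002513063393825 * c ^ 32 - 6664946261271670308007033568175600 * c ^ 31 + 2526756502843046733779306719290600 * c ^ 30 + 2526756502843046733779306719290600 * c ^ 28 + 6664946261271670308007033568175600 * c ^ 27 + 3820641569451187663002513063393825 * c ^ 26 + 1046310287041874387733936914254050 * c ^ 25 + 173187005145886530429987577181625 * c ^ 24 + 27845740352736962004236007797100 * c ^ 23 + 10341934109822074698806006426850 * c ^ 22 + 4871400715345498754437027312200 * c ^ 21 + 1727886316564639739295766498050 * c ^ 20 + 444609813570790394000368426500 * c ^ 19 + 85028521133966260908431427075 * c ^ 18 + 12395384008432789993035660450 * c ^ 17 + 1418639924608791866617045275 * c ^ 16 + 133650007383120191328720600 * c ^ 15 + 11194609022229887583691500 * c ^ 14 + 902632306284411142428000 * c ^ 13 + 70485646710757437499500 * c ^ 12 + 4928396172416184465000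 * c ^ 11 + 281271207428986172625 * c ^ 10 + 12079789983316838250 * c ^ 9 + 342982065901340745 * c ^ 8 + 3117476992843620 * c ^ 7 - 273982621808610 * c ^ 6 - 18941973220440 * c ^ 5 - 733621162050 * c ^ 4 - 20208775860 * c ^ 3 - 391809285 * c ^ 2 - 4768470 * c - 27405

/-- coefficient of `s ^ 27` in `T5 N D` -/
def chP6_27 (c : R) : R := 4060 * c ^ 60 - 730800 * c ^ 59 + 62239800 * c ^ 58 - 3334640400 * c ^ 57 + 126050150100 * c ^ 56 - 3391362381600 * c ^ 55 + 50618589295600 * c ^ 54 + 662766022202400 * c ^ 53 - 72827902485983700 * c ^ 52 + 2683650626509834800 * c ^ 51 - 65856434389831382040 * c ^ 50 + 1223858671954671402000 * c ^ 49 - 18709005879777272089500 * c ^ 48 + 258100612431287800536000 * c ^ 47 - 3460732577185516208964000 * c ^ 46 + 44654558643684999083995200 * c ^ 45 - 513375386885399545962052500 * c ^ 44 + 4894441069760923154274450000 * c ^ 43 - 37078460110986229763933685000 * c ^ 42 + 217669089073012139019113910000 * c ^ 41 - 970715011225815499874181104700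 * c ^ 40 + 3240334909545424648540812756000 * c ^ 39 - 8675524892454101568975477366000 * c ^ 38 + 32496664069517273115452511948000 * c ^ 37 - 253575646166162597367115192834500 * c ^ 36 + 1847980427183038356020331197626800 * c ^ 35 - 8706696622520072407499885921631000 * c ^ 34 + 23228939921611124118273912539226000 * c ^ 33 - 28007913611039847340045722916675500 * c ^ 32 + 11262270878090208479761975055952000 * c ^ 31 - 22963694715272906097112778958187200 * c ^ 30 - 11262270878090208479761975055952000 * c ^ 29 - 28007913611039847340045722916675500 * c ^ 28 - 23228939921611124118273912539226000 * c ^ 27 - 8706696622520072407499885921631000 * c ^ 26 - 1847980427183038356020331197626800 * c ^ 25 - 253575646166162597367115192834500 * c ^ 24 - 32496664069517273115452511948000 * c ^ 23 - 8675524892454101568975477366000 * c ^ 22 - 3240334909545424648540812756000 * c ^ 21 - 970715011225815499874181104700 * c ^ 20 - 217669089073012139019113910000 * c ^ 19 - 37078460110986229763933685000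 * c ^ 18 - 4894441069760923154274450000 * c ^ 17 - 513375386885399545962052500 * c ^ 16 - 44654558643684999083995200 * c ^ 15 - 3460732577185516208964000 * c ^ 14 - 258100612431287800536000 * c ^ 13 - 18709005879777272089500 * c ^ 12 - 1223858671954671402000 * c ^ 11 - 65856434389831382040 * c ^ 10 - 2683650626509834800 * c ^ 9 - 72827902485983700 * c ^ 8 - 662766022202400 * c ^ 7 + 50618589295600 * c ^ 6 + 3391362381600 * c ^ 5 + 126050150100 * c ^ 4 + 3334640400 * c ^ 3 + 62239800 * c ^ 2 + 730800 * c + 4060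

/-- coefficient of `s ^ 28` in `T5 N D` -/
def chP6_28 (c : R) : R := -435 * c ^ 62 + 80910 * c ^ 61 - 7133565 * c ^ 60 + 396459000 * c ^ 59 - 15580231875 * c ^ 58 + 436066039710 * c ^ 57 - 6706739324685 * c ^ 56 - 99796061100960 * c ^ 55 + 11008231437373125 * c ^ 54 - 423606230671115250 * c ^ 53 + 10927156388397322635 * c ^ 52 - 214682939476314660360 * c ^ 51 + 3493709857342300333365 * c ^ 50 - 51659270274791009261250 * c ^ 49 + 744599751331342446826875 * c ^ 48 - 10324995047927765448739200 * c ^ 47 + 127811144255845747044171825 * c ^ 46 - 1320386436305590978432957050 * c ^ 45 + 10949167786356474866571729375 * c ^ 44 - 71320347600561629996472945000 * c ^ 43 + 359221651140942784633980585825 * c ^ 42 - 1388994137702251608019484313450 * c ^ 41 + 4521362276597694751002386444175 * c ^ 40 - 21540088445929302634896135060000 * c ^ 39 + 197110910945147485161303575285625 * c ^ 38 - 1670186582569450484284584550498650 * c ^ 37 + 9597106685650567544355296024810775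 * c ^ 36 - 34036343302410682459858273740042600 * c ^ 35 + 64682127435772354165924415415395625 * c ^ 34 - 41251740153122457258086696107646250 * c ^ 33 - 20019377332736971496455930022525625 * c ^ 32 - 20019377332736971496455930022525625 * c ^ 30 + 41251740153122457258086696107646250 * c ^ 29 + 64682127435772354165924415415395625 * c ^ 28 + 34036343302410682459858273740042600 * c ^ 27 + 9597106685650567544355296024810775 * c ^ 26 + 1670186582569450484284584550498650 * c ^ 25 + 197110910945147485161303575285625 * c ^ 24 + 21540088445929302634896135060000 * c ^ 23 + 4521362276597694751002386444175 * c ^ 22 + 1388994137702251608019484313450 * c ^ 21 + 359221651140942784633980585825 * c ^ 20 + 71320347600561629996472945000 * c ^ 19 + 10949167786356474866571729375 * c ^ 18 + 1320386436305590978432957050 * c ^ 17 + 127811144255845747044171825 * c ^ 16 + 10324995047927765448739200 * c ^ 15 + 744599751331342446826875 * c ^ 14 + 51659270274791009261250 * c ^ 13 + 3493709857342300333365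 * c ^ 12 + 214682939476314660360 * c ^ 11 + 10927156388397322635 * c ^ 10 + 423606230671115250 * c ^ 9 + 11008231437373125 * c ^ 8 + 99796061100960 * c ^ 7 - 6706739324685 * c ^ 6 - 436066039710 * c ^ 5 - 15580231875 * c ^ 4 - 396459000 * c ^ 3 - 7133565 * c ^ 2 - 80910 * c - 435

/-- coefficient of `s ^ 29` in `T5 N D` -/
def chP6_29 (c : R) : R := 30 * c ^ 64 - 5760 * c ^ 63 + 525120 * c ^ 62 - 30234240 * c ^ 61 + 1233461280 * c ^ 60 - 35857468800 * c ^ 59 + 567551121600 * c ^ 58 + 9498102364800 * c ^ 57 - 1055659668207600 * c ^ 56 + 42347227934851200 * c ^ 55 - 1145554389171107520 * c ^ 54 + 23725251724254963840 * c ^ 53 - 409554860098265650080 * c ^ 52 + 6462035837613816716160 * c ^ 51 - 99631430645340695987520 * c ^ 50 + 1477423493918724195273600 * c ^ 49 - 19592414969334684985366200 * c ^ 48 + 218027493484056844478294400 * c ^ 47 - 1964390838594913478709028800 * c ^ 46 + 14061816533288315500558473600 * c ^ 45 - 78982126308539862193125381600 * c ^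 44 + 347715306005472335102413507200 * c ^ 43 - 1338069497968040304895581326400 * c ^ 42 + 7697655975447619887249140572800 * c ^ 41 - 80017692626086745032904786931600 * c ^ 40 + 770511089344591104762123984182400 * c ^ 39 - 5211191980668181793721325695460800 * c ^ 38 + 22929183893418809956293998125929600 * c ^ 37 - 58504275510613660276820636352919200 * c ^ 36 + 51547176247235739372512027292182400 * c ^ 35 + 127358561477855468489845624907774400 * c ^ 34 - 337612620775171357353348939085084800 * c ^ 33 + 19833202623868815305591713915010100 * c ^ 32 + 337612620775171357353348939085084800 * c ^ 31 + 127358561477855468489845624907774400 * c ^ 30 - 51547176247235739372512027292182400 * c ^ 29 - 58504275510613660276820636352919200 * c ^ 28 - 22929183893418809956293998125929600 * c ^ 27 - 5211191980668181793721325695460800 * c ^ 26 - 770511089344591104762123984182400 * c ^ 25 - 80017692626086745032904786931600 * c ^ 24 - 7697655975447619887249140572800 * c ^ 23 -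 1338069497968040304895581326400 * c ^ 22 - 347715306005472335102413507200 * c ^ 21 - 78982126308539862193125381600 * c ^ 20 - 14061816533288315500558473600 * c ^ 19 - 1964390838594913478709028800 * c ^ 18 - 218027493484056844478294400 * c ^ 17 - 19592414969334684985366200 * c ^ 16 - 1477423493918724195273600 * c ^ 15 - 99631430645340695987520 * c ^ 14 - 6462035837613816716160 * c ^ 13 - 409554860098265650080 * c ^ 12 - 23725251724254963840 * c ^ 11 - 1145554389171107520 * c ^ 10 - 42347227934851200 * c ^ 9 - 1055659668207600 * c ^ 8 - 9498102364800 * c ^ 7 + 567551121600 * c ^ 6 + 35857468800 * c ^ 5 + 1233461280 * c ^ 4 + 30234240 * c ^ 3 + 525120 * c ^ 2 + 5760 * c + 30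

/-- coefficient of `s ^ 30` in `T5 N D` -/
def chP6_30 (c : R) : R := -c ^ 66 + 198 * c ^ 65 - 18645 * c ^ 64 + 1110780 * c ^ 63 - 46980780 * c ^ 62 + 1416543084 * c ^ 61 - 23046988052 * c ^ 60 - 429970842180 * c ^ 59 + 48284933127420 * c ^ 58 - 2015883167678820 * c ^ 57 + 57064754166334068 * c ^ 56 - 1242617211286103844 * c ^ 55 + 22680804339429669620 * c ^ 54 - 380376156340347019380 * c ^ 53 + 6246334734759296933580 * c ^ 52 - 98632987483888606733028 * c ^ 51 + 1395041063061822874011864 * c ^ 50 - 16637194546420968820089900 * c ^ 49 + 161843355431951986022049600 * c ^ 48 - 1263023645857229499268598100 * c ^ 47 + 7829566847205333976622746980 * c ^ 46 - 38706901538126829842935787940 * c ^ 45 + 172307767309137915740959527900 * c ^ 44 - 1157669575663429053405293246100 * c ^ 43 + 13412175985268399392978272239100 * c ^ 42 - 144408586495390138662609009546900 * c ^ 41 + 1121676650182036776639019770926100 * c ^ 40 - 5874062844668605124520127438725300 * c ^ 39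 + 18685112508982606708067911580261700 * c ^ 38 - 21126537617920521769591315233941700 * c ^ 37 - 88104155624635038759537765751707780 * c ^ 36 + 410488661183226563697849203342368140 * c ^ 35 - 533804681590106541522092257869101250 * c ^ 34 - 533804681590106541522092257869101250 * c ^ 32 - 410488661183226563697849203342368140 * c ^ 31 - 88104155624635038759537765751707780 * c ^ 30 + 21126537617920521769591315233941700 * c ^ 29 + 18685112508982606708067911580261700 * c ^ 28 + 5874062844668605124520127438725300 * c ^ 27 + 1121676650182036776639019770926100 * c ^ 26 + 144408586495390138662609009546900 * c ^ 25 + 13412175985268399392978272239100 * c ^ 24 + 1157669575663429053405293246100 * c ^ 23 + 172307767309137915740959527900 * c ^ 22 + 38706901538126829842935787940 * c ^ 21 + 7829566847205333976622746980 * c ^ 20 + 1263023645857229499268598100 * c ^ 19 + 161843355431951986022049600 * c ^ 18 + 16637194546420968820089900 * c ^ 17 + 1395041063061822874011864 *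 c ^ 16 + 98632987483888606733028 * c ^ 15 + 6246334734759296933580 * c ^ 14 + 380376156340347019380 * c ^ 13 + 22680804339429669620 * c ^ 12 + 1242617211286103844 * c ^ 11 + 57064754166334068 * c ^ 10 + 2015883167678820 * c ^ 9 + 48284933127420 * c ^ 8 + 429970842180 * c ^ 7 - 23046988052 * c ^ 6 - 1416543084 * c ^ 5 - 46980780 * c ^ 4 - 1110780 * c ^ 3 - 18645 * c ^ 2 - 198 * c - 1

/-- `T5 N D` as a polynomial in `s` -/
def chP6 (c s : R) : R :=
  chP6_0 c
    + chP6_1 c * s
    + chP6_2 c * s ^ 2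
    + chP6_3 c * s ^ 3
    + chP6_4 c * s ^ 4
    + chP6_5 c * s ^ 5
    + chP6_6 c * s ^ 6
    + chP6_7 c * s ^ 7
    + chP6_8 c * s ^ 8
    + chP6_9 c * s ^ 9
    + chP6_10 c * s ^ 10
    + chP6_11 c * s ^ 11
    + chP6_12 c * s ^ 12
    + chP6_13 c * s ^ 13
    + chP6_14 c * s ^ 14
    + chP6_15 c * s ^ 15
    + chP6_16 c * s ^ 16
    + chP6_17 c * s ^ 17
    + chP6_18 c * s ^ 18
    + chP6_19 c * s ^ 19
    + chP6_20 c * s ^ 20
    + chP6_21 c * s ^ 21
    + chP6_22 c * s ^ 22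
    + chP6_23 c * s ^ 23
    + chP6_24 c * s ^ 24
    + chP6_25 c * s ^ 25
    + chP6_26 c * s ^ 26
    + chP6_27 c * s ^ 27
    + chP6_28 c * s ^ 28
    + chP6_29 c * s ^ 29
    + chP6_30 c * s ^ 30

theorem chP6_0_eq (c : R) : chP6_0 c = -(chS_0 c * chE6_0 c) := by
  simp only [chP6_0, chS_0, chS_1, chS_2, chS_3, chS_4, chS_5, chS_6, chS_7, chS_8, chS_9, chS_10, chE6_0, chE6_1, chE6_2, chE6_3, chE6_4, chE6_5, chE6_6, chE6_7, chE6_8, chE6_9, chE6_10, chE6_11, chE6_12, chE6_13, chE6_14, chE6_15, chE6_16, chE6_17, chE6_18, chE6_19, chE6_20]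
  <;> ring

theorem chP6_1_eq (c : R) : chP6_1 c = -(chS_0 c * chE6_1 c + chS_1 c * chE6_0 c) := by
  simp only [chP6_1, chS_0, chS_1, chS_2, chS_3, chS_4, chS_5, chS_6, chS_7, chS_8, chS_9, chS_10, chE6_0, chE6_1, chE6_2, chE6_3, chE6_4, chE6_5, chE6_6, chE6_7, chE6_8, chE6_9, chE6_10, chE6_11, chE6_12, chE6_13, chE6_14, chE6_15, chE6_16, chE6_17, chE6_18, chE6_19, chE6_20]
  <;> ring

theorem chP6_2_eq (c : R) : chP6_2 c = -(chS_0 c * chE6_2 c + chS_1 c * chE6_1 c + chS_2 c * chE6_0 c) := by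
  simp only [chP6_2, chS_0, chS_1, chS_2, chS_3, chS_4, chS_5, chS_6, chS_7, chS_8, chS_9, chS_10, chE6_0, chE6_1, chE6_2, chE6_3, chE6_4, chE6_5, chE6_6, chE6_7, chE6_8, chE6_9, chE6_10, chE6_11, chE6_12, chE6_13, chE6_14, chE6_15, chE6_16, chE6_17, chE6_18, chE6_19, chE6_20]
  <;> ring

theorem chP6_3_eq (c : R) : chP6_3 c = -(chS_0 c * chE6_3 c + chS_1 c * chE6_2 c + chS_2 c * chE6_1 c + chS_3 c * chE6_0 c) := by
  simp only [chP6_3, chS_0, chS_1, chS_2, chS_3, chS_4, chS_5, chS_6, chS_7, chS_8, chS_9, chS_10, chE6_0, chE6_1, chE6_2, chE6_3, chE6_4, chE6_5, chE6_6, chE6_7, chE6_8, chE6_9, chE6_10, chE6_11, chE6_12, chE6_13, chE6_14, chE6_15, chE6_16, chE6_17, chE6_18, chE6_19, chE6_20]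
  <;> ring

theorem chP6_4_eq (c : R) : chP6_4 c = -(chS_0 c * chE6_4 c + chS_1 c * chE6_3 c + chS_2 c * chE6_2 c + chS_3 c * chE6_1 c + chS_4 c * chE6_0 c) := by
  simp only [chP6_4, chS_0, chS_1, chS_2, chS_3, chS_4, chS_5, chS_6, chS_7, chS_8, chS_9, chS_10, chE6_0, chE6_1, chE6_2, chE6_3, chE6_4, chE6_5, chE6_6, chE6_7, chE6_8, chE6_9, chE6_10, chE6_11, chE6_12, chE6_13, chE6_14, chE6_15, chE6_16, chE6_17, chE6_18, chE6_19, chE6_20]
  <;> ring

theorem chP6_5_eq (c : R) : chP6_5 c = -(chS_0 c * chE6_5 c + chS_1 c * chE6_4 c + chS_2 c * chE6_3 c + chS_3 c * chE6_2 c + chS_4 c * chE6_1 c + chS_5 c * chE6_0 c) := by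
  simp only [chP6_5, chS_0, chS_1, chS_2, chS_3, chS_4, chS_5, chS_6, chS_7, chS_8, chS_9, chS_10, chE6_0, chE6_1, chE6_2, chE6_3, chE6_4, chE6_5, chE6_6, chE6_7, chE6_8, chE6_9, chE6_10, chE6_11, chE6_12, chE6_13, chE6_14, chE6_15, chE6_16, chE6_17, chE6_18, chE6_19, chE6_20]
  <;> ring

theorem chP6_6_eq (c : R) : chP6_6 c = -(chS_0 c * chE6_6 c + chS_1 c * chE6_5 c + chS_2 c * chE6_4 c + chS_3 c * chE6_3 c + chS_4 c * chE6_2 c + chS_5 c * chE6_1 c + chS_6 c * chE6_0 c) := by
  simp only [chP6_6, chS_0, chS_1, chS_2, chS_3, chS_4, chS_5, chS_6, chS_7, chS_8, chS_9, chS_10, chE6_0, chE6_1, chE6_2, chE6_3, chE6_4, chE6_5, chE6_6, chE6_7, chE6_8, chE6_9, chE6_10, chE6_11, chE6_12, chE6_13, chE6_14, chE6_15, chE6_16, chE6_17, chE6_18, chE6_19, chE6_20]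
  <;> ring

theorem chP6_7_eq (c : R) : chP6_7 c = -(chS_0 c * chE6_7 c + chS_1 c * chE6_6 c + chS_2 c * chE6_5 c + chS_3 c * chE6_4 c + chS_4 c * chE6_3 c + chS_5 c * chE6_2 c + chS_6 c * chE6_1 c + chS_7 c * chE6_0 c) := by
  simp only [chP6_7, chS_0, chS_1, chS_2, chS_3, chS_4, chS_5, chS_6, chS_7, chS_8, chS_9, chS_10, chE6_0, chE6_1, chE6_2, chE6_3, chE6_4, chE6_5, chE6_6, chE6_7, chE6_8, chE6_9, chE6_10, chE6_11, chE6_12, chE6_13, chE6_14, chE6_15, chE6_16, chE6_17, chE6_18, chE6_19, chE6_20]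
  <;> ring

theorem chP6_8_eq (c : R) : chP6_8 c = -(chS_0 c * chE6_8 c + chS_1 c * chE6_7 c + chS_2 c * chE6_6 c + chS_3 c * chE6_5 c + chS_4 c * chE6_4 c + chS_5 c * chE6_3 c + chS_6 c * chE6_2 c + chS_7 c * chE6_1 c + chS_8 c * chE6_0 c) := by
  simp only [chP6_8, chS_0, chS_1, chS_2, chS_3, chS_4, chS_5, chS_6, chS_7, chS_8, chS_9, chS_10, chE6_0, chE6_1, chE6_2, chE6_3, chE6_4, chE6_5, chE6_6, chE6_7, chE6_8, chE6_9, chE6_10, chE6_11, chE6_12, chE6_13, chE6_14, chE6_15, chE6_16, chE6_17, chE6_18, chE6_19, chE6_20]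
  <;> ring

theorem chP6_9_eq (c : R) : chP6_9 c = -(chS_0 c * chE6_9 c + chS_1 c * chE6_8 c + chS_2 c * chE6_7 c + chS_3 c * chE6_6 c + chS_4 c * chE6_5 c + chS_5 c * chE6_4 c + chS_6 c * chE6_3 c + chS_7 c * chE6_2 c + chS_8 c * chE6_1 c + chS_9 c * chE6_0 c) := by
  simp only [chP6_9, chS_0, chS_1, chS_2, chS_3, chS_4, chS_5, chS_6, chS_7, chS_8, chS_9, chS_10, chE6_0, chE6_1, chE6_2, chE6_3, chE6_4, chE6_5, chE6_6, chE6_7, chE6_8, chE6_9, chE6_10, chE6_11, chE6_12, chE6_13, chE6_14, chE6_15, chE6_16, chE6_17, chE6_18, chE6_19, chE6_20]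
  <;> ring

theorem chP6_10_eq (c : R) : chP6_10 c = -(chS_0 c * chE6_10 c + chS_1 c * chE6_9 c + chS_2 c * chE6_8 c + chS_3 c * chE6_7 c + chS_4 c * chE6_6 c + chS_5 c * chE6_5 c + chS_6 c * chE6_4 c + chS_7 c * chE6_3 c + chS_8 c * chE6_2 c + chS_9 c * chE6_1 c + chS_10 c * chE6_0 c) := by
  simp only [chP6_10, chS_0, chS_1, chS_2, chS_3, chS_4, chS_5, chS_6, chS_7, chS_8, chS_9, chS_10, chE6_0, chE6_1, chE6_2, chE6_3, chE6_4, chE6_5, chE6_6, chE6_7, chE6_8, chE6_9, chE6_10, chE6_11, chE6_12, chE6_13, chE6_14, chE6_15, chE6_16, chE6_17, chE6_18, chE6_19, chE6_20]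
  <;> ring

theorem chP6_11_eq (c : R) : chP6_11 c = -(chS_0 c * chE6_11 c + chS_1 c * chE6_10 c + chS_2 c * chE6_9 c + chS_3 c * chE6_8 c + chS_4 c * chE6_7 c + chS_5 c * chE6_6 c + chS_6 c * chE6_5 c + chS_7 c * chE6_4 c + chS_8 c * chE6_3 c + chS_9 c * chE6_2 c + chS_10 c * chE6_1 c) := by
  simp only [chP6_11, chS_0, chS_1, chS_2, chS_3, chS_4, chS_5, chS_6, chS_7, chS_8, chS_9, chS_10, chE6_0, chE6_1, chE6_2, chE6_3, chE6_4, chE6_5, chE6_6, chE6_7, chE6_8, chE6_9, chE6_10, chE6_11, chE6_12, chE6_13, chE6_14, chE6_15, chE6_16, chE6_17, chE6_18, chE6_19, chE6_20]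
  <;> ring

theorem chP6_12_eq (c : R) : chP6_12 c = -(chS_0 c * chE6_12 c + chS_1 c * chE6_11 c + chS_2 c * chE6_10 c + chS_3 c * chE6_9 c + chS_4 c * chE6_8 c + chS_5 c * chE6_7 c + chS_6 c * chE6_6 c + chS_7 c * chE6_5 c + chS_8 c * chE6_4 c + chS_9 c * chE6_3 c + chS_10 c * chE6_2 c) := by
  simp only [chP6_12, chS_0, chS_1, chS_2, chS_3, chS_4, chS_5, chS_6, chS_7, chS_8, chS_9, chS_10, chE6_0, chE6_1, chE6_2, chE6_3, chE6_4, chE6_5, chE6_6, chE6_7, chE6_8, chE6_9, chE6_10, chE6_11, chE6_12, chE6_13, chE6_14, chE6_15, chE6_16, chE6_17, chE6_18, chE6_19, chE6_20]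
  <;> ring

theorem chP6_13_eq (c : R) : chP6_13 c = -(chS_0 c * chE6_13 c + chS_1 c * chE6_12 c + chS_2 c * chE6_11 c + chS_3 c * chE6_10 c + chS_4 c * chE6_9 c + chS_5 c * chE6_8 c + chS_6 c * chE6_7 c + chS_7 c * chE6_6 c + chS_8 c * chE6_5 c + chS_9 c * chE6_4 c + chS_10 c * chE6_3 c) := by
  simp only [chP6_13, chS_0, chS_1, chS_2, chS_3, chS_4, chS_5, chS_6, chS_7, chS_8, chS_9, chS_10, chE6_0, chE6_1, chE6_2, chE6_3, chE6_4, chE6_5, chE6_6, chE6_7, chE6_8, chE6_9, chE6_10, chE6_11, chE6_12, chE6_13, chE6_14, chE6_15, chE6_16, chE6_17, chE6_18, chE6_19, chE6_20]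
  <;> ring

theorem chP6_14_eq (c : R) : chP6_14 c = -(chS_0 c * chE6_14 c + chS_1 c * chE6_13 c + chS_2 c * chE6_12 c + chS_3 c * chE6_11 c + chS_4 c * chE6_10 c + chS_5 c * chE6_9 c + chS_6 c * chE6_8 c + chS_7 c * chE6_7 c + chS_8 c * chE6_6 c + chS_9 c * chE6_5 c + chS_10 c * chE6_4 c) := by
  simp only [chP6_14, chS_0, chS_1, chS_2, chS_3, chS_4, chS_5, chS_6, chS_7, chS_8, chS_9, chS_10, chE6_0, chE6_1, chE6_2, chE6_3, chE6_4, chE6_5, chE6_6, chE6_7, chE6_8, chE6_9, chE6_10, chE6_11, chE6_12, chE6_13, chE6_14, chE6_15, chE6_16, chE6_17, chE6_18, chE6_19, chE6_20]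
  <;> ring

theorem chP6_15_eq (c : R) : chP6_15 c = -(chS_0 c * chE6_15 c + chS_1 c * chE6_14 c + chS_2 c * chE6_13 c + chS_3 c * chE6_12 c + chS_4 c * chE6_11 c + chS_5 c * chE6_10 c + chS_6 c * chE6_9 c + chS_7 c * chE6_8 c + chS_8 c * chE6_7 c + chS_9 c * chE6_6 c + chS_10 c * chE6_5 c) := by
  simp only [chP6_15, chS_0, chS_1, chS_2, chS_3, chS_4, chS_5, chS_6, chS_7, chS_8, chS_9, chS_10, chE6_0, chE6_1, chE6_2, chE6_3, chE6_4, chE6_5, chE6_6, chE6_7, chE6_8, chE6_9, chE6_10, chE6_11, chE6_12, chE6_13, chE6_14, chE6_15, chE6_16, chE6_17, chE6_18, chE6_19, chE6_20]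
  <;> ring

theorem chP6_16_eq (c : R) : chP6_16 c = -(chS_0 c * chE6_16 c + chS_1 c * chE6_15 c + chS_2 c * chE6_14 c + chS_3 c * chE6_13 c + chS_4 c * chE6_12 c + chS_5 c * chE6_11 c + chS_6 c * chE6_10 c + chS_7 c * chE6_9 c + chS_8 c * chE6_8 c + chS_9 c * chE6_7 c + chS_10 c * chE6_6 c) := by
  simp only [chP6_16, chS_0, chS_1, chS_2, chS_3, chS_4, chS_5, chS_6, chS_7, chS_8, chS_9, chS_10, chE6_0, chE6_1, chE6_2, chE6_3, chE6_4, chE6_5, chE6_6, chE6_7, chE6_8, chE6_9, chE6_10, chE6_11, chE6_12, chE6_13, chE6_14, chE6_15, chE6_16, chE6_17, chE6_18, chE6_19, chE6_20]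
  <;> ring

theorem chP6_17_eq (c : R) : chP6_17 c = -(chS_0 c * chE6_17 c + chS_1 c * chE6_16 c + chS_2 c * chE6_15 c + chS_3 c * chE6_14 c + chS_4 c * chE6_13 c + chS_5 c * chE6_12 c + chS_6 c * chE6_11 c + chS_7 c * chE6_10 c + chS_8 c * chE6_9 c + chS_9 c * chE6_8 c + chS_10 c * chE6_7 c) := by
  simp only [chP6_17, chS_0, chS_1, chS_2, chS_3, chS_4, chS_5, chS_6, chS_7, chS_8, chS_9, chS_10, chE6_0, chE6_1, chE6_2, chE6_3, chE6_4, chE6_5, chE6_6, chE6_7, chE6_8, chE6_9, chE6_10, chE6_11, chE6_12, chE6_13, chE6_14, chE6_15, chE6_16, chE6_17, chE6_18, chE6_19, chE6_20]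
  <;> ring

theorem chP6_18_eq (c : R) : chP6_18 c = -(chS_0 c * chE6_18 c + chS_1 c * chE6_17 c + chS_2 c * chE6_16 c + chS_3 c * chE6_15 c + chS_4 c * chE6_14 c + chS_5 c * chE6_13 c + chS_6 c * chE6_12 c + chS_7 c * chE6_11 c + chS_8 c * chE6_10 c + chS_9 c * chE6_9 c + chS_10 c * chE6_8 c) := by
  simp only [chP6_18, chS_0, chS_1, chS_2, chS_3, chS_4, chS_5, chS_6, chS_7, chS_8, chS_9, chS_10, chE6_0, chE6_1, chE6_2, chE6_3, chE6_4, chE6_5, chE6_6, chE6_7, chE6_8, chE6_9, chE6_10, chE6_11, chE6_12, chE6_13, chE6_14, chE6_15, chE6_16, chE6_17, chE6_18, chE6_19, chE6_20]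
  <;> ring

theorem chP6_19_eq (c : R) : chP6_19 c = -(chS_0 c * chE6_19 c + chS_1 c * chE6_18 c + chS_2 c * chE6_17 c + chS_3 c * chE6_16 c + chS_4 c * chE6_15 c + chS_5 c * chE6_14 c + chS_6 c * chE6_13 c + chS_7 c * chE6_12 c + chS_8 c * chE6_11 c + chS_9 c * chE6_10 c + chS_10 c * chE6_9 c) := by
  simp only [chP6_19, chS_0, chS_1, chS_2, chS_3, chS_4, chS_5, chS_6, chS_7, chS_8, chS_9, chS_10, chE6_0, chE6_1, chE6_2, chE6_3, chE6_4, chE6_5, chE6_6, chE6_7, chE6_8, chE6_9, chE6_10, chE6_11, chE6_12, chE6_13, chE6_14, chE6_15, chE6_16, chE6_17, chE6_18, chE6_19, chE6_20]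
  <;> ring

theorem chP6_20_eq (c : R) : chP6_20 c = -(chS_0 c * chE6_20 c + chS_1 c * chE6_19 c + chS_2 c * chE6_18 c + chS_3 c * chE6_17 c + chS_4 c * chE6_16 c + chS_5 c * chE6_15 c + chS_6 c * chE6_14 c + chS_7 c * chE6_13 c + chS_8 c * chE6_12 c + chS_9 c * chE6_11 c + chS_10 c * chE6_10 c) := by
  simp only [chP6_20, chS_0, chS_1, chS_2, chS_3, chS_4, chS_5, chS_6, chS_7, chS_8, chS_9, chS_10, chE6_0, chE6_1, chE6_2, chE6_3, chE6_4, chE6_5, chE6_6, chE6_7, chE6_8, chE6_9, chE6_10, chE6_11, chE6_12, chE6_13, chE6_14, chE6_15, chE6_16, chE6_17, chE6_18, chE6_19, chE6_20]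
  <;> ring

theorem chP6_21_eq (c : R) : chP6_21 c = -(chS_1 c * chE6_20 c + chS_2 c * chE6_19 c + chS_3 c * chE6_18 c + chS_4 c * chE6_17 c + chS_5 c * chE6_16 c + chS_6 c * chE6_15 c + chS_7 c * chE6_14 c + chS_8 c * chE6_13 c + chS_9 c * chE6_12 c + chS_10 c * chE6_11 c) := by
  simp only [chP6_21, chS_0, chS_1, chS_2, chS_3, chS_4, chS_5, chS_6, chS_7, chS_8, chS_9, chS_10, chE6_0, chE6_1, chE6_2, chE6_3, chE6_4, chE6_5, chE6_6, chE6_7, chE6_8, chE6_9, chE6_10, chE6_11, chE6_12, chE6_13, chE6_14, chE6_15, chE6_16, chE6_17, chE6_18, chE6_19, chE6_20]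
  <;> ring

theorem chP6_22_eq (c : R) : chP6_22 c = -(chS_2 c * chE6_20 c + chS_3 c * chE6_19 c + chS_4 c * chE6_18 c + chS_5 c * chE6_17 c + chS_6 c * chE6_16 c + chS_7 c * chE6_15 c + chS_8 c * chE6_14 c + chS_9 c * chE6_13 c + chS_10 c * chE6_12 c) := by
  simp only [chP6_22, chS_0, chS_1, chS_2, chS_3, chS_4, chS_5, chS_6, chS_7, chS_8, chS_9, chS_10, chE6_0, chE6_1, chE6_2, chE6_3, chE6_4, chE6_5, chE6_6, chE6_7, chE6_8, chE6_9, chE6_10, chE6_11, chE6_12, chE6_13, chE6_14, chE6_15, chE6_16, chE6_17, chE6_18, chE6_19, chE6_20]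
  <;> ring

theorem chP6_23_eq (c : R) : chP6_23 c = -(chS_3 c * chE6_20 c + chS_4 c * chE6_19 c + chS_5 c * chE6_18 c + chS_6 c * chE6_17 c + chS_7 c * chE6_16 c + chS_8 c * chE6_15 c + chS_9 c * chE6_14 c + chS_10 c * chE6_13 c) := by
  simp only [chP6_23, chS_0, chS_1, chS_2, chS_3, chS_4, chS_5, chS_6, chS_7, chS_8, chS_9, chS_10, chE6_0, chE6_1, chE6_2, chE6_3, chE6_4, chE6_5, chE6_6, chE6_7, chE6_8, chE6_9, chE6_10, chE6_11, chE6_12, chE6_13, chE6_14, chE6_15, chE6_16, chE6_17, chE6_18, chE6_19, chE6_20]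
  <;> ring

theorem chP6_24_eq (c : R) : chP6_24 c = -(chS_4 c * chE6_20 c + chS_5 c * chE6_19 c + chS_6 c * chE6_18 c + chS_7 c * chE6_17 c + chS_8 c * chE6_16 c + chS_9 c * chE6_15 c + chS_10 c * chE6_14 c) := by
  simp only [chP6_24, chS_0, chS_1, chS_2, chS_3, chS_4, chS_5, chS_6, chS_7, chS_8, chS_9, chS_10, chE6_0, chE6_1, chE6_2, chE6_3, chE6_4, chE6_5, chE6_6, chE6_7, chE6_8, chE6_9, chE6_10, chE6_11, chE6_12, chE6_13, chE6_14, chE6_15, chE6_16, chE6_17, chE6_18, chE6_19, chE6_20]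
  <;> ring

theorem chP6_25_eq (c : R) : chP6_25 c = -(chS_5 c * chE6_20 c + chS_6 c * chE6_19 c + chS_7 c * chE6_18 c + chS_8 c * chE6_17 c + chS_9 c * chE6_16 c + chS_10 c * chE6_15 c) := by
  simp only [chP6_25, chS_0, chS_1, chS_2, chS_3, chS_4, chS_5, chS_6, chS_7, chS_8, chS_9, chS_10, chE6_0, chE6_1, chE6_2, chE6_3, chE6_4, chE6_5, chE6_6, chE6_7, chE6_8, chE6_9, chE6_10, chE6_11, chE6_12, chE6_13, chE6_14, chE6_15, chE6_16, chE6_17, chE6_18, chE6_19, chE6_20]
  <;> ring

theorem chP6_26_eq (c : R) : chP6_26 c = -(chS_6 c * chE6_20 c + chS_7 c * chE6_19 c + chS_8 c * chE6_18 c + chS_9 c * chE6_17 c + chS_10 c * chE6_16 c) := by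
  simp only [chP6_26, chS_0, chS_1, chS_2, chS_3, chS_4, chS_5, chS_6, chS_7, chS_8, chS_9, chS_10, chE6_0, chE6_1, chE6_2, chE6_3, chE6_4, chE6_5, chE6_6, chE6_7, chE6_8, chE6_9, chE6_10, chE6_11, chE6_12, chE6_13, chE6_14, chE6_15, chE6_16, chE6_17, chE6_18, chE6_19, chE6_20]
  <;> ring

theorem chP6_27_eq (c : R) : chP6_27 c = -(chS_7 c * chE6_20 c + chS_8 c * chE6_19 c + chS_9 c * chE6_18 c + chS_10 c * chE6_17 c) := by
  simp only [chP6_27, chS_0, chS_1, chS_2, chS_3, chS_4, chS_5, chS_6, chS_7, chS_8, chS_9, chS_10, chE6_0, chE6_1, chE6_2, chE6_3, chE6_4, chE6_5, chE6_6, chE6_7, chE6_8, chE6_9, chE6_10, chE6_11, chE6_12, chE6_13, chE6_14, chE6_15, chE6_16, chE6_17, chE6_18, chE6_19, chE6_20]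
  <;> ring

theorem chP6_28_eq (c : R) : chP6_28 c = -(chS_8 c * chE6_20 c + chS_9 c * chE6_19 c + chS_10 c * chE6_18 c) := by
  simp only [chP6_28, chS_0, chS_1, chS_2, chS_3, chS_4, chS_5, chS_6, chS_7, chS_8, chS_9, chS_10, chE6_0, chE6_1, chE6_2, chE6_3, chE6_4, chE6_5, chE6_6, chE6_7, chE6_8, chE6_9, chE6_10, chE6_11, chE6_12, chE6_13, chE6_14, chE6_15, chE6_16, chE6_17, chE6_18, chE6_19, chE6_20]
  <;> ring

theorem chP6_29_eq (c : R) : chP6_29 c = -(chS_9 c * chE6_20 c + chS_10 c * chE6_19 c) := by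
  simp only [chP6_29, chS_0, chS_1, chS_2, chS_3, chS_4, chS_5, chS_6, chS_7, chS_8, chS_9, chS_10, chE6_0, chE6_1, chE6_2, chE6_3, chE6_4, chE6_5, chE6_6, chE6_7, chE6_8, chE6_9, chE6_10, chE6_11, chE6_12, chE6_13, chE6_14, chE6_15, chE6_16, chE6_17, chE6_18, chE6_19, chE6_20]
  <;> ring

theorem chP6_30_eq (c : R) : chP6_30 c = -(chS_10 c * chE6_20 c) := by
  simp only [chP6_30, chS_0, chS_1, chS_2, chS_3, chS_4, chS_5, chS_6, chS_7, chS_8, chS_9, chS_10, chE6_0, chE6_1, chE6_2, chE6_3, chE6_4, chE6_5, chE6_6, chE6_7, chE6_8, chE6_9, chE6_10, chE6_11, chE6_12, chE6_13, chE6_14, chE6_15, chE6_16, chE6_17, chE6_18, chE6_19, chE6_20]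
  <;> ring

theorem chP6_eq (c s : R) : -(chS c s * chE6 c s) = chP6 c s := by
  unfold chP6 chS chE6
  rw [chP6_0_eq, chP6_1_eq, chP6_2_eq, chP6_3_eq, chP6_4_eq, chP6_5_eq, chP6_6_eq, chP6_7_eq, chP6_8_eq, chP6_9_eq, chP6_10_eq, chP6_11_eq, chP6_12_eq, chP6_13_eq, chP6_14_eq, chP6_15_eq, chP6_16_eq, chP6_17_eq, chP6_18_eq, chP6_19_eq, chP6_20_eq, chP6_21_eq, chP6_22_eq, chP6_23_eq, chP6_24_eq, chP6_25_eq, chP6_26_eq, chP6_27_eq, chP6_28_eq, chP6_29_eq, chP6_30_eq]
  <;> ring

set_option maxHeartbeats 4000000 in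
theorem famC6_0_chart (c : R) : famC6_0 (H5 c 1) (T5 c 1) = chP6_0 c := by
  simp only [famC6_0, chP6_0, H5, T5]
  <;> ring

set_option maxHeartbeats 4000000 in
theorem famC6_1_chart (c : R) : famC6_1 (H5 c 1) (T5 c 1) = chP6_1 c := by
  simp only [famC6_1, chP6_1, H5, T5]
  <;> ring

set_option maxHeartbeats 4000000 in
theorem famC6_2_chart (c : R) : famC6_2 (H5 c 1) (T5 c 1) = chP6_2 c := by
  simp only [famC6_2, chP6_2, H5, T5]
  <;> ring

set_option maxHeartbeats 4000000 in
theorem famC6_3_chart (c : R) : famC6_3 (H5 c 1) (T5 c 1) = chP6_3 c := by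
  simp only [famC6_3, chP6_3, H5, T5]
  <;> ring

set_option maxHeartbeats 4000000 in
theorem famC6_4_chart (c : R) : famC6_4 (H5 c 1) (T5 c 1) = chP6_4 c := by
  simp only [famC6_4, chP6_4, H5, T5]
  <;> ring

set_option maxHeartbeats 4000000 in
theorem famC6_5_chart (c : R) : famC6_5 (H5 c 1) (T5 c 1) = chP6_5 c := by
  simp only [famC6_5, chP6_5, H5, T5]
  <;> ring

set_option maxHeartbeats 4000000 in
theorem famC6_6_chart (c : R) : famC6_6 (H5 c 1) (T5 c 1) = chP6_6 c := by
  simp only [famC6_6, chP6_6, H5, T5]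
  <;> ring

set_option maxHeartbeats 4000000 in
theorem famC6_7_chart (c : R) : famC6_7 (H5 c 1) (T5 c 1) = chP6_7 c := by
  simp only [famC6_7, chP6_7, H5, T5]
  <;> ring

set_option maxHeartbeats 4000000 in
theorem famC6_8_chart (c : R) : famC6_8 (H5 c 1) (T5 c 1) = chP6_8 c := by
  simp only [famC6_8, chP6_8, H5, T5]
  <;> ring

set_option maxHeartbeats 4000000 in
theorem famC6_9_chart (c : R) : famC6_9 (H5 c 1) (T5 c 1) = chP6_9 c := by
  simp only [famC6_9, chP6_9, H5, T5]
  <;> ring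

set_option maxHeartbeats 4000000 in
theorem famC6_10_chart (c : R) : famC6_10 (H5 c 1) (T5 c 1) = chP6_10 c := by
  simp only [famC6_10, chP6_10, H5, T5]
  <;> ring

set_option maxHeartbeats 4000000 in
theorem famC6_11_chart (c : R) : famC6_11 (H5 c 1) (T5 c 1) = chP6_11 c := by
  simp only [famC6_11, chP6_11, H5, T5]
  <;> ring

set_option maxHeartbeats 4000000 in
theorem famC6_12_chart (c : R) : famC6_12 (H5 c 1) (T5 c 1) = chP6_12 c := by
  simp only [famC6_12, chP6_12, H5, T5]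
  <;> ring

set_option maxHeartbeats 4000000 in
theorem famC6_13_chart (c : R) : famC6_13 (H5 c 1) (T5 c 1) = chP6_13 c := by
  simp only [famC6_13, chP6_13, H5, T5]
  <;> ring

set_option maxHeartbeats 4000000 in
theorem famC6_14_chart (c : R) : famC6_14 (H5 c 1) (T5 c 1) = chP6_14 c := by
  simp only [famC6_14, chP6_14, H5, T5]
  <;> ring

set_option maxHeartbeats 4000000 in
theorem famC6_15_chart (c : R) : famC6_15 (H5 c 1) (T5 c 1) = chP6_15 c := by
  simp only [famC6_15, chP6_15, H5, T5]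
  <;> ring

set_option maxHeartbeats 4000000 in
theorem famC6_16_chart (c : R) : famC6_16 (H5 c 1) (T5 c 1) = chP6_16 c := by
  simp only [famC6_16, chP6_16, H5, T5]
  <;> ring

set_option maxHeartbeats 4000000 in
theorem famC6_17_chart (c : R) : famC6_17 (H5 c 1) (T5 c 1) = chP6_17 c := by
  simp only [famC6_17, chP6_17, H5, T5]
  <;> ring

set_option maxHeartbeats 4000000 in
theorem famC6_18_chart (c : R) : famC6_18 (H5 c 1) (T5 c 1) = chP6_18 c := by
  simp only [famC6_18, chP6_18, H5, T5]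
  <;> ring

set_option maxHeartbeats 4000000 in
theorem famC6_19_chart (c : R) : famC6_19 (H5 c 1) (T5 c 1) = chP6_19 c := by
  simp only [famC6_19, chP6_19, H5, T5]
  <;> ring

set_option maxHeartbeats 4000000 in
theorem famC6_20_chart (c : R) : famC6_20 (H5 c 1) (T5 c 1) = chP6_20 c := by
  simp only [famC6_20, chP6_20, H5, T5]
  <;> ring

set_option maxHeartbeats 4000000 in
theorem famC6_21_chart (c : R) : famC6_21 (H5 c 1) (T5 c 1) = chP6_21 c := by
  simp only [famC6_21, chP6_21, H5, T5]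
  <;> ring

set_option maxHeartbeats 4000000 in
theorem famC6_22_chart (c : R) : famC6_22 (H5 c 1) (T5 c 1) = chP6_22 c := by
  simp only [famC6_22, chP6_22, H5, T5]
  <;> ring

set_option maxHeartbeats 4000000 in
theorem famC6_23_chart (c : R) : famC6_23 (H5 c 1) (T5 c 1) = chP6_23 c := by
  simp only [famC6_23, chP6_23, H5, T5]
  <;> ring

set_option maxHeartbeats 4000000 in
theorem famC6_24_chart (c : R) : famC6_24 (H5 c 1) (T5 c 1) = chP6_24 c := by
  simp only [famC6_24, chP6_24, H5, T5]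
  <;> ring

set_option maxHeartbeats 4000000 in
theorem famC6_25_chart (c : R) : famC6_25 (H5 c 1) (T5 c 1) = chP6_25 c := by
  simp only [famC6_25, chP6_25, H5, T5]
  <;> ring

set_option maxHeartbeats 4000000 in
theorem famC6_26_chart (c : R) : famC6_26 (H5 c 1) (T5 c 1) = chP6_26 c := by
  simp only [famC6_26, chP6_26, H5, T5]
  <;> ring

set_option maxHeartbeats 4000000 in
theorem famC6_27_chart (c : R) : famC6_27 (H5 c 1) (T5 c 1) = chP6_27 c := by
  simp only [famC6_27, chP6_27, H5, T5]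
  <;> ring

set_option maxHeartbeats 4000000 in
theorem famC6_28_chart (c : R) : famC6_28 (H5 c 1) (T5 c 1) = chP6_28 c := by
  simp only [famC6_28, chP6_28, H5, T5]
  <;> ring

set_option maxHeartbeats 4000000 in
theorem famC6_29_chart (c : R) : famC6_29 (H5 c 1) (T5 c 1) = chP6_29 c := by
  simp only [famC6_29, chP6_29, H5, T5]
  <;> ring

set_option maxHeartbeats 4000000 in
theorem famC6_30_chart (c : R) : famC6_30 (H5 c 1) (T5 c 1) = chP6_30 c := by
  simp only [famC6_30, chP6_30, H5, T5]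
  <;> ring

theorem famC6_chart_poly (c s : R) : famC6 (H5 c 1) (T5 c 1) s = chP6 c s := by
  unfold famC6 chP6
  rw [famC6_0_chart, famC6_1_chart, famC6_2_chart, famC6_3_chart, famC6_4_chart, famC6_5_chart, famC6_6_chart, famC6_7_chart, famC6_8_chart, famC6_9_chart, famC6_10_chart, famC6_11_chart, famC6_12_chart, famC6_13_chart, famC6_14_chart, famC6_15_chart, famC6_16_chart, famC6_17_chart, famC6_18_chart, famC6_19_chart, famC6_20_chart, famC6_21_chart, famC6_22_chart, famC6_23_chart, famC6_24_chart, famC6_25_chart, famC6_26_chart, famC6_27_chart, famC6_28_chart, famC6_29_chart, famC6_30_chart]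

/-- Tate chart identity for `c₆` (at `u = 1`). -/
theorem famC6_chart (c s : R) : famC6 (H5 c 1) (T5 c 1) s = T5 (tateN c s) (tateD c s) := by
  have h1 : ∀ X Y : R, T5 X Y = -((X ^ 2 + Y ^ 2) * ((X ^ 2 - 9 * (X * Y) - Y ^ 2) ^ 2 - 5 * (X * Y) ^ 2)) := by
    intro X Y
    unfold T5
    ring
  rw [h1 (tateN c s) (tateD c s), chS_eq, chG9_eq, chB_eq, chE6_eq, chP6_eq, famC6_chart_poly]

theorem famC6_0_hom (u a b : R) : famC6_0 (u ^ 4 * a) (u ^ 6 * b) = u ^ 6 * famC6_0 a b := by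
  simp only [famC6_0]
  <;> ring

theorem famC6_1_hom (u a b : R) : famC6_1 (u ^ 4 * a) (u ^ 6 * b) = u ^ 8 * famC6_1 a b := by
  simp only [famC6_1]
  <;> ring

theorem famC6_2_hom (u a b : R) : famC6_2 (u ^ 4 * a) (u ^ 6 * b) = u ^ 10 * famC6_2 a b := by
  simp only [famC6_2]
  <;> ring

theorem famC6_3_hom (u a b : R) : famC6_3 (u ^ 4 * a) (u ^ 6 * b) = u ^ 12 * famC6_3 a b := by
  simp only [famC6_3]
  <;> ring

theorem famC6_4_hom (u a b : R) : famC6_4 (u ^ 4 * a) (u ^ 6 * b) = u ^ 14 * famC6_4 a b := by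
  simp only [famC6_4]
  <;> ring

theorem famC6_5_hom (u a b : R) : famC6_5 (u ^ 4 * a) (u ^ 6 * b) = u ^ 16 * famC6_5 a b := by
  simp only [famC6_5]
  <;> ring

theorem famC6_6_hom (u a b : R) : famC6_6 (u ^ 4 * a) (u ^ 6 * b) = u ^ 18 * famC6_6 a b := by
  simp only [famC6_6]
  <;> ring

theorem famC6_7_hom (u a b : R) : famC6_7 (u ^ 4 * a) (u ^ 6 * b) = u ^ 20 * famC6_7 a b := by
  simp only [famC6_7]
  <;> ring

theorem famC6_8_hom (u a b : R) : famC6_8 (u ^ 4 * a) (u ^ 6 * b) = u ^ 22 * famC6_8 a b := by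
  simp only [famC6_8]
  <;> ring

theorem famC6_9_hom (u a b : R) : famC6_9 (u ^ 4 * a) (u ^ 6 * b) = u ^ 24 * famC6_9 a b := by
  simp only [famC6_9]
  <;> ring

theorem famC6_10_hom (u a b : R) : famC6_10 (u ^ 4 * a) (u ^ 6 * b) = u ^ 26 * famC6_10 a b := by
  simp only [famC6_10]
  <;> ring

theorem famC6_11_hom (u a b : R) : famC6_11 (u ^ 4 * a) (u ^ 6 * b) = u ^ 28 * famC6_11 a b := by
  simp only [famC6_11]
  <;> ring

theorem famC6_12_hom (u a b : R) : famC6_12 (u ^ 4 * a) (u ^ 6 * b) = u ^ 30 * famC6_12 a b := by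
  simp only [famC6_12]
  <;> ring

theorem famC6_13_hom (u a b : R) : famC6_13 (u ^ 4 * a) (u ^ 6 * b) = u ^ 32 * famC6_13 a b := by
  simp only [famC6_13]
  <;> ring

theorem famC6_14_hom (u a b : R) : famC6_14 (u ^ 4 * a) (u ^ 6 * b) = u ^ 34 * famC6_14 a b := by
  simp only [famC6_14]
  <;> ring

theorem famC6_15_hom (u a b : R) : famC6_15 (u ^ 4 * a) (u ^ 6 * b) = u ^ 36 * famC6_15 a b := by
  simp only [famC6_15]
  <;> ring

theorem famC6_16_hom (u a b : R) : famC6_16 (u ^ 4 * a) (u ^ 6 * b) = u ^ 38 * famC6_16 a b := by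
  simp only [famC6_16]
  <;> ring

theorem famC6_17_hom (u a b : R) : famC6_17 (u ^ 4 * a) (u ^ 6 * b) = u ^ 40 * famC6_17 a b := by
  simp only [famC6_17]
  <;> ring

theorem famC6_18_hom (u a b : R) : famC6_18 (u ^ 4 * a) (u ^ 6 * b) = u ^ 42 * famC6_18 a b := by
  simp only [famC6_18]
  <;> ring

theorem famC6_19_hom (u a b : R) : famC6_19 (u ^ 4 * a) (u ^ 6 * b) = u ^ 44 * famC6_19 a b := by
  simp only [famC6_19]
  <;> ring

theorem famC6_20_hom (u a b : R) : famC6_20 (u ^ 4 * a) (u ^ 6 * b) = u ^ 46 * famC6_20 a b := by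
  simp only [famC6_20]
  <;> ring

theorem famC6_21_hom (u a b : R) : famC6_21 (u ^ 4 * a) (u ^ 6 * b) = u ^ 48 * famC6_21 a b := by
  simp only [famC6_21]
  <;> ring

theorem famC6_22_hom (u a b : R) : famC6_22 (u ^ 4 * a) (u ^ 6 * b) = u ^ 50 * famC6_22 a b := by
  simp only [famC6_22]
  <;> ring

theorem famC6_23_hom (u a b : R) : famC6_23 (u ^ 4 * a) (u ^ 6 * b) = u ^ 52 * famC6_23 a b := by
  simp only [famC6_23]
  <;> ring

theorem famC6_24_hom (u a b : R) : famC6_24 (u ^ 4 * a) (u ^ 6 * b) = u ^ 54 * famC6_24 a b := by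
  simp only [famC6_24]
  <;> ring

theorem famC6_25_hom (u a b : R) : famC6_25 (u ^ 4 * a) (u ^ 6 * b) = u ^ 56 * famC6_25 a b := by
  simp only [famC6_25]
  <;> ring

theorem famC6_26_hom (u a b : R) : famC6_26 (u ^ 4 * a) (u ^ 6 * b) = u ^ 58 * famC6_26 a b := by
  simp only [famC6_26]
  <;> ring

theorem famC6_27_hom (u a b : R) : famC6_27 (u ^ 4 * a) (u ^ 6 * b) = u ^ 60 * famC6_27 a b := by
  simp only [famC6_27]
  <;> ring

theorem famC6_28_hom (u a b : R) : famC6_28 (u ^ 4 * a) (u ^ 6 * b) = u ^ 62 * famC6_28 a b := by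
  simp only [famC6_28]
  <;> ring

theorem famC6_29_hom (u a b : R) : famC6_29 (u ^ 4 * a) (u ^ 6 * b) = u ^ 64 * famC6_29 a b := by
  simp only [famC6_29]
  <;> ring

theorem famC6_30_hom (u a b : R) : famC6_30 (u ^ 4 * a) (u ^ 6 * b) = u ^ 66 * famC6_30 a b := by
  simp only [famC6_30]
  <;> ring

/-- weighted homogeneity of `famC6`. -/
theorem famC6_hom (u a b T : R) : famC6 (u ^ 4 * a) (u ^ 6 * b) T = u ^ 6 * famC6 a b (u ^ 2 * T) := by
  unfold famC6
  rw [famC6_0_hom, famC6_1_hom, famC6_2_hom, famC6_3_hom, famC6_4_hom, famC6_5_hom, famC6_6_hom, famC6_7_hom, famC6_8_hom, famC6_9_hom, famC6_10_hom, famC6_11_hom, famC6_12_hom, famC6_13_hom, famC6_14_hom, famC6_15_hom, famC6_16_hom, famC6_17_hom, famC6_18_hom, famC6_19_hom, famC6_20_hom, famC6_21_hom, famC6_22_hom, famC6_23_hom, famC6_24_hom, famC6_25_hom, famC6_26_hom, famC6_27_hom, famC6_28_hom, famC6_29_hom, famC6_30_hom]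
  <;> ring

/-- **Tate chart identity for `c₆`**: the member of the family at parameter `T` over the Tate
normal form `T(c,u)` has `c₆ = u⁶ T5(N, D)` with `N = tateN c (u²T)`, `D = tateD c (u²T)`. -/
theorem famC6_tate (c u T : R) :
    famC6 (u ^ 4 * H5 c 1) (u ^ 6 * T5 c 1) T
      = u ^ 6 * T5 (tateN c (u ^ 2 * T)) (tateD c (u ^ 2 * T)) := by
  rw [famC6_hom, famC6_chart]


end Fermat.Agent.S52.B.H360
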