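import Fermat.Agent.S52.B.H360.FamilyData

/-!
# S52, B-data (helper360): quadratic stage of the Tate chart: `N² + D²`, `N D`, `N² - 9ND - D²`, `N² - 6ND - D²`

Generated (exact arithmetic); every proof is a small `ring` call (per-coefficient, univariate in `c`).
-/

set_option autoImplicit false
set_option linter.unusedVariables false
set_option linter.style.longLine false
set_option linter.unusedSimpArgs false
set_option linter.unnecessarySeqFocus false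

namespace Fermat.Agent.S52.B.H360

variable {R : Type*} [CommRing R]


/-- coefficient of `s ^ 0` in `N² + D²` -/
def chS_0 (c : R) : R := c ^ 2 + 1

/-- coefficient of `s ^ 1` in `N² + D²` -/
def chS_1 (c : R) : R := -10 * c ^ 4 + 132 * c ^ 3 + 28 * c ^ 2 - 132 * c - 10

/-- coefficient of `s ^ 2` in `N² + D²` -/
def chS_2 (c : R) : R := 45 * c ^ 6 - 1188 * c ^ 5 + 7803 * c ^ 4 + 7803 * c ^ 2 + 1188 * c + 45

/-- coefficient of `s ^ 3` in `N² + D²` -/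
def chS_3 (c : R) : R := -120 * c ^ 8 + 4752 * c ^ 7 - 63552 * c ^ 6 + 289872 * c ^ 5 - 23184 * c ^ 4 - 289872 * c ^ 3 - 63552 * c ^ 2 - 4752 * c - 120

/-- coefficient of `s ^ 4` in `N² + D²` -/
def chS_4 (c : R) : R := 210 * c ^ 10 - 11088 * c ^ 9 + 223818 * c ^ 8 - 2018016 * c ^ 7 + 6748644 * c ^ 6 + 6748644 * c ^ 4 + 2018016 * c ^ 3 + 223818 * c ^ 2 + 11088 * c + 210

/-- coefficient of `s ^ 5` in `N² + D²` -/
def chS_5 (c : R) : R := -252 * c ^ 12 + 16632 * c ^ 11 - 449064 * c ^ 10 + 6037416 * c ^ 9 - 40440708 * c ^ 8 + 113796144 * c ^ 7 - 40792752 * c ^ 6 - 113796144 * c ^ 5 - 40440708 * c ^ 4 - 6037416 * c ^ 3 - 449064 * c ^ 2 - 16632 * c - 252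

/-- coefficient of `s ^ 6` in `N² + D²` -/
def chS_6 (c : R) : R := 210 * c ^ 14 - 16632 * c ^ 13 + 562422 * c ^ 12 - 10045728 * c ^ 11 + 101240370 * c ^ 10 - 558918360 * c ^ 9 + 1329675270 * c ^ 8 + 1329675270 * c ^ 6 + 558918360 * c ^ 5 + 101240370 * c ^ 4 + 10045728 * c ^ 3 + 562422 * c ^ 2 + 16632 * c + 210

/-- coefficient of `s ^ 7` in `N² + D²` -/
def chS_7 (c : R) : R := -120 * c ^ 16 + 11088 * c ^ 15 - 450528 * c ^ 14 + 10034640 * c ^ 13 - 135151968 * c ^ 12 + 1107790992 * c ^ 11 - 5043524640 * c ^ 10 + 10335655440 * c ^ 9 - 6458414160 * c ^ 8 - 10335655440 * c ^ 7 - 5043524640 * c ^ 6 - 1107790992 * c ^ 5 - 135151968 * c ^ 4 - 10034640 * c ^ 3 - 450528 * c ^ 2 - 11088 * c - 120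

/-- coefficient of `s ^ 8` in `N² + D²` -/
def chS_8 (c : R) : R := 45 * c ^ 18 - 4752 * c ^ 17 + 225477 * c ^ 16 - 6016032 * c ^ 15 + 101459844 * c ^ 14 - 1101770208 * c ^ 13 + 7460553492 * c ^ 12 - 29899175328 * c ^ 11 + 59037443190 * c ^ 10 + 59037443190 * c ^ 8 + 29899175328 * c ^ 7 + 7460553492 * c ^ 6 + 1101770208 * c ^ 5 + 101459844 * c ^ 4 + 6016032 * c ^ 3 + 225477 * c ^ 2 + 4752 * c + 45

/-- coefficient of `s ^ 9` in `N² + D²` -/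
def chS_9 (c : R) : R := -10 * c ^ 20 + 1188 * c ^ 19 - 64468 * c ^ 18 + 2004156 * c ^ 17 - 40613634 * c ^ 16 + 548879760 * c ^ 15 - 4945317744 * c ^ 14 + 29348290224 * c ^ 13 - 103817483508 * c ^ 12 + 167369733432 * c ^ 11 - 147436949880 * c ^ 10 - 167369733432 * c ^ 9 - 103817483508 * c ^ 8 - 29348290224 * c ^ 7 - 4945317744 * c ^ 6 - 548879760 * c ^ 5 - 40613634 * c ^ 4 - 2004156 * c ^ 3 - 64468 * c ^ 2 - 1188 * c - 10

/-- coefficient of `s ^ 10` in `N² + D²` -/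
def chS_10 (c : R) : R := c ^ 22 - 132 * c ^ 21 + 8063 * c ^ 20 - 286176 * c ^ 19 + 6772843 * c ^ 18 - 109489644 * c ^ 17 + 1232721237 * c ^ 16 - 9672987456 * c ^ 15 + 49948996218 * c ^ 14 - 157586970024 * c ^ 13 + 282299039814 * c ^ 12 + 282299039814 * c ^ 10 + 157586970024 * c ^ 9 + 49948996218 * c ^ 8 + 9672987456 * c ^ 7 + 1232721237 * c ^ 6 + 109489644 * c ^ 5 + 6772843 * c ^ 4 + 286176 * c ^ 3 + 8063 * c ^ 2 + 132 * c + 1

/-- `N² + D²` as a polynomial in `s` -/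
def chS (c s : R) : R :=
  chS_0 c
    + chS_1 c * s
    + chS_2 c * s ^ 2
    + chS_3 c * s ^ 3
    + chS_4 c * s ^ 4
    + chS_5 c * s ^ 5
    + chS_6 c * s ^ 6
    + chS_7 c * s ^ 7
    + chS_8 c * s ^ 8
    + chS_9 c * s ^ 9
    + chS_10 c * s ^ 10

theorem chS_0_eq (c : R) : chS_0 c = tateN_0 c * tateN_0 c + tateD_0 c * tateD_0 c := by
  simp only [chS_0, tateN_0, tateN_1, tateN_2, tateN_3, tateN_4, tateN_5, tateD_0, tateD_1, tateD_2, tateD_3, tateD_4, tateD_5]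
  <;> ring

theorem chS_1_eq (c : R) : chS_1 c = tateN_0 c * tateN_1 c + tateN_1 c * tateN_0 c + tateD_0 c * tateD_1 c + tateD_1 c * tateD_0 c := by
  simp only [chS_1, tateN_0, tateN_1, tateN_2, tateN_3, tateN_4, tateN_5, tateD_0, tateD_1, tateD_2, tateD_3, tateD_4, tateD_5]
  <;> ring

theorem chS_2_eq (c : R) : chS_2 c = tateN_0 c * tateN_2 c + tateN_1 c * tateN_1 c + tateN_2 c * tateN_0 c + tateD_0 c * tateD_2 c + tateD_1 c * tateD_1 c + tateD_2 c * tateD_0 c := by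
  simp only [chS_2, tateN_0, tateN_1, tateN_2, tateN_3, tateN_4, tateN_5, tateD_0, tateD_1, tateD_2, tateD_3, tateD_4, tateD_5]
  <;> ring

theorem chS_3_eq (c : R) : chS_3 c = tateN_0 c * tateN_3 c + tateN_1 c * tateN_2 c + tateN_2 c * tateN_1 c + tateN_3 c * tateN_0 c + tateD_0 c * tateD_3 c + tateD_1 c * tateD_2 c + tateD_2 c * tateD_1 c + tateD_3 c * tateD_0 c := by
  simp only [chS_3, tateN_0, tateN_1, tateN_2, tateN_3, tateN_4, tateN_5, tateD_0, tateD_1, tateD_2, tateD_3, tateD_4, tateD_5]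
  <;> ring

theorem chS_4_eq (c : R) : chS_4 c = tateN_0 c * tateN_4 c + tateN_1 c * tateN_3 c + tateN_2 c * tateN_2 c + tateN_3 c * tateN_1 c + tateN_4 c * tateN_0 c + tateD_0 c * tateD_4 c + tateD_1 c * tateD_3 c + tateD_2 c * tateD_2 c + tateD_3 c * tateD_1 c + tateD_4 c * tateD_0 c := by
  simp only [chS_4, tateN_0, tateN_1, tateN_2, tateN_3, tateN_4, tateN_5, tateD_0, tateD_1, tateD_2, tateD_3, tateD_4, tateD_5]
  <;> ring

theorem chS_5_eq (c : R) : chS_5 c = tateN_0 c * tateN_5 c + tateN_1 c * tateN_4 c + tateN_2 c * tateN_3 c + tateN_3 c * tateN_2 c + tateN_4 c * tateN_1 c + tateN_5 c * tateN_0 c + tateD_0 c * tateD_5 c + tateD_1 c * tateD_4 c + tateD_2 c * tateD_3 c + tateD_3 c * tateD_2 c + tateD_4 c * tateD_1 c + tateD_5 c * tateD_0 c := by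
  simp only [chS_5, tateN_0, tateN_1, tateN_2, tateN_3, tateN_4, tateN_5, tateD_0, tateD_1, tateD_2, tateD_3, tateD_4, tateD_5]
  <;> ring

theorem chS_6_eq (c : R) : chS_6 c = tateN_1 c * tateN_5 c + tateN_2 c * tateN_4 c + tateN_3 c * tateN_3 c + tateN_4 c * tateN_2 c + tateN_5 c * tateN_1 c + tateD_1 c * tateD_5 c + tateD_2 c * tateD_4 c + tateD_3 c * tateD_3 c + tateD_4 c * tateD_2 c + tateD_5 c * tateD_1 c := by
  simp only [chS_6, tateN_0, tateN_1, tateN_2, tateN_3, tateN_4, tateN_5, tateD_0, tateD_1, tateD_2, tateD_3, tateD_4, tateD_5]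
  <;> ring

theorem chS_7_eq (c : R) : chS_7 c = tateN_2 c * tateN_5 c + tateN_3 c * tateN_4 c + tateN_4 c * tateN_3 c + tateN_5 c * tateN_2 c + tateD_2 c * tateD_5 c + tateD_3 c * tateD_4 c + tateD_4 c * tateD_3 c + tateD_5 c * tateD_2 c := by
  simp only [chS_7, tateN_0, tateN_1, tateN_2, tateN_3, tateN_4, tateN_5, tateD_0, tateD_1, tateD_2, tateD_3, tateD_4, tateD_5]
  <;> ring

theorem chS_8_eq (c : R) : chS_8 c = tateN_3 c * tateN_5 c + tateN_4 c * tateN_4 c + tateN_5 c * tateN_3 c + tateD_3 c * tateD_5 c + tateD_4 c * tateD_4 c + tateD_5 c * tateD_3 c := by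
  simp only [chS_8, tateN_0, tateN_1, tateN_2, tateN_3, tateN_4, tateN_5, tateD_0, tateD_1, tateD_2, tateD_3, tateD_4, tateD_5]
  <;> ring

theorem chS_9_eq (c : R) : chS_9 c = tateN_4 c * tateN_5 c + tateN_5 c * tateN_4 c + tateD_4 c * tateD_5 c + tateD_5 c * tateD_4 c := by
  simp only [chS_9, tateN_0, tateN_1, tateN_2, tateN_3, tateN_4, tateN_5, tateD_0, tateD_1, tateD_2, tateD_3, tateD_4, tateD_5]
  <;> ring

theorem chS_10_eq (c : R) : chS_10 c = tateN_5 c * tateN_5 c + tateD_5 c * tateD_5 c := by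
  simp only [chS_10, tateN_0, tateN_1, tateN_2, tateN_3, tateN_4, tateN_5, tateD_0, tateD_1, tateD_2, tateD_3, tateD_4, tateD_5]
  <;> ring

theorem chS_eq (c s : R) : tateN c s ^ 2 + tateD c s ^ 2 = chS c s := by
  unfold chS tateN tateD
  rw [chS_0_eq, chS_1_eq, chS_2_eq, chS_3_eq, chS_4_eq, chS_5_eq, chS_6_eq, chS_7_eq, chS_8_eq, chS_9_eq, chS_10_eq]
  <;> ring

/-- coefficient of `s ^ 0` in `N * D` -/
def chB_0 (c : R) : R := c

/-- coefficient of `s ^ 1` in `N * D` -/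
def chB_1 (c : R) : R := 2 * c ^ 3 + 2 * c

/-- coefficient of `s ^ 2` in `N * D` -/
def chB_2 (c : R) : R := -63 * c ^ 5 + 792 * c ^ 4 - 738 * c ^ 3 - 792 * c ^ 2 - 63 * c

/-- coefficient of `s ^ 3` in `N * D` -/
def chB_3 (c : R) : R := 312 * c ^ 7 - 6336 * c ^ 6 + 31752 * c ^ 5 + 31752 * c ^ 3 + 6336 * c ^ 2 + 312 * c

/-- coefficient of `s ^ 4` in `N * D` -/
def chB_4 (c : R) : R := -798 * c ^ 9 + 22176 * c ^ 8 - 201768 * c ^ 7 + 592416 * c ^ 6 + 129420 * c ^ 5 - 592416 * c ^ 4 - 201768 * c ^ 3 - 22176 * c ^ 2 - 798 * c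

/-- coefficient of `s ^ 5` in `N * D` -/
def chB_5 (c : R) : R := 1260 * c ^ 11 - 44352 * c ^ 10 + 584892 * c ^ 9 - 3510144 * c ^ 8 + 8357976 * c ^ 7 + 8357976 * c ^ 5 + 3510144 * c ^ 4 + 584892 * c ^ 3 + 44352 * c ^ 2 + 1260 * c

/-- coefficient of `s ^ 6` in `N * D` -/
def chB_6 (c : R) : R := -1302 * c ^ 13 + 55440 * c ^ 12 - 957852 * c ^ 11 + 8719920 * c ^ 10 - 44838090 * c ^ 9 + 121572000 * c ^ 8 - 105025800 * c ^ 7 - 121572000 * c ^ 6 - 44838090 * c ^ 5 - 8719920 * c ^ 4 - 957852 * c ^ 3 - 55440 * c ^ 2 - 1302 * c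

/-- coefficient of `s ^ 7` in `N * D` -/
def chB_7 (c : R) : R := 888 * c ^ 15 - 44352 * c ^ 14 + 947688 * c ^ 13 - 11582208 * c ^ 12 + 92076408 * c ^ 11 - 474661440 * c ^ 10 + 1180355880 * c ^ 9 + 1180355880 * c ^ 7 + 474661440 * c ^ 6 + 92076408 * c ^ 5 + 11582208 * c ^ 4 + 947688 * c ^ 3 + 44352 * c ^ 2 + 888 * c

/-- coefficient of `s ^ 8` in `N * D` -/
def chB_8 (c : R) : R := -387 * c ^ 17 + 22176 * c ^ 16 - 564552 * c ^ 15 + 8664480 * c ^ 14 - 93386772 * c ^ 13 + 703305504 * c ^ 12 - 2991472632 * c ^ 11 + 4389818400 * c ^ 10 + 795192750 * c ^ 9 - 4389818400 * c ^ 8 - 2991472632 * c ^ 7 - 703305504 * c ^ 6 - 93386772 * c ^ 5 - 8664480 * c ^ 4 - 564552 * c ^ 3 - 22176 * c ^ 2 - 387 * c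

/-- coefficient of `s ^ 9` in `N * D` -/
def chB_9 (c : R) : R := 98 * c ^ 19 - 6336 * c ^ 18 + 187218 * c ^ 17 - 3459456 * c ^ 16 + 47108520 * c ^ 15 - 465404544 * c ^ 14 + 2821399368 * c ^ 13 - 8310766464 * c ^ 12 + 7642099548 * c ^ 11 + 7642099548 * c ^ 9 + 8310766464 * c ^ 8 + 2821399368 * c ^ 7 + 465404544 * c ^ 6 + 47108520 * c ^ 5 + 3459456 * c ^ 4 + 187218 * c ^ 3 + 6336 * c ^ 2 + 98 * c

/-- coefficient of `s ^ 10` in `N * D` -/
def chB_10 (c : R) : R := -11 * c ^ 21 + 792 * c ^ 20 - 26642 * c ^ 19 + 575784 * c ^ 18 - 9479151 * c ^ 17 + 115774560 * c ^ 16 - 913413336 * c ^ 15 + 4039032096 * c ^ 14 - 9573394182 * c ^ 13 + 37180229328 * c ^ 12 - 194202431532 * c ^ 11 - 37180229328 * c ^ 10 - 9573394182 * c ^ 9 - 4039032096 * c ^ 8 - 913413336 * c ^ 7 - 115774560 * c ^ 6 - 9479151 * c ^ 5 - 575784 * c ^ 4 - 26642 * c ^ 3 - 792 * c ^ 2 - 11 * c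

/-- `N * D` as a polynomial in `s` -/
def chB (c s : R) : R :=
  chB_0 c
    + chB_1 c * s
    + chB_2 c * s ^ 2
    + chB_3 c * s ^ 3
    + chB_4 c * s ^ 4
    + chB_5 c * s ^ 5
    + chB_6 c * s ^ 6
    + chB_7 c * s ^ 7
    + chB_8 c * s ^ 8
    + chB_9 c * s ^ 9
    + chB_10 c * s ^ 10

theorem chB_0_eq (c : R) : chB_0 c = tateN_0 c * tateD_0 c := by
  simp only [chB_0, tateN_0, tateN_1, tateN_2, tateN_3, tateN_4, tateN_5, tateD_0, tateD_1, tateD_2, tateD_3, tateD_4, tateD_5]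
  <;> ring

theorem chB_1_eq (c : R) : chB_1 c = tateN_0 c * tateD_1 c + tateN_1 c * tateD_0 c := by
  simp only [chB_1, tateN_0, tateN_1, tateN_2, tateN_3, tateN_4, tateN_5, tateD_0, tateD_1, tateD_2, tateD_3, tateD_4, tateD_5]
  <;> ring

theorem chB_2_eq (c : R) : chB_2 c = tateN_0 c * tateD_2 c + tateN_1 c * tateD_1 c + tateN_2 c * tateD_0 c := by
  simp only [chB_2, tateN_0, tateN_1, tateN_2, tateN_3, tateN_4, tateN_5, tateD_0, tateD_1, tateD_2, tateD_3, tateD_4, tateD_5]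
  <;> ring

theorem chB_3_eq (c : R) : chB_3 c = tateN_0 c * tateD_3 c + tateN_1 c * tateD_2 c + tateN_2 c * tateD_1 c + tateN_3 c * tateD_0 c := by
  simp only [chB_3, tateN_0, tateN_1, tateN_2, tateN_3, tateN_4, tateN_5, tateD_0, tateD_1, tateD_2, tateD_3, tateD_4, tateD_5]
  <;> ring

theorem chB_4_eq (c : R) : chB_4 c = tateN_0 c * tateD_4 c + tateN_1 c * tateD_3 c + tateN_2 c * tateD_2 c + tateN_3 c * tateD_1 c + tateN_4 c * tateD_0 c := by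
  simp only [chB_4, tateN_0, tateN_1, tateN_2, tateN_3, tateN_4, tateN_5, tateD_0, tateD_1, tateD_2, tateD_3, tateD_4, tateD_5]
  <;> ring

theorem chB_5_eq (c : R) : chB_5 c = tateN_0 c * tateD_5 c + tateN_1 c * tateD_4 c + tateN_2 c * tateD_3 c + tateN_3 c * tateD_2 c + tateN_4 c * tateD_1 c + tateN_5 c * tateD_0 c := by
  simp only [chB_5, tateN_0, tateN_1, tateN_2, tateN_3, tateN_4, tateN_5, tateD_0, tateD_1, tateD_2, tateD_3, tateD_4, tateD_5]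
  <;> ring

theorem chB_6_eq (c : R) : chB_6 c = tateN_1 c * tateD_5 c + tateN_2 c * tateD_4 c + tateN_3 c * tateD_3 c + tateN_4 c * tateD_2 c + tateN_5 c * tateD_1 c := by
  simp only [chB_6, tateN_0, tateN_1, tateN_2, tateN_3, tateN_4, tateN_5, tateD_0, tateD_1, tateD_2, tateD_3, tateD_4, tateD_5]
  <;> ring

theorem chB_7_eq (c : R) : chB_7 c = tateN_2 c * tateD_5 c + tateN_3 c * tateD_4 c + tateN_4 c * tateD_3 c + tateN_5 c * tateD_2 c := by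
  simp only [chB_7, tateN_0, tateN_1, tateN_2, tateN_3, tateN_4, tateN_5, tateD_0, tateD_1, tateD_2, tateD_3, tateD_4, tateD_5]
  <;> ring

theorem chB_8_eq (c : R) : chB_8 c = tateN_3 c * tateD_5 c + tateN_4 c * tateD_4 c + tateN_5 c * tateD_3 c := by
  simp only [chB_8, tateN_0, tateN_1, tateN_2, tateN_3, tateN_4, tateN_5, tateD_0, tateD_1, tateD_2, tateD_3, tateD_4, tateD_5]
  <;> ring

theorem chB_9_eq (c : R) : chB_9 c = tateN_4 c * tateD_5 c + tateN_5 c * tateD_4 c := by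
  simp only [chB_9, tateN_0, tateN_1, tateN_2, tateN_3, tateN_4, tateN_5, tateD_0, tateD_1, tateD_2, tateD_3, tateD_4, tateD_5]
  <;> ring

theorem chB_10_eq (c : R) : chB_10 c = tateN_5 c * tateD_5 c := by
  simp only [chB_10, tateN_0, tateN_1, tateN_2, tateN_3, tateN_4, tateN_5, tateD_0, tateD_1, tateD_2, tateD_3, tateD_4, tateD_5]
  <;> ring

theorem chB_eq (c s : R) : tateN c s * tateD c s = chB c s := by
  unfold chB tateN tateD
  rw [chB_0_eq, chB_1_eq, chB_2_eq, chB_3_eq, chB_4_eq, chB_5_eq, chB_6_eq, chB_7_eq, chB_8_eq, chB_9_eq, chB_10_eq]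
  <;> ring

/-- coefficient of `s ^ 0` in `N² - 9 N D - D²` -/
def chG9_0 (c : R) : R := c ^ 2 - 9 * c - 1

/-- coefficient of `s ^ 1` in `N² - 9 N D - D²` -/
def chG9_1 (c : R) : R := -10 * c ^ 4 + 114 * c ^ 3 + 114 * c + 10

/-- coefficient of `s ^ 2` in `N² - 9 N D - D²` -/
def chG9_2 (c : R) : R := 45 * c ^ 6 - 621 * c ^ 5 + 729 * c ^ 4 + 7434 * c ^ 3 - 729 * c ^ 2 - 621 * c - 45

/-- coefficient of `s ^ 3` in `N² - 9 N D - D²` -/
def chG9_3 (c : R) : R := -120 * c ^ 8 + 1944 * c ^ 7 - 5712 * c ^ 6 - 11736 * c ^ 5 - 11736 * c ^ 3 + 5712 * c ^ 2 + 1944 * c + 120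

/-- coefficient of `s ^ 4` in `N² - 9 N D - D²` -/
def chG9_4 (c : R) : R := 210 * c ^ 10 - 3906 * c ^ 9 + 19782 * c ^ 8 - 135576 * c ^ 7 + 1484052 * c ^ 6 - 2764620 * c ^ 5 - 1484052 * c ^ 4 - 135576 * c ^ 3 - 19782 * c ^ 2 - 3906 * c - 210

/-- coefficient of `s ^ 5` in `N² - 9 N D - D²` -/
def chG9_5 (c : R) : R := -252 * c ^ 12 + 5292 * c ^ 11 - 39312 * c ^ 10 + 629244 * c ^ 9 - 8864748 * c ^ 8 + 36464472 * c ^ 7 + 36464472 * c ^ 5 + 8864748 * c ^ 4 + 629244 * c ^ 3 + 39312 * c ^ 2 + 5292 * c + 252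

/-- coefficient of `s ^ 6` in `N² - 9 N D - D²` -/
def chG9_6 (c : R) : R := 210 * c ^ 14 - 4914 * c ^ 13 + 48930 * c ^ 12 - 1236564 * c ^ 11 + 22112730 * c ^ 10 - 140398830 * c ^ 9 + 189559050 * c ^ 8 + 328660200 * c ^ 7 - 189559050 * c ^ 6 - 140398830 * c ^ 5 - 22112730 * c ^ 4 - 1236564 * c ^ 3 - 48930 * c ^ 2 - 4914 * c - 210

/-- coefficient of `s ^ 7` in `N² - 9 N D - D²` -/
def chG9_7 (c : R) : R := -120 * c ^ 16 + 3096 * c ^ 15 - 39024 * c ^ 14 + 1350216 * c ^ 13 - 29444496 * c ^ 12 + 252688536 * c ^ 11 - 728752560 * c ^ 10 + 2973960 * c ^ 9 + 2973960 * c ^ 7 + 728752560 * c ^ 6 + 252688536 * c ^ 5 + 29444496 * c ^ 4 + 1350216 * c ^ 3 + 39024 * c ^ 2 + 3096 * c + 120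

/-- coefficient of `s ^ 8` in `N² - 9 N D - D²` -/
def chG9_8 (c : R) : R := 45 * c ^ 18 - 1269 * c ^ 17 + 19467 * c ^ 16 - 855864 * c ^ 15 + 22063860 * c ^ 14 - 238584204 * c ^ 13 + 1071045468 * c ^ 12 - 2343534984 * c ^ 11 + 13688111430 * c ^ 10 - 48763425150 * c ^ 9 - 13688111430 * c ^ 8 - 2343534984 * c ^ 7 - 1071045468 * c ^ 6 - 238584204 * c ^ 5 - 22063860 * c ^ 4 - 855864 * c ^ 3 - 19467 * c ^ 2 - 1269 * c - 45

/-- coefficient of `s ^ 9` in `N² - 9 N D - D²` -/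
def chG9_9 (c : R) : R := -10 * c ^ 20 + 306 * c ^ 19 - 5552 * c ^ 18 + 296226 * c ^ 17 - 8819982 * c ^ 16 + 115050600 * c ^ 15 - 705204768 * c ^ 14 + 3181984776 * c ^ 13 - 26662192548 * c ^ 12 + 123270640956 * c ^ 11 + 123270640956 * c ^ 9 + 26662192548 * c ^ 8 + 3181984776 * c ^ 7 + 705204768 * c ^ 6 + 115050600 * c ^ 5 + 8819982 * c ^ 4 + 296226 * c ^ 3 + 5552 * c ^ 2 + 306 * c + 10

/-- coefficient of `s ^ 10` in `N² - 9 N D - D²` -/
def chG9_10 (c : R) : R := c ^ 22 - 33 * c ^ 21 + 693 * c ^ 20 - 43494 * c ^ 19 + 1469303 * c ^ 18 - 22443597 * c ^ 17 + 174831195 * c ^ 16 - 1206414792 * c ^ 15 + 13154795082 * c ^ 14 - 74370416274 * c ^ 13 - 109462573902 * c ^ 12 + 1578424867164 * c ^ 11 + 109462573902 * c ^ 10 - 74370416274 * c ^ 9 - 13154795082 * c ^ 8 - 1206414792 * c ^ 7 - 174831195 * c ^ 6 - 22443597 * c ^ 5 - 1469303 * c ^ 4 - 43494 * c ^ 3 - 693 * c ^ 2 - 33 * c - 1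

/-- `N² - 9 N D - D²` as a polynomial in `s` -/
def chG9 (c s : R) : R :=
  chG9_0 c
    + chG9_1 c * s
    + chG9_2 c * s ^ 2
    + chG9_3 c * s ^ 3
    + chG9_4 c * s ^ 4
    + chG9_5 c * s ^ 5
    + chG9_6 c * s ^ 6
    + chG9_7 c * s ^ 7
    + chG9_8 c * s ^ 8
    + chG9_9 c * s ^ 9
    + chG9_10 c * s ^ 10

theorem chG9_0_eq (c : R) : chG9_0 c = (tateN_0 c * tateN_0 c) - (9 * (tateN_0 c * tateD_0 c) + tateD_0 c * tateD_0 c) := by
  simp only [chG9_0, tateN_0, tateN_1, tateN_2, tateN_3, tateN_4, tateN_5, tateD_0, tateD_1, tateD_2, tateD_3, tateD_4, tateD_5]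
  <;> ring

theorem chG9_1_eq (c : R) : chG9_1 c = (tateN_0 c * tateN_1 c + tateN_1 c * tateN_0 c) - (9 * (tateN_0 c * tateD_1 c) + 9 * (tateN_1 c * tateD_0 c) + tateD_0 c * tateD_1 c + tateD_1 c * tateD_0 c) := by
  simp only [chG9_1, tateN_0, tateN_1, tateN_2, tateN_3, tateN_4, tateN_5, tateD_0, tateD_1, tateD_2, tateD_3, tateD_4, tateD_5]
  <;> ring

theorem chG9_2_eq (c : R) : chG9_2 c = (tateN_0 c * tateN_2 c + tateN_1 c * tateN_1 c + tateN_2 c * tateN_0 c) - (9 * (tateN_0 c * tateD_2 c) + 9 * (tateN_1 c * tateD_1 c) + 9 * (tateN_2 c * tateD_0 c) + tateD_0 c * tateD_2 c + tateD_1 c * tateD_1 c + tateD_2 c * tateD_0 c) := by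
  simp only [chG9_2, tateN_0, tateN_1, tateN_2, tateN_3, tateN_4, tateN_5, tateD_0, tateD_1, tateD_2, tateD_3, tateD_4, tateD_5]
  <;> ring

theorem chG9_3_eq (c : R) : chG9_3 c = (tateN_0 c * tateN_3 c + tateN_1 c * tateN_2 c + tateN_2 c * tateN_1 c + tateN_3 c * tateN_0 c) - (9 * (tateN_0 c * tateD_3 c) + 9 * (tateN_1 c * tateD_2 c) + 9 * (tateN_2 c * tateD_1 c) + 9 * (tateN_3 c * tateD_0 c) + tateD_0 c * tateD_3 c + tateD_1 c * tateD_2 c + tateD_2 c * tateD_1 c + tateD_3 c * tateD_0 c) := by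
  simp only [chG9_3, tateN_0, tateN_1, tateN_2, tateN_3, tateN_4, tateN_5, tateD_0, tateD_1, tateD_2, tateD_3, tateD_4, tateD_5]
  <;> ring

theorem chG9_4_eq (c : R) : chG9_4 c = (tateN_0 c * tateN_4 c + tateN_1 c * tateN_3 c + tateN_2 c * tateN_2 c + tateN_3 c * tateN_1 c + tateN_4 c * tateN_0 c) - (9 * (tateN_0 c * tateD_4 c) + 9 * (tateN_1 c * tateD_3 c) + 9 * (tateN_2 c * tateD_2 c) + 9 * (tateN_3 c * tateD_1 c) + 9 * (tateN_4 c * tateD_0 c) + tateD_0 c * tateD_4 c + tateD_1 c * tateD_3 c + tateD_2 c * tateD_2 c + tateD_3 c * tateD_1 c + tateD_4 c * tateD_0 c) := by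
  simp only [chG9_4, tateN_0, tateN_1, tateN_2, tateN_3, tateN_4, tateN_5, tateD_0, tateD_1, tateD_2, tateD_3, tateD_4, tateD_5]
  <;> ring

theorem chG9_5_eq (c : R) : chG9_5 c = (tateN_0 c * tateN_5 c + tateN_1 c * tateN_4 c + tateN_2 c * tateN_3 c + tateN_3 c * tateN_2 c + tateN_4 c * tateN_1 c + tateN_5 c * tateN_0 c) - (9 * (tateN_0 c * tateD_5 c) + 9 * (tateN_1 c * tateD_4 c) + 9 * (tateN_2 c * tateD_3 c) + 9 * (tateN_3 c * tateD_2 c) + 9 * (tateN_4 c * tateD_1 c) + 9 * (tateN_5 c * tateD_0 c) + tateD_0 c * tateD_5 c + tateD_1 c * tateD_4 c + tateD_2 c * tateD_3 c + tateD_3 c * tateD_2 c + tateD_4 c * tateD_1 c + tateD_5 c * tateD_0 c) := by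
  simp only [chG9_5, tateN_0, tateN_1, tateN_2, tateN_3, tateN_4, tateN_5, tateD_0, tateD_1, tateD_2, tateD_3, tateD_4, tateD_5]
  <;> ring

theorem chG9_6_eq (c : R) : chG9_6 c = (tateN_1 c * tateN_5 c + tateN_2 c * tateN_4 c + tateN_3 c * tateN_3 c + tateN_4 c * tateN_2 c + tateN_5 c * tateN_1 c) - (9 * (tateN_1 c * tateD_5 c) + 9 * (tateN_2 c * tateD_4 c) + 9 * (tateN_3 c * tateD_3 c) + 9 * (tateN_4 c * tateD_2 c) + 9 * (tateN_5 c * tateD_1 c) + tateD_1 c * tateD_5 c + tateD_2 c * tateD_4 c + tateD_3 c * tateD_3 c + tateD_4 c * tateD_2 c + tateD_5 c * tateD_1 c) := by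
  simp only [chG9_6, tateN_0, tateN_1, tateN_2, tateN_3, tateN_4, tateN_5, tateD_0, tateD_1, tateD_2, tateD_3, tateD_4, tateD_5]
  <;> ring

theorem chG9_7_eq (c : R) : chG9_7 c = (tateN_2 c * tateN_5 c + tateN_3 c * tateN_4 c + tateN_4 c * tateN_3 c + tateN_5 c * tateN_2 c) - (9 * (tateN_2 c * tateD_5 c) + 9 * (tateN_3 c * tateD_4 c) + 9 * (tateN_4 c * tateD_3 c) + 9 * (tateN_5 c * tateD_2 c) + tateD_2 c * tateD_5 c + tateD_3 c * tateD_4 c + tateD_4 c * tateD_3 c + tateD_5 c * tateD_2 c) := by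
  simp only [chG9_7, tateN_0, tateN_1, tateN_2, tateN_3, tateN_4, tateN_5, tateD_0, tateD_1, tateD_2, tateD_3, tateD_4, tateD_5]
  <;> ring

theorem chG9_8_eq (c : R) : chG9_8 c = (tateN_3 c * tateN_5 c + tateN_4 c * tateN_4 c + tateN_5 c * tateN_3 c) - (9 * (tateN_3 c * tateD_5 c) + 9 * (tateN_4 c * tateD_4 c) + 9 * (tateN_5 c * tateD_3 c) + tateD_3 c * tateD_5 c + tateD_4 c * tateD_4 c + tateD_5 c * tateD_3 c) := by
  simp only [chG9_8, tateN_0, tateN_1, tateN_2, tateN_3, tateN_4, tateN_5, tateD_0, tateD_1, tateD_2, tateD_3, tateD_4, tateD_5]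
  <;> ring

theorem chG9_9_eq (c : R) : chG9_9 c = (tateN_4 c * tateN_5 c + tateN_5 c * tateN_4 c) - (9 * (tateN_4 c * tateD_5 c) + 9 * (tateN_5 c * tateD_4 c) + tateD_4 c * tateD_5 c + tateD_5 c * tateD_4 c) := by
  simp only [chG9_9, tateN_0, tateN_1, tateN_2, tateN_3, tateN_4, tateN_5, tateD_0, tateD_1, tateD_2, tateD_3, tateD_4, tateD_5]
  <;> ring

theorem chG9_10_eq (c : R) : chG9_10 c = (tateN_5 c * tateN_5 c) - (9 * (tateN_5 c * tateD_5 c) + tateD_5 c * tateD_5 c) := by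
  simp only [chG9_10, tateN_0, tateN_1, tateN_2, tateN_3, tateN_4, tateN_5, tateD_0, tateD_1, tateD_2, tateD_3, tateD_4, tateD_5]
  <;> ring

theorem chG9_eq (c s : R) : tateN c s ^ 2 - 9 * (tateN c s * tateD c s) - tateD c s ^ 2 = chG9 c s := by
  unfold chG9 tateN tateD
  rw [chG9_0_eq, chG9_1_eq, chG9_2_eq, chG9_3_eq, chG9_4_eq, chG9_5_eq, chG9_6_eq, chG9_7_eq, chG9_8_eq, chG9_9_eq, chG9_10_eq]
  <;> ring

/-- coefficient of `s ^ 0` in `N² - 6 N D - D²` -/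
def chG6_0 (c : R) : R := c ^ 2 - 6 * c - 1

/-- coefficient of `s ^ 1` in `N² - 6 N D - D²` -/
def chG6_1 (c : R) : R := -10 * c ^ 4 + 120 * c ^ 3 + 120 * c + 10

/-- coefficient of `s ^ 2` in `N² - 6 N D - D²` -/
def chG6_2 (c : R) : R := 45 * c ^ 6 - 810 * c ^ 5 + 3105 * c ^ 4 + 5220 * c ^ 3 - 3105 * c ^ 2 - 810 * c - 45

/-- coefficient of `s ^ 3` in `N² - 6 N D - D²` -/
def chG6_3 (c : R) : R := -120 * c ^ 8 + 2880 * c ^ 7 - 24720 * c ^ 6 + 83520 * c ^ 5 + 83520 * c ^ 3 + 24720 * c ^ 2 + 2880 * c + 120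

/-- coefficient of `s ^ 4` in `N² - 6 N D - D²` -/
def chG6_4 (c : R) : R := 210 * c ^ 10 - 6300 * c ^ 9 + 86310 * c ^ 8 - 740880 * c ^ 7 + 3261300 * c ^ 6 - 2376360 * c ^ 5 - 3261300 * c ^ 4 - 740880 * c ^ 3 - 86310 * c ^ 2 - 6300 * c - 210

/-- coefficient of `s ^ 5` in `N² - 6 N D - D²` -/
def chG6_5 (c : R) : R := -252 * c ^ 12 + 9072 * c ^ 11 - 172368 * c ^ 10 + 2383920 * c ^ 9 - 19395180 * c ^ 8 + 61538400 * c ^ 7 + 61538400 * c ^ 5 + 19395180 * c ^ 4 + 2383920 * c ^ 3 + 172368 * c ^ 2 + 9072 * c + 252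

/-- coefficient of `s ^ 6` in `N² - 6 N D - D²` -/
def chG6_6 (c : R) : R := 210 * c ^ 14 - 8820 * c ^ 13 + 215250 * c ^ 12 - 4110120 * c ^ 11 + 48272490 * c ^ 10 - 274913100 * c ^ 9 + 554275050 * c ^ 8 + 13582800 * c ^ 7 - 554275050 * c ^ 6 - 274913100 * c ^ 5 - 48272490 * c ^ 4 - 4110120 * c ^ 3 - 215250 * c ^ 2 - 8820 * c - 210

/-- coefficient of `s ^ 7` in `N² - 6 N D - D²` -/
def chG6_7 (c : R) : R := -120 * c ^ 16 + 5760 * c ^ 15 - 172080 * c ^ 14 + 4193280 * c ^ 13 - 64191120 * c ^ 12 + 528917760 * c ^ 11 - 2152736880 * c ^ 10 + 3544041600 * c ^ 9 + 3544041600 * c ^ 7 + 2152736880 * c ^ 6 + 528917760 * c ^ 5 + 64191120 * c ^ 4 + 4193280 * c ^ 3 + 172080 * c ^ 2 + 5760 * c + 120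

/-- coefficient of `s ^ 8` in `N² - 6 N D - D²` -/
def chG6_8 (c : R) : R := 45 * c ^ 18 - 2430 * c ^ 17 + 85995 * c ^ 16 - 2549520 * c ^ 15 + 48057300 * c ^ 14 - 518744520 * c ^ 13 + 3180961980 * c ^ 12 - 11317952880 * c ^ 11 + 26857566630 * c ^ 10 - 46377846900 * c ^ 9 - 26857566630 * c ^ 8 - 11317952880 * c ^ 7 - 3180961980 * c ^ 6 - 518744520 * c ^ 5 - 48057300 * c ^ 4 - 2549520 * c ^ 3 - 85995 * c ^ 2 - 2430 * c - 45

/-- coefficient of `s ^ 9` in `N² - 6 N D - D²` -/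
def chG6_9 (c : R) : R := -10 * c ^ 20 + 600 * c ^ 19 - 24560 * c ^ 18 + 857880 * c ^ 17 - 19198350 * c ^ 16 + 256376160 * c ^ 15 - 2101418400 * c ^ 14 + 11646182880 * c ^ 13 - 51594491940 * c ^ 12 + 146196939600 * c ^ 11 + 146196939600 * c ^ 9 + 51594491940 * c ^ 8 + 11646182880 * c ^ 7 + 2101418400 * c ^ 6 + 256376160 * c ^ 5 + 19198350 * c ^ 4 + 857880 * c ^ 3 + 24560 * c ^ 2 + 600 * c + 10

/-- coefficient of `s ^ 10` in `N² - 6 N D - D²` -/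
def chG6_10 (c : R) : R := c ^ 22 - 66 * c ^ 21 + 3069 * c ^ 20 - 123420 * c ^ 19 + 3196655 * c ^ 18 - 50881050 * c ^ 17 + 522154875 * c ^ 16 - 3946654800 * c ^ 15 + 25271891370 * c ^ 14 - 103090598820 * c ^ 13 + 2078114082 * c ^ 12 + 995817572568 * c ^ 11 - 2078114082 * c ^ 10 - 103090598820 * c ^ 9 - 25271891370 * c ^ 8 - 3946654800 * c ^ 7 - 522154875 * c ^ 6 - 50881050 * c ^ 5 - 3196655 * c ^ 4 - 123420 * c ^ 3 - 3069 * c ^ 2 - 66 * c - 1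

/-- `N² - 6 N D - D²` as a polynomial in `s` -/
def chG6 (c s : R) : R :=
  chG6_0 c
    + chG6_1 c * s
    + chG6_2 c * s ^ 2
    + chG6_3 c * s ^ 3
    + chG6_4 c * s ^ 4
    + chG6_5 c * s ^ 5
    + chG6_6 c * s ^ 6
    + chG6_7 c * s ^ 7
    + chG6_8 c * s ^ 8
    + chG6_9 c * s ^ 9
    + chG6_10 c * s ^ 10

theorem chG6_0_eq (c : R) : chG6_0 c = (tateN_0 c * tateN_0 c) - (6 * (tateN_0 c * tateD_0 c) + tateD_0 c * tateD_0 c) := by
  simp only [chG6_0, tateN_0, tateN_1, tateN_2, tateN_3, tateN_4, tateN_5, tateD_0, tateD_1, tateD_2, tateD_3, tateD_4, tateD_5]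
  <;> ring

theorem chG6_1_eq (c : R) : chG6_1 c = (tateN_0 c * tateN_1 c + tateN_1 c * tateN_0 c) - (6 * (tateN_0 c * tateD_1 c) + 6 * (tateN_1 c * tateD_0 c) + tateD_0 c * tateD_1 c + tateD_1 c * tateD_0 c) := by
  simp only [chG6_1, tateN_0, tateN_1, tateN_2, tateN_3, tateN_4, tateN_5, tateD_0, tateD_1, tateD_2, tateD_3, tateD_4, tateD_5]
  <;> ring

theorem chG6_2_eq (c : R) : chG6_2 c = (tateN_0 c * tateN_2 c + tateN_1 c * tateN_1 c + tateN_2 c * tateN_0 c) - (6 * (tateN_0 c * tateD_2 c) + 6 * (tateN_1 c * tateD_1 c) + 6 * (tateN_2 c * tateD_0 c) + tateD_0 c * tateD_2 c + tateD_1 c * tateD_1 c + tateD_2 c * tateD_0 c) := by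
  simp only [chG6_2, tateN_0, tateN_1, tateN_2, tateN_3, tateN_4, tateN_5, tateD_0, tateD_1, tateD_2, tateD_3, tateD_4, tateD_5]
  <;> ring

theorem chG6_3_eq (c : R) : chG6_3 c = (tateN_0 c * tateN_3 c + tateN_1 c * tateN_2 c + tateN_2 c * tateN_1 c + tateN_3 c * tateN_0 c) - (6 * (tateN_0 c * tateD_3 c) + 6 * (tateN_1 c * tateD_2 c) + 6 * (tateN_2 c * tateD_1 c) + 6 * (tateN_3 c * tateD_0 c) + tateD_0 c * tateD_3 c + tateD_1 c * tateD_2 c + tateD_2 c * tateD_1 c + tateD_3 c * tateD_0 c) := by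
  simp only [chG6_3, tateN_0, tateN_1, tateN_2, tateN_3, tateN_4, tateN_5, tateD_0, tateD_1, tateD_2, tateD_3, tateD_4, tateD_5]
  <;> ring

theorem chG6_4_eq (c : R) : chG6_4 c = (tateN_0 c * tateN_4 c + tateN_1 c * tateN_3 c + tateN_2 c * tateN_2 c + tateN_3 c * tateN_1 c + tateN_4 c * tateN_0 c) - (6 * (tateN_0 c * tateD_4 c) + 6 * (tateN_1 c * tateD_3 c) + 6 * (tateN_2 c * tateD_2 c) + 6 * (tateN_3 c * tateD_1 c) + 6 * (tateN_4 c * tateD_0 c) + tateD_0 c * tateD_4 c + tateD_1 c * tateD_3 c + tateD_2 c * tateD_2 c + tateD_3 c * tateD_1 c + tateD_4 c * tateD_0 c) := by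
  simp only [chG6_4, tateN_0, tateN_1, tateN_2, tateN_3, tateN_4, tateN_5, tateD_0, tateD_1, tateD_2, tateD_3, tateD_4, tateD_5]
  <;> ring

theorem chG6_5_eq (c : R) : chG6_5 c = (tateN_0 c * tateN_5 c + tateN_1 c * tateN_4 c + tateN_2 c * tateN_3 c + tateN_3 c * tateN_2 c + tateN_4 c * tateN_1 c + tateN_5 c * tateN_0 c) - (6 * (tateN_0 c * tateD_5 c) + 6 * (tateN_1 c * tateD_4 c) + 6 * (tateN_2 c * tateD_3 c) + 6 * (tateN_3 c * tateD_2 c) + 6 * (tateN_4 c * tateD_1 c) + 6 * (tateN_5 c * tateD_0 c) + tateD_0 c * tateD_5 c + tateD_1 c * tateD_4 c + tateD_2 c * tateD_3 c + tateD_3 c * tateD_2 c + tateD_4 c * tateD_1 c + tateD_5 c * tateD_0 c) := by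
  simp only [chG6_5, tateN_0, tateN_1, tateN_2, tateN_3, tateN_4, tateN_5, tateD_0, tateD_1, tateD_2, tateD_3, tateD_4, tateD_5]
  <;> ring

theorem chG6_6_eq (c : R) : chG6_6 c = (tateN_1 c * tateN_5 c + tateN_2 c * tateN_4 c + tateN_3 c * tateN_3 c + tateN_4 c * tateN_2 c + tateN_5 c * tateN_1 c) - (6 * (tateN_1 c * tateD_5 c) + 6 * (tateN_2 c * tateD_4 c) + 6 * (tateN_3 c * tateD_3 c) + 6 * (tateN_4 c * tateD_2 c) + 6 * (tateN_5 c * tateD_1 c) + tateD_1 c * tateD_5 c + tateD_2 c * tateD_4 c + tateD_3 c * tateD_3 c + tateD_4 c * tateD_2 c + tateD_5 c * tateD_1 c) := by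
  simp only [chG6_6, tateN_0, tateN_1, tateN_2, tateN_3, tateN_4, tateN_5, tateD_0, tateD_1, tateD_2, tateD_3, tateD_4, tateD_5]
  <;> ring

theorem chG6_7_eq (c : R) : chG6_7 c = (tateN_2 c * tateN_5 c + tateN_3 c * tateN_4 c + tateN_4 c * tateN_3 c + tateN_5 c * tateN_2 c) - (6 * (tateN_2 c * tateD_5 c) + 6 * (tateN_3 c * tateD_4 c) + 6 * (tateN_4 c * tateD_3 c) + 6 * (tateN_5 c * tateD_2 c) + tateD_2 c * tateD_5 c + tateD_3 c * tateD_4 c + tateD_4 c * tateD_3 c + tateD_5 c * tateD_2 c) := by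
  simp only [chG6_7, tateN_0, tateN_1, tateN_2, tateN_3, tateN_4, tateN_5, tateD_0, tateD_1, tateD_2, tateD_3, tateD_4, tateD_5]
  <;> ring

theorem chG6_8_eq (c : R) : chG6_8 c = (tateN_3 c * tateN_5 c + tateN_4 c * tateN_4 c + tateN_5 c * tateN_3 c) - (6 * (tateN_3 c * tateD_5 c) + 6 * (tateN_4 c * tateD_4 c) + 6 * (tateN_5 c * tateD_3 c) + tateD_3 c * tateD_5 c + tateD_4 c * tateD_4 c + tateD_5 c * tateD_3 c) := by
  simp only [chG6_8, tateN_0, tateN_1, tateN_2, tateN_3, tateN_4, tateN_5, tateD_0, tateD_1, tateD_2, tateD_3, tateD_4, tateD_5]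
  <;> ring

theorem chG6_9_eq (c : R) : chG6_9 c = (tateN_4 c * tateN_5 c + tateN_5 c * tateN_4 c) - (6 * (tateN_4 c * tateD_5 c) + 6 * (tateN_5 c * tateD_4 c) + tateD_4 c * tateD_5 c + tateD_5 c * tateD_4 c) := by
  simp only [chG6_9, tateN_0, tateN_1, tateN_2, tateN_3, tateN_4, tateN_5, tateD_0, tateD_1, tateD_2, tateD_3, tateD_4, tateD_5]
  <;> ring

theorem chG6_10_eq (c : R) : chG6_10 c = (tateN_5 c * tateN_5 c) - (6 * (tateN_5 c * tateD_5 c) + tateD_5 c * tateD_5 c) := by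
  simp only [chG6_10, tateN_0, tateN_1, tateN_2, tateN_3, tateN_4, tateN_5, tateD_0, tateD_1, tateD_2, tateD_3, tateD_4, tateD_5]
  <;> ring

theorem chG6_eq (c s : R) : tateN c s ^ 2 - 6 * (tateN c s * tateD c s) - tateD c s ^ 2 = chG6 c s := by
  unfold chG6 tateN tateD
  rw [chG6_0_eq, chG6_1_eq, chG6_2_eq, chG6_3_eq, chG6_4_eq, chG6_5_eq, chG6_6_eq, chG6_7_eq, chG6_8_eq, chG6_9_eq, chG6_10_eq]
  <;> ring


end Fermat.Agent.S52.B.H360
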